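/-
Plan L (S30, then S31): the `p`-adic Galois representation attached to a system of Hecke
eigenvalues `χ : 𝕋 →+* 𝒪'`.  INTERFACE FILE (lead): the contracts between the packages.

* `[TATE]`  `s30_TateDatum N p` : the `p`-adic Tate module of `J₀(N)` as a finite free `ℤ_[p]`-module
  `Λ` with commuting actions of `G_ℚ` and of the Hecke operators `T ℓ`, continuity, unramifiedness
  outside `Np`, the Eichler–Shimura relation at Frobenius elements, and the occurrence of every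
  system of eigenvalues of the Prelude's Hecke algebra (`eig`).
* `[CYC]`   `s30_CycDatum p` : the `p`-adic cyclotomic character.
* `[DENS]`  `s30_DensContract` : quadratic relations at Frobenius elements + continuity + Frobenius
  density ⇒ `ρ g + d g • ρ g⁻¹` is a scalar for every `g`.
* `[TWO]`   `s30_TwoContract` : such a representation on a finite free module over a complete DVR
  `𝒪` yields a rank-two `GaloisRepAdic` over a finite extension `𝒪''` with characteristic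
  polynomials `X² - t g X + d g`.
-/
import Mathlib
import Fermat.Prelude.Def_CuspForm_HeckeGaloisRepDatum
import Fermat.Agent.Lib.S29.KIface

set_option autoImplicit false

open Polynomial IsLocalRing
open scoped TensorProduct

namespace Fermat.Agent.Lib.S30

open Fermat.Agent.Lib.S29

/-- **[TATE]** the `p`-adic Tate module of `J₀(N)` with its Galois and Hecke actions. -/
structure s30_TateDatum (N p : ℕ) [NeZero N] [Fact p.Prime] where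
  Λ : Type
  [instAddCommGroup : AddCommGroup Λ]
  [instModule : Module ℤ_[p] Λ]
  [instFree : Module.Free ℤ_[p] Λ]
  [instFinite : Module.Finite ℤ_[p] Λ]
  /-- the Galois action -/
  ρ : s29k_G →* Module.End ℤ_[p] Λ
  /-- the Hecke operators (only used for `ℓ ∤ N`) -/
  T : Nat.Primes → Module.End ℤ_[p] Λ
  T_comm : ∀ ℓ ℓ' : Nat.Primes, Commute (T ℓ) (T ℓ')
  comm : ∀ (ℓ : Nat.Primes) (σ : s29k_G), Commute (ρ σ) (T ℓ)
  /-- continuity: a finite Galois level acts trivially modulo `p ^ k` -/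
  cont : ∀ k : ℕ, ∃ L : IntermediateField ℚ (AlgebraicClosure ℚ), FiniteDimensional ℚ L ∧
    (∀ σ : s29k_G, ∀ x ∈ L, σ x ∈ L) ∧
    ∀ σ : s29k_G, (∀ x ∈ L, σ x = x) → ∀ v : Λ, ∃ w : Λ, ρ σ v - v = (p : ℤ_[p]) ^ k • w
  /-- inertia at `q ∤ Np` acts trivially -/
  unram : ∀ q : ℕ, q.Prime → ¬ q ∣ N * p →
    ∀ P : ValuationSubring (AlgebraicClosure ℚ), P.LiesOverPrime q →
      ∀ σ ∈ P.inertiaSubgroupIn ℚ, ρ σ = 1
  /-- Eichler–Shimura -/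
  frobQuad : ∀ ℓ : Nat.Primes, ¬ (ℓ : ℕ) ∣ N * p →
    ∀ A : ValuationSubring (AlgebraicClosure ℚ), A.LiesOverPrime ℓ →
      ∀ σ : s29k_G, A.IsFrobeniusAt σ ℓ →
        ρ σ * ρ σ - T ℓ * ρ σ + (((ℓ : ℕ) : ℤ_[p])) • (1 : Module.End ℤ_[p] Λ) = 0
  /-- every system of eigenvalues of the Hecke algebra (away from `S`) with values in a domain of
  characteristic zero over `ℤ_[p]` occurs in `𝒪 ⊗ Λ` -/
  eig : ∀ (S : Finset ℕ) (𝒪 : Type) [CommRing 𝒪] [IsDomain 𝒪] [CharZero 𝒪] [Algebra ℤ_[p] 𝒪]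
    (χ : CuspForm.heckeAlgebra N 2 (↑S : Set ℕ) →+* 𝒪),
    ∃ v : 𝒪 ⊗[ℤ_[p]] Λ, v ≠ 0 ∧
      ∀ (ℓ : ℕ) (hℓ : ℓ.Prime) (hℓN : ¬ ℓ ∣ N) (hℓS : ℓ ∉ (↑S : Set ℕ)),
        (T ⟨ℓ, hℓ⟩).baseChange 𝒪 v = χ (CuspForm.heckeAlgebra.T hℓ hℓN hℓS) • v

attribute [instance] s30_TateDatum.instAddCommGroup s30_TateDatum.instModule
  s30_TateDatum.instFree s30_TateDatum.instFinite

/-- **[CYC]** the `p`-adic cyclotomic character. -/
structure s30_CycDatum (p : ℕ) [Fact p.Prime] where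
  ε : s29k_G →* ℤ_[p]ˣ
  /-- Frobenius elements at `ℓ ≠ p` go to `ℓ` -/
  frob : ∀ ℓ : ℕ, ℓ.Prime → ℓ ≠ p →
    ∀ A : ValuationSubring (AlgebraicClosure ℚ), A.LiesOverPrime ℓ →
      ∀ σ : s29k_G, A.IsFrobeniusAt σ ℓ → ((ε σ : ℤ_[p]ˣ) : ℤ_[p]) = (ℓ : ℤ_[p])
  /-- inertia at `q ≠ p` is in the kernel -/
  unram : ∀ q : ℕ, q.Prime → q ≠ p →
    ∀ P : ValuationSubring (AlgebraicClosure ℚ), P.LiesOverPrime q →
      ∀ σ ∈ P.inertiaSubgroupIn ℚ, ε σ = 1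
  /-- continuity -/
  cont : ∀ k : ℕ, ∃ L : IntermediateField ℚ (AlgebraicClosure ℚ), FiniteDimensional ℚ L ∧
    (∀ σ : s29k_G, ∀ x ∈ L, σ x ∈ L) ∧
    ∀ σ : s29k_G, (∀ x ∈ L, σ x = x) → ∃ w : ℤ_[p], ((ε σ : ℤ_[p]ˣ) : ℤ_[p]) - 1 = (p : ℤ_[p]) ^ k * w

/-- Continuity of a character with values in the units of a local ring. -/
def s30_CharContinuous {𝒪 : Type} [CommRing 𝒪] [IsLocalRing 𝒪] (d : s29k_G →* 𝒪ˣ) : Prop :=
  ∀ n : ℕ, ∃ L : IntermediateField ℚ (AlgebraicClosure ℚ), FiniteDimensional ℚ L ∧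
    ∀ σ : s29k_G, (∀ x ∈ L, σ x = x) → ((d σ : 𝒪ˣ) : 𝒪) - 1 ∈ IsLocalRing.maximalIdeal 𝒪 ^ n

/-- **[DENS]**: quadratic relations at the Frobenius elements outside a finite set of primes,
continuity and Frobenius density give a scalar relation for every element of `G_ℚ`. -/
def s30_DensContract : Prop :=
  ∀ (𝒪 : Type) [CommRing 𝒪] [IsDomain 𝒪] [IsDiscreteValuationRing 𝒪]
    [IsAdicComplete (IsLocalRing.maximalIdeal 𝒪) 𝒪]
    (Λ : Type) [AddCommGroup Λ] [Module 𝒪 Λ] [Module.Free 𝒪 Λ] [Module.Finite 𝒪 Λ] [Nontrivial Λ]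
    (ρ : s29k_G →* Module.End 𝒪 Λ) (_ : GaloisActionIsAdicContinuous 𝒪 ρ)
    (d : s29k_G →* 𝒪ˣ) (_ : s30_CharContinuous d)
    (S₀ : Finset ℕ) (a : ℕ → 𝒪)
    (_ : ∀ ℓ : ℕ, ℓ.Prime → ℓ ∉ S₀ →
      ∀ A : ValuationSubring (AlgebraicClosure ℚ), A.LiesOverPrime ℓ →
        ∀ σ : s29k_G, A.IsFrobeniusAt σ ℓ →
          ρ σ * ρ σ - a ℓ • ρ σ + (ℓ : 𝒪) • (1 : Module.End 𝒪 Λ) = 0 ∧ ((d σ : 𝒪ˣ) : 𝒪) = (ℓ : 𝒪)),
    ∃ t : s29k_G → 𝒪, (∀ g : s29k_G, ρ g + ((d g : 𝒪ˣ) : 𝒪) • ρ g⁻¹ = t g • 1) ∧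
      ∀ ℓ : ℕ, ℓ.Prime → ℓ ∉ S₀ →
        ∀ A : ValuationSubring (AlgebraicClosure ℚ), A.LiesOverPrime ℓ →
          ∀ σ : s29k_G, A.IsFrobeniusAt σ ℓ → t σ = a ℓ

/-- **[TWO]**: from a continuous representation on a finite free module over `𝒪` all of whose
elements satisfy `ρ g + d g • ρ g⁻¹ = t g`, a rank-two `GaloisRepAdic` over a finite extension. -/
def s30_TwoContract : Prop :=
  ∀ (p : ℕ) [Fact p.Prime]
    (𝒪 : Type) [CommRing 𝒪] [IsDomain 𝒪] [IsDiscreteValuationRing 𝒪]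
    [IsAdicComplete (IsLocalRing.maximalIdeal 𝒪) 𝒪] [Finite (IsLocalRing.ResidueField 𝒪)]
    [CharZero 𝒪] (_ : (p : 𝒪) ∈ IsLocalRing.maximalIdeal 𝒪)
    (Λ : Type) [AddCommGroup Λ] [Module 𝒪 Λ] [Module.Free 𝒪 Λ] [Module.Finite 𝒪 Λ] [Nontrivial Λ]
    (ρ : s29k_G →* Module.End 𝒪 Λ) (_ : GaloisActionIsAdicContinuous 𝒪 ρ)
    (d : s29k_G →* 𝒪ˣ) (_ : s30_CharContinuous d) (t : s29k_G → 𝒪)
    (_ : ∀ g : s29k_G, ρ g + ((d g : 𝒪ˣ) : 𝒪) • ρ g⁻¹ = t g • 1),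
    ∃ (𝒪'' : Type) (_ : CommRing 𝒪'') (_ : IsDomain 𝒪'') (_ : IsDiscreteValuationRing 𝒪'')
      (_ : IsAdicComplete (IsLocalRing.maximalIdeal 𝒪'') 𝒪'')
      (_ : Finite (IsLocalRing.ResidueField 𝒪'')) (_ : CharZero 𝒪'')
      (_ : Algebra 𝒪 𝒪'') (_ : Module.Finite 𝒪 𝒪'') (_ : IsLocalHom (algebraMap 𝒪 𝒪'')),
      Function.Injective (algebraMap 𝒪 𝒪'') ∧
      ∃ ρ'' : GaloisRepAdic 𝒪'',
        (∀ g : s29k_G, LinearMap.charpoly (ρ''.ρ g) =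
          X ^ 2 - C (algebraMap 𝒪 𝒪'' (t g)) * X + C (algebraMap 𝒪 𝒪'' ((d g : 𝒪ˣ) : 𝒪))) ∧
        ∀ g : s29k_G, ρ g = 1 → d g = 1 → ρ''.ρ g = 1

/-- **[EXT-A]**: the coefficient ring of S30 receives a ring homomorphism from `ℤ_[p]`. -/
def s30_ExtAContract : Prop :=
  ∀ (p : ℕ) [Fact p.Prime]
    (𝒪 : Type) [CommRing 𝒪] [IsDomain 𝒪] [IsDiscreteValuationRing 𝒪]
    [IsAdicComplete (IsLocalRing.maximalIdeal 𝒪) 𝒪] (_ : (p : 𝒪) ∈ IsLocalRing.maximalIdeal 𝒪),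
    Nonempty (ℤ_[p] →+* 𝒪)

end Fermat.Agent.Lib.S30
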