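/-
Plan L (S30), package [CYC] (helper2): the `p`-adic cyclotomic character of `Gal(ℚ̄/ℚ)`.

* `s30c_eps p : s29k_G →* ℤ_[p]ˣ` : Mathlib's `cyclotomicCharacter (AlgebraicClosure ℚ) p`
  restricted to `Gal(ℚ̄/ℚ)`;
* `s30c_eps_spec` : `σ t = t ^ (ε σ mod p ^ n)` for `t ^ p ^ n = 1`;
* `s30c_eps_eq_of_pow` : `σ ζ = ζ ^ j` for a primitive `p ^ n`-th root of unity `ζ` implies
  `ε σ ≡ j mod p ^ n`;
* `s30c_frob`, `s30c_unram`, `s30c_cont` : the three fields of `s30_CycDatum p`;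
* `s30c_cycDatum p : s30_CycDatum p`;
* `s30c_conj : (s30c_cycDatum p).ε complexConjugation = -1`.
-/
import Mathlib
import Fermat.Prelude.Def_GaloisRep_ComplexConjugation
import Fermat.Agent.Lib.S30.LIface
import Fermat.Agent.Lib.S29.GSChi

set_option autoImplicit false

namespace Fermat.Agent.Lib.S30

open Fermat.Agent.Lib.S29
open IntermediateField

section roots

variable {L : Type*} [Field L]

/-- `m`-th roots of unity are distinct modulo a valuation subring over a prime `ℓ ∤ m`. -/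
theorem s30c_root_sep (A : ValuationSubring L) {m ℓ : ℕ} (hm : m ≠ 0) (hcop : Nat.Coprime m ℓ)
    (hA : (ℓ : L) ∈ A.nonunits) {η₁ η₂ : L} (h1 : η₁ ^ m = 1) (h2 : η₂ ^ m = 1)
    (h : η₁ - η₂ ∈ A.nonunits) : η₁ = η₂ := by
  have m1 := s29g_root_mem A hm h1
  have m2 := s29g_root_mem A hm h2
  set e₁ : A := ⟨η₁, m1⟩ with he₁
  set e₂ : A := ⟨η₂, m2⟩ with he₂
  have E1 : e₁ ^ m = 1 := Subtype.ext (by simpa using h1)
  have E2 : e₂ ^ m = 1 := Subtype.ext (by simpa using h2)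
  have hres : IsLocalRing.residue A e₁ = IsLocalRing.residue A e₂ := by
    rw [← sub_eq_zero, ← map_sub, IsLocalRing.residue_eq_zero_iff]
    exact (ValuationSubring.coe_mem_nonunits_iff (A := A)).mp h
  have hℓres : ((ℓ : ℕ) : IsLocalRing.ResidueField A) = 0 := by
    have : IsLocalRing.residue A ((ℓ : ℕ) : A) = 0 := by
      rw [IsLocalRing.residue_eq_zero_iff]
      exact (ValuationSubring.coe_mem_nonunits_iff (A := A)).mp (by simpa using hA)
    simpa using this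
  set ξ : A := e₁ * e₂ ^ (m - 1) with hξ
  have hm1 : m = (m - 1) + 1 := by omega
  have hξm : ξ ^ m = 1 := by
    rw [hξ, mul_pow, E1, one_mul, ← pow_mul, mul_comm, pow_mul, E2, one_pow]
  have hξres : IsLocalRing.residue A ξ = 1 := by
    rw [hξ, map_mul, map_pow, hres, ← pow_succ', ← hm1, ← map_pow, E2, map_one]
  by_cases hξ1 : ξ = 1
  · have : e₁ = e₂ := by
      have h3 : ξ * e₂ = e₁ := by
        rw [hξ, mul_assoc, ← pow_succ, ← hm1, E2, mul_one]
      rw [← h3, hξ1, one_mul]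
    exact congrArg Subtype.val this
  · exfalso
    have hsum : ∑ i ∈ Finset.range m, ξ ^ i = 0 := by
      have := mul_geom_sum ξ m
      rw [hξm, sub_self] at this
      rcases mul_eq_zero.mp this with h4 | h4
      · exact absurd (sub_eq_zero.mp h4) hξ1
      · exact h4
    have hmres : ((m : ℕ) : IsLocalRing.ResidueField A) = 0 := by
      have := congrArg (IsLocalRing.residue A) hsum
      rw [map_sum, map_zero] at this
      simp only [map_pow, hξres, one_pow, Finset.sum_const, Finset.card_range, nsmul_eq_mul,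
        mul_one] at this
      exact this
    have hcop' : IsCoprime (m : ℤ) (ℓ : ℤ) := by
      rw [Nat.isCoprime_iff_coprime]
      exact hcop
    obtain ⟨a, b, hab⟩ := hcop'
    have := congrArg (Int.cast : ℤ → IsLocalRing.ResidueField A) hab
    simp only [Int.cast_add, Int.cast_mul, Int.cast_natCast, hmres, hℓres, mul_zero, add_zero,
      Int.cast_one] at this
    exact zero_ne_one this

end roots

section eps

variable (p : ℕ) [Fact p.Prime]

theorem s30c_neZero_cast : NeZero ((p : ℕ) : ℚ) :=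
  ⟨Nat.cast_ne_zero.mpr (Fact.out : p.Prime).ne_zero⟩

attribute [local instance] s30c_neZero_cast

/-- The `p`-adic cyclotomic character of `Gal(ℚ̄/ℚ)`. -/
noncomputable def s30c_eps : s29k_G →* ℤ_[p]ˣ :=
  (cyclotomicCharacter (AlgebraicClosure ℚ) p).comp
    (MulSemiringAction.toRingAut s29k_G (AlgebraicClosure ℚ))

theorem s30c_eps_spec (σ : s29k_G) {n : ℕ} {t : AlgebraicClosure ℚ} (ht : t ^ p ^ n = 1) :
    σ t = t ^ (PadicInt.toZModPow n ((s30c_eps p σ : ℤ_[p]ˣ) : ℤ_[p])).val :=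
  cyclotomicCharacter.spec p (MulSemiringAction.toRingAut s29k_G (AlgebraicClosure ℚ) σ) t ht

variable {p}

/-- The character is determined by the action on one primitive root of unity. -/
theorem s30c_eps_eq_of_pow {n : ℕ} {ζ : AlgebraicClosure ℚ} (hζ : IsPrimitiveRoot ζ (p ^ n))
    (σ : s29k_G) (j : ℕ) (h : σ ζ = ζ ^ j) :
    PadicInt.toZModPow n ((s30c_eps p σ : ℤ_[p]ˣ) : ℤ_[p]) = (j : ZMod (p ^ n)) := by
  have hp : p.Prime := Fact.out
  have : NeZero (p ^ n) := ⟨pow_ne_zero n hp.ne_zero⟩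
  have h1 := s30c_eps_spec p σ hζ.pow_eq_one
  rw [h] at h1
  have h2 : j ≡ (PadicInt.toZModPow n ((s30c_eps p σ : ℤ_[p]ˣ) : ℤ_[p])).val [MOD p ^ n] := by
    have h4 : ζ ^ (j % orderOf ζ) =
        ζ ^ ((PadicInt.toZModPow n ((s30c_eps p σ : ℤ_[p]ˣ) : ℤ_[p])).val % orderOf ζ) := by
      rw [pow_mod_orderOf, pow_mod_orderOf, h1]
    rw [← hζ.eq_orderOf] at h4
    exact hζ.pow_inj (Nat.mod_lt _ (Nat.pos_of_ne_zero (NeZero.ne _)))
      (Nat.mod_lt _ (Nat.pos_of_ne_zero (NeZero.ne _))) h4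
  have h3 := (ZMod.natCast_eq_natCast_iff _ _ _).mpr h2
  rw [ZMod.natCast_zmod_val] at h3
  exact h3.symm

variable (p)

theorem s30c_exists_primitiveRoot (n : ℕ) :
    ∃ ζ : AlgebraicClosure ℚ, IsPrimitiveRoot ζ (p ^ n) :=
  HasEnoughRootsOfUnity.exists_primitiveRoot (AlgebraicClosure ℚ) (p ^ n)

/-- `ε(Frob_ℓ) = ℓ`. -/
theorem s30c_frob (ℓ : ℕ) (hℓ : ℓ.Prime) (hne : ℓ ≠ p)
    (A : ValuationSubring (AlgebraicClosure ℚ)) (hA : A.LiesOverPrime ℓ)
    (σ : s29k_G) (hσ : A.IsFrobeniusAt σ ℓ) :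
    ((s30c_eps p σ : ℤ_[p]ˣ) : ℤ_[p]) = (ℓ : ℤ_[p]) := by
  have hp : p.Prime := Fact.out
  rw [← PadicInt.ext_of_toZModPow]
  intro n
  rw [map_natCast]
  obtain ⟨ζ, hζ⟩ := s30c_exists_primitiveRoot p n
  have hpn : p ^ n ≠ 0 := pow_ne_zero n hp.ne_zero
  have hζp := hζ.pow_eq_one
  apply s30c_eps_eq_of_pow hζ σ ℓ
  have hmem := s29g_root_mem A hpn hζp
  have hcong := s29g_frob_congr A hσ hmem
  refine s30c_root_sep A hpn ?_ hA ?_ ?_ hcong
  · exact Nat.Coprime.pow_left n ((Nat.coprime_primes hp hℓ).mpr (Ne.symm hne))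
  · rw [← map_pow, hζp, map_one]
  · rw [← pow_mul, mul_comm, pow_mul, hζp, one_pow]

/-- `ε` is trivial on inertia at `q ≠ p`. -/
theorem s30c_unram (q : ℕ) (hq : q.Prime) (hne : q ≠ p)
    (P : ValuationSubring (AlgebraicClosure ℚ)) (hP : P.LiesOverPrime q)
    (σ : s29k_G) (hσ : σ ∈ P.inertiaSubgroupIn ℚ) : s30c_eps p σ = 1 := by
  have hp : p.Prime := Fact.out
  apply Units.ext
  rw [Units.val_one, ← PadicInt.ext_of_toZModPow]
  intro n
  obtain ⟨ζ, hζ⟩ := s30c_exists_primitiveRoot p n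
  have hpn : p ^ n ≠ 0 := pow_ne_zero n hp.ne_zero
  have hζp := hζ.pow_eq_one
  have hmem := s29g_root_mem P hpn hζp
  have hcong := s29g_inertia_congr P hσ hmem
  have hfix : σ ζ = ζ := by
    refine s30c_root_sep P hpn ?_ hP ?_ hζp hcong
    · exact Nat.Coprime.pow_left n ((Nat.coprime_primes hp hq).mpr (Ne.symm hne))
    · rw [← map_pow, hζp, map_one]
  rw [s30c_eps_eq_of_pow hζ σ 1 (by rw [hfix, pow_one]), map_one, Nat.cast_one]

/-- continuity -/
theorem s30c_cont (k : ℕ) :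
    ∃ L : IntermediateField ℚ (AlgebraicClosure ℚ), FiniteDimensional ℚ L ∧
      (∀ σ : s29k_G, ∀ x ∈ L, σ x ∈ L) ∧
      ∀ σ : s29k_G, (∀ x ∈ L, σ x = x) →
        ∃ w : ℤ_[p], ((s30c_eps p σ : ℤ_[p]ˣ) : ℤ_[p]) - 1 = (p : ℤ_[p]) ^ k * w := by
  have hp : p.Prime := Fact.out
  obtain ⟨ζ, hζ⟩ := s30c_exists_primitiveRoot p k
  have hpk : p ^ k ≠ 0 := pow_ne_zero k hp.ne_zero
  have hζp := hζ.pow_eq_one
  refine ⟨ℚ⟮ζ⟯, ?_, ?_, ?_⟩
  · exact adjoin.finiteDimensional (hζ.isIntegral (Nat.pos_of_ne_zero hpk)).tower_top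
  · intro σ x hx
    have h1 : σ x ∈ (ℚ⟮ζ⟯).map (σ : AlgebraicClosure ℚ →ₐ[ℚ] AlgebraicClosure ℚ) :=
      ⟨x, hx, rfl⟩
    rw [adjoin_map, Set.image_singleton] at h1
    have h2 : ℚ⟮(σ : AlgebraicClosure ℚ →ₐ[ℚ] AlgebraicClosure ℚ) ζ⟯ ≤ ℚ⟮ζ⟯ := by
      rw [adjoin_simple_le_iff]
      have := s30c_eps_spec p σ hζp
      change σ ζ ∈ ℚ⟮ζ⟯
      rw [this]
      exact pow_mem (mem_adjoin_simple_self ℚ ζ) _
    exact h2 h1
  · intro σ hσ
    have hfix : σ ζ = ζ := hσ ζ (mem_adjoin_simple_self ℚ ζ)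
    have h1 := s30c_eps_eq_of_pow hζ σ 1 (by rw [hfix, pow_one])
    have h2 : ((s30c_eps p σ : ℤ_[p]ˣ) : ℤ_[p]) - 1 ∈
        RingHom.ker (PadicInt.toZModPow k : ℤ_[p] →+* ZMod (p ^ k)) := by
      rw [RingHom.mem_ker, map_sub, h1, map_one, Nat.cast_one, sub_self]
    rw [PadicInt.ker_toZModPow, Ideal.mem_span_singleton'] at h2
    obtain ⟨a, ha⟩ := h2
    exact ⟨a, by rw [← ha, mul_comm]⟩

/-- **[CYC]** the `p`-adic cyclotomic datum. -/
noncomputable def s30c_cycDatum : s30_CycDatum p where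
  ε := s30c_eps p
  frob := s30c_frob p
  unram := s30c_unram p
  cont := s30c_cont p

end eps

section conj

/-- Complex conjugation inverts roots of unity. -/
theorem s30c_conj_root {ζ : AlgebraicClosure ℚ} {m : ℕ} (hm : m ≠ 0) (h : ζ ^ m = 1) :
    complexConjugation ζ = ζ ^ (m - 1) := by
  apply complexEmbedding.toRingHom.injective
  change complexEmbedding (complexConjugation ζ) = complexEmbedding (ζ ^ (m - 1))
  rw [complexEmbedding_complexConjugation, map_pow]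
  set z : ℂ := complexEmbedding ζ with hz
  have hzm : z ^ m = 1 := by rw [hz, ← map_pow, h, map_one]
  have hnorm : ‖z‖ = 1 := Complex.norm_eq_one_of_pow_eq_one hzm hm
  have hz0 : z ≠ 0 := by
    intro h0
    rw [h0, norm_zero] at hnorm
    exact zero_ne_one hnorm
  have h1 : (starRingEnd ℂ) z = z⁻¹ := (Complex.inv_eq_conj hnorm).symm
  rw [h1]
  have hm1 : m = (m - 1) + 1 := by omega
  refine inv_eq_of_mul_eq_one_right ?_
  rw [← pow_succ', ← hm1, hzm]

variable (p : ℕ) [Fact p.Prime]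

/-- `ε(c) = -1` for the complex conjugation `c`. -/
theorem s30c_conj : (s30c_cycDatum p).ε complexConjugation = -1 := by
  have hp : p.Prime := Fact.out
  change s30c_eps p complexConjugation = -1
  apply Units.ext
  rw [Units.val_neg, Units.val_one, ← PadicInt.ext_of_toZModPow]
  intro n
  obtain ⟨ζ, hζ⟩ := s30c_exists_primitiveRoot p n
  have hpn : p ^ n ≠ 0 := pow_ne_zero n hp.ne_zero
  rw [s30c_eps_eq_of_pow hζ complexConjugation (p ^ n - 1)
    (s30c_conj_root hpn hζ.pow_eq_one), map_neg, map_one,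
    Nat.cast_sub (Nat.one_le_iff_ne_zero.mpr hpn), Nat.cast_one, ZMod.natCast_self, zero_sub]

end conj

end Fermat.Agent.Lib.S30
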