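/-
Plan L (S30), package [KN] (lead): the Kummer map at an arbitrary level `n ≥ 1`,
`s30k_kappa N n : J₀(N)(ℚ̄)[n] →+ (Γ₀(N) → ℤ/n)`, as a definition: injective, its image contains
`H_n = s29h_Hp N n`, Hecke-equivariant for `ℓ ∤ N`.  (Plan K verbatim with the prime `p` replaced
by `n`; `K1 := ℂ`, `ι1 := id`.)
-/
import Fermat.Agent.Lib.S29.KappaFinal

set_option autoImplicit false
set_option linter.unusedSectionVars false
set_option linter.style.haveILetI false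

namespace Fermat.Agent.Lib.S30

open UpperHalfPlane hiding I
open AlgebraicCurve ModularCurve IntermediateField CongruenceSubgroup
open Fermat.Agent.Lib.FF Fermat.Agent.Lib.S18 Fermat.Agent.Lib.S29
open scoped MatrixGroups

noncomputable section

local notation "Kb" => AlgebraicClosure ℚ

attribute [local instance] s29a_algebraC

variable (N : ℕ) [NeZero N] (n : ℕ) [NeZero n]

theorem s30k_ffGenKb : FFGen Kb (s29bp_jK Kb N) := s29bp_ffGen (algebraMap Kb ℂ) N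

theorem s30k_ffGenC : FFGen ℂ (s29bp_jK ℂ N) := s29bp_ffGen (RingHom.id ℂ) N

/-- The bridge hypotheses over `ℂ`. -/
theorem s30k_hB : s29m_BridgeHyp ℂ N n (s29bp_phi (RingHom.id ℂ) N) :=
  s29m_bridgeHypK (RingHom.id ℂ) N Function.surjective_id n

/-- The base-change map `J₀(N)(ℚ̄) →+ Pic⁰(ℂ(X₀(N)))`. -/
def s30k_c : JZero N →+ Pic0 ℂ ↥(s29bp_FK ℂ N) :=
  haveI := s30k_ffGenKb N
  haveI := s30k_ffGenC N
  s29a_c (K1 := ℂ) N

/-- Its restriction to the `n`-torsion. -/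
def s30k_ct : s29k_Jp N n →+ Pic0.torsion ℂ ↥(s29bp_FK ℂ N) n :=
  haveI := s30k_ffGenKb N
  haveI := s30k_ffGenC N
  s29a_ct (K1 := ℂ) N n

theorem s30k_ct_coe (x : s29k_Jp N n) :
    ((s30k_ct N n x : Pic0.torsion ℂ ↥(s29bp_FK ℂ N) n) : Pic0 ℂ ↥(s29bp_FK ℂ N)) =
      s30k_c N (x : JZero N) := rfl

theorem s30k_c_injective : Function.Injective (s30k_c N) := by
  haveI := s30k_ffGenKb N
  haveI := s30k_ffGenC N
  exact s29c_c_injective (K1 := ℂ) (modularFunctionFieldFull N) (s29bp_jK Kb N) (s29bp_jK ℂ N)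

theorem s30k_c_surj_torsion (y : Pic0 ℂ ↥(s29bp_FK ℂ N))
    (hy : y ∈ Pic0.torsion ℂ ↥(s29bp_FK ℂ N) n) : ∃ x : JZero N, s30k_c N x = y := by
  haveI := s30k_ffGenKb N
  haveI := s30k_ffGenC N
  exact s29cs_surj_torsion' (K1 := ℂ) (modularFunctionFieldFull N) (s29bp_jK Kb N)
    (s29bp_jK ℂ N) (s29a_j_jK N) n
    (s29m_finite_torsionK (RingHom.id ℂ) N n Function.surjective_id) y hy

/-- **The Kummer map at level `n`.** -/
def s30k_kappa : s29k_Jp N n →+ (Additive (Gamma0 N) →+ ZMod n) :=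
  (s29m_kappaC (s30k_hB N n)).comp (s30k_ct N n)

theorem s30k_kappa_apply (x : s29k_Jp N n) :
    s30k_kappa N n x = s29m_kappaC (s30k_hB N n) (s30k_ct N n x) := rfl

theorem s30k_kappa_injective : Function.Injective (s30k_kappa N n) := by
  intro x y hxy
  have h1 := s29m_kappaC_injective (s30k_hB N n) hxy
  have h2 := congrArg Subtype.val h1
  rw [s30k_ct_coe, s30k_ct_coe] at h2
  exact Subtype.ext (s30k_c_injective N h2)

/-- The image of `κ_n` contains `H_n`. -/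
theorem s30k_kappa_surj (χ : Additive (Gamma0 N) →+ ZMod n) (hχ : χ ∈ s29h_Hp N n) :
    ∃ x : s29k_Jp N n, s30k_kappa N n x = χ := by
  obtain ⟨y, hy⟩ := s29l_lambda_Hp N (RingHom.id ℂ) (s30k_hB N n) χ hχ
  obtain ⟨x, hx⟩ := s30k_c_surj_torsion N n (y : Pic0 ℂ ↥(s29bp_FK ℂ N)) y.2
  have hxt : x ∈ Pic0.torsion Kb (modularFunctionFieldBar N) n := by
    rw [Pic0.mem_torsion]
    apply s30k_c_injective N
    rw [map_zsmul, hx, map_zero]
    exact Pic0.mem_torsion.mp y.2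
  refine ⟨⟨x, hxt⟩, ?_⟩
  rw [s30k_kappa_apply]
  have : s30k_ct N n ⟨x, hxt⟩ = y := Subtype.ext hx
  rw [this, hy]

/-- Hecke-equivariance of `κ_n` for primes `ℓ ∤ N`. -/
theorem s30k_kappa_hecke (ℓ : ℕ) [hℓ : Fact ℓ.Prime] (hℓN : ¬ ℓ ∣ N) (x : s29k_Jp N n) :
    s30k_kappa N n (s29k_Tl N n ⟨ℓ, hℓ.out⟩ x) =
      s29h_heckeHom N ℓ (ZMod n) (s30k_kappa N n x) := by
  haveI := s30k_ffGenKb N
  haveI := s30k_ffGenC N
  exact s29q_EQ ((RingHom.id ℂ).comp (algebraMap Kb ℂ)) (s30k_hB N n) (s29a_j (K1 := ℂ) N)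
    (s29a_phi_j (RingHom.id ℂ) N) (s29a_c (K1 := ℂ) N) (s29a_hc N n)
    (fun x => s29a_ct (K1 := ℂ) N n x) (fun x => s29a_ct_coe N n x) ℓ hℓN x

end

end Fermat.Agent.Lib.S30
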