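/-
Plan L (S30), package [TATE], part C1 (helper6): **levelwise facts on `J₀(N)(ℚ̄)` for [TATE]**.

* `s30a_finite_torsion N n` : `J₀(N)(ℚ̄)[n]` is finite (`n ≥ 1`);
* `s30a_exists_level N n` : a finite GALOIS-STABLE level `L ⊆ ℚ̄` such that every automorphism fixing `L`
  pointwise fixes `J₀(N)(ℚ̄)[n]` pointwise;
* `s30a_pt_frobQuad`, `s30a_pt_unram`, `s30a_pt_comm` : Eichler–Shimura relation at Frobenius elements,
  triviality of inertia and Hecke–Galois commutation on ALL `p`-power torsion points (from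
  `s29g_S37Int`), in the shape needed componentwise on the Tate module.
-/
import Mathlib
import Fermat.Agent.Lib.S30.KN
import Fermat.Agent.Lib.S29.GSInt
import Fermat.Agent.Lib.CFT.GalRedChi

set_option autoImplicit false
set_option linter.unusedSectionVars false
set_option linter.style.haveILetI false

namespace Fermat.Agent.Lib.S30

open AlgebraicCurve ModularCurve IntermediateField
open Fermat.Agent.Lib.S29

noncomputable section

variable (N : ℕ) [NeZero N]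

/-- `J₀(N)(ℚ̄)[n]` is finite for `n ≥ 1`. -/
theorem s30a_finite_torsion (n : ℕ) [NeZero n] : Finite (s29k_Jp N n) := by
  haveI : Finite (Pic0.torsion ℂ ↥(s29bp_FK ℂ N) n) :=
    s29m_finite_torsionK (RingHom.id ℂ) N n Function.surjective_id
  refine Finite.of_injective (s30k_ct N n) ?_
  intro x y hxy
  have h2 := congrArg Subtype.val hxy
  rw [s30k_ct_coe, s30k_ct_coe] at h2
  exact Subtype.ext (s30k_c_injective N h2)

/-- **The level of `J₀(N)(ℚ̄)[n]`**: a finite Galois-stable subfield `L ⊆ ℚ̄` such that `Gal(ℚ̄/L)`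
fixes every `n`-torsion point. -/
theorem s30a_exists_level (n : ℕ) [NeZero n] :
    ∃ L : IntermediateField ℚ (AlgebraicClosure ℚ), FiniteDimensional ℚ L ∧
      (∀ σ : s29k_G, ∀ y ∈ L, σ y ∈ L) ∧
      ∀ σ : s29k_G, (∀ y ∈ L, σ y = y) → ∀ x : JZero N, (n : ℤ) • x = 0 → σ • x = x := by
  haveI := s30a_finite_torsion N n
  choose L₀ hL₀fd hL₀ using fun x : s29k_Jp N n => s29g_S37Int.openStab N (x : JZero N)
  haveI : ∀ x, FiniteDimensional ℚ (L₀ x) := hL₀fd
  set L₁ : IntermediateField ℚ (AlgebraicClosure ℚ) := ⨆ x, L₀ x with hL₁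
  haveI : FiniteDimensional ℚ L₁ := IntermediateField.finiteDimensional_iSup_of_finite
  set L : IntermediateField ℚ (AlgebraicClosure ℚ) :=
    IntermediateField.normalClosure ℚ L₁ (AlgebraicClosure ℚ) with hL
  have hle : L₁ ≤ L := IntermediateField.le_normalClosure L₁
  have hnorm : Normal ℚ L := normalClosure.normal ℚ L₁ (AlgebraicClosure ℚ)
  refine ⟨L, normalClosure.is_finiteDimensional ℚ L₁ (AlgebraicClosure ℚ),
    fun σ y hy => ?_, fun σ hσ x hx => ?_⟩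
  · have h1 := IntermediateField.normal_iff_forall_map_le'.mp hnorm σ
    exact h1 ((IntermediateField.mem_map _).mpr ⟨y, hy, rfl⟩)
  · have hxt : x ∈ Pic0.torsion (AlgebraicClosure ℚ) (modularFunctionFieldBar N) n :=
      Pic0.mem_torsion.mpr hx
    refine hL₀ ⟨x, hxt⟩ σ (fun y hy => hσ y (hle ?_))
    exact (le_iSup L₀ ⟨x, hxt⟩) hy

/-- A prime `ℓ ∤ N p` does not divide `N p ^ k`. -/
theorem s30a_not_dvd_pow {ℓ p : ℕ} (hℓ : ℓ.Prime) (k : ℕ) (h : ¬ ℓ ∣ N * p) :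
    ¬ ℓ ∣ N * p ^ k := by
  intro h1
  rcases (Nat.Prime.dvd_mul hℓ).mp h1 with h2 | h2
  · exact h (Dvd.dvd.mul_right h2 p)
  · exact h (Dvd.dvd.mul_left (hℓ.dvd_of_dvd_pow h2) N)

/-- **Eichler–Shimura** on all `p`-power torsion points. -/
theorem s30a_pt_frobQuad (p : ℕ) (ℓ : Nat.Primes) (hℓ : ¬ (ℓ : ℕ) ∣ N * p)
    (A : ValuationSubring (AlgebraicClosure ℚ)) (hA : A.LiesOverPrime ℓ) (σ : s29k_G)
    (hσ : A.IsFrobeniusAt σ ℓ) (k : ℕ) (x : JZero N) (hx : ((p ^ k : ℕ) : ℤ) • x = 0) :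
    σ • σ • x - heckeOperatorBar N ℓ (σ • x) + ((ℓ : ℕ) : ℤ) • x = 0 :=
  s29g_S37Int.frobQuad N (p ^ k) ℓ (s30a_not_dvd_pow N ℓ.2 k hℓ) A hA σ hσ x hx

/-- **Inertia at `q ∤ N p` acts trivially** on all `p`-power torsion points. -/
theorem s30a_pt_unram (p : ℕ) (q : ℕ) (hq : q.Prime) (hqNp : ¬ q ∣ N * p)
    (A : ValuationSubring (AlgebraicClosure ℚ)) (hA : A.LiesOverPrime q) (σ : s29k_G)
    (hσ : σ ∈ A.inertiaSubgroupIn ℚ) (k : ℕ) (x : JZero N) (hx : ((p ^ k : ℕ) : ℤ) • x = 0) :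
    σ • x = x :=
  s29g_S37Int.unram N (p ^ k) q hq (s30a_not_dvd_pow N hq k hqNp) A hA σ hσ x hx

/-- **Galois commutes with the Hecke operators** on `J₀(N)(ℚ̄)`. -/
theorem s30a_pt_comm (ℓ : Nat.Primes) (σ : s29k_G) (x : JZero N) :
    σ • heckeOperatorBar N ℓ x = heckeOperatorBar N ℓ (σ • x) :=
  s29g_S37Int.comm N ℓ σ x

end

end Fermat.Agent.Lib.S30
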