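/-
Plan L (S30), package [TATE-A] (helper1): the `p`-adic Tate module of an ABSTRACT abelian group.

For an abelian group `A` and a prime `p`,
  `s30a_Tp A p = {x : ℕ → A | x 0 = 0 ∧ ∀ n, p • x (n+1) = x n}`
(an additive subgroup of `ℕ → A`; automatically `p ^ n • x n = 0`).  It is a `ℤ_[p]`-module
(`(a • x) n = a.appr n • x n`), functorial in `A` (`s30a_map : AddMonoid.End A →+* Module.End ℤ_[p] _`),
and `x k = 0 → x ∈ p ^ k • Tp`.  Mathlib only.
-/
import Mathlib

set_option autoImplicit false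

namespace Fermat.Agent.Lib.S30

section general

variable (A : Type*) [AddCommGroup A] (p : ℕ)

/-- The `p`-adic Tate module of the abelian group `A`, as a subgroup of `ℕ → A`. -/
def s30a_Tp : AddSubgroup (ℕ → A) where
  carrier := {x | x 0 = 0 ∧ ∀ n, p • x (n + 1) = x n}
  zero_mem' := ⟨rfl, fun n => by simp⟩
  add_mem' := by
    rintro x y ⟨hx0, hx⟩ ⟨hy0, hy⟩
    refine ⟨by simp [hx0, hy0], fun n => ?_⟩
    simp only [Pi.add_apply, smul_add, hx n, hy n]
  neg_mem' := by
    rintro x ⟨hx0, hx⟩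
    refine ⟨by simp [hx0], fun n => ?_⟩
    simp only [Pi.neg_apply, smul_neg, hx n]

variable {A p}

theorem s30a_mem_Tp {x : ℕ → A} :
    x ∈ s30a_Tp A p ↔ x 0 = 0 ∧ ∀ n, p • x (n + 1) = x n := Iff.rfl

theorem s30a_zero (x : s30a_Tp A p) : (x : ℕ → A) 0 = 0 := x.2.1

theorem s30a_succ (x : s30a_Tp A p) (n : ℕ) : p • (x : ℕ → A) (n + 1) = (x : ℕ → A) n := x.2.2 n

theorem s30a_pow_smul_add (x : s30a_Tp A p) (k n : ℕ) :
    p ^ k • (x : ℕ → A) (k + n) = (x : ℕ → A) n := by
  induction k generalizing n with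
  | zero => simp
  | succ k ih =>
    have h : k + 1 + n = k + (n + 1) := by omega
    rw [h, pow_succ, mul_smul, smul_comm, ih, s30a_succ]

theorem s30a_pow_smul (x : s30a_Tp A p) (n : ℕ) : p ^ n • (x : ℕ → A) n = 0 := by
  have := s30a_pow_smul_add x n 0
  rw [add_zero] at this
  rw [this, s30a_zero]

theorem s30a_ext {x y : s30a_Tp A p} (h : ∀ n, (x : ℕ → A) n = (y : ℕ → A) n) : x = y :=
  Subtype.ext (funext h)

@[simp] theorem s30a_add_apply (x y : s30a_Tp A p) (n : ℕ) :
    ((x + y : s30a_Tp A p) : ℕ → A) n = (x : ℕ → A) n + (y : ℕ → A) n := rfl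

@[simp] theorem s30a_sub_apply (x y : s30a_Tp A p) (n : ℕ) :
    ((x - y : s30a_Tp A p) : ℕ → A) n = (x : ℕ → A) n - (y : ℕ → A) n := rfl

@[simp] theorem s30a_neg_apply (x : s30a_Tp A p) (n : ℕ) :
    ((-x : s30a_Tp A p) : ℕ → A) n = -(x : ℕ → A) n := rfl

@[simp] theorem s30a_zero_apply (n : ℕ) : ((0 : s30a_Tp A p) : ℕ → A) n = 0 := rfl

@[simp] theorem s30a_nsmul_apply (m : ℕ) (x : s30a_Tp A p) (n : ℕ) :
    ((m • x : s30a_Tp A p) : ℕ → A) n = m • (x : ℕ → A) n := by
  rw [AddSubgroupClass.coe_nsmul, Pi.smul_apply]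

@[simp] theorem s30a_zsmul_apply (m : ℤ) (x : s30a_Tp A p) (n : ℕ) :
    ((m • x : s30a_Tp A p) : ℕ → A) n = m • (x : ℕ → A) n := by
  rw [AddSubgroupClass.coe_zsmul, Pi.smul_apply]

/-- Natural numbers that agree modulo `m` act in the same way on elements killed by `m`. -/
theorem s30a_nsmul_congr {m a b : ℕ} (hab : (a : ZMod m) = (b : ZMod m)) {y : A}
    (hy : m • y = 0) : a • y = b • y := by
  have key : ∀ c : ℕ, c • y = (c % m) • y := by
    intro c
    conv_lhs => rw [← Nat.mod_add_div c m]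
    rw [add_smul, mul_comm, mul_smul, hy, smul_zero, add_zero]
  rw [key a, key b, (ZMod.natCast_eq_natCast_iff' a b m).mp hab]

end general

section padic

variable {A : Type*} [AddCommGroup A] {p : ℕ} [hp : Fact p.Prime]

/-- The action of `a : ℤ_[p]` on a point killed by `p ^ n` only depends on `a mod p ^ n`. -/
theorem s30a_appr_smul_eq {n : ℕ} (a : ℤ_[p]) (m : ℕ)
    (h : PadicInt.toZModPow n a = (m : ZMod (p ^ n))) {y : A} (hy : p ^ n • y = 0) :
    a.appr n • y = m • y :=
  s30a_nsmul_congr (m := p ^ n) h hy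

theorem s30a_appr_succ_smul_eq {n : ℕ} (a : ℤ_[p]) {y : A} (hy : p ^ n • y = 0) :
    a.appr (n + 1) • y = a.appr n • y := by
  refine s30a_nsmul_congr (m := p ^ n) ?_ hy
  have := PadicInt.cast_toZModPow n (n + 1) (Nat.le_succ n) a
  change ZMod.cast ((a.appr (n + 1) : ℕ) : ZMod (p ^ (n + 1))) = ((a.appr n : ℕ) : ZMod (p ^ n)) at this
  rw [← this, ZMod.cast_natCast (pow_dvd_pow p (Nat.le_succ n))]

/-- The scalar action of `ℤ_[p]` on the Tate module. -/
noncomputable instance s30a_instSMul : SMul ℤ_[p] (s30a_Tp A p) where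
  smul a x := ⟨fun n => a.appr n • (x : ℕ → A) n, by
    refine ⟨by show a.appr 0 • (x : ℕ → A) 0 = 0; rw [s30a_zero, smul_zero], fun n => ?_⟩
    show p • a.appr (n + 1) • (x : ℕ → A) (n + 1) = a.appr n • (x : ℕ → A) n
    rw [smul_comm, s30a_succ, s30a_appr_succ_smul_eq a (s30a_pow_smul x n)]⟩

theorem s30a_smul_apply (a : ℤ_[p]) (x : s30a_Tp A p) (n : ℕ) :
    ((a • x : s30a_Tp A p) : ℕ → A) n = a.appr n • (x : ℕ → A) n := rfl

theorem s30a_smul_apply_of_eq (a : ℤ_[p]) (x : s30a_Tp A p) (n m : ℕ)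
    (h : PadicInt.toZModPow n a = (m : ZMod (p ^ n))) :
    ((a • x : s30a_Tp A p) : ℕ → A) n = m • (x : ℕ → A) n := by
  rw [s30a_smul_apply, s30a_appr_smul_eq a m h (s30a_pow_smul x n)]

noncomputable instance s30a_instModule : Module ℤ_[p] (s30a_Tp A p) where
  one_smul x := by
    refine s30a_ext fun n => ?_
    rw [s30a_smul_apply_of_eq 1 x n 1 (by simp), one_smul]
  mul_smul a b x := by
    refine s30a_ext fun n => ?_
    rw [s30a_smul_apply_of_eq (a * b) x n (a.appr n * b.appr n)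
      (by rw [map_mul]; push_cast; rfl), mul_smul]
    rfl
  smul_zero a := by
    refine s30a_ext fun n => ?_
    rw [s30a_smul_apply, s30a_zero_apply, smul_zero]
  smul_add a x y := by
    refine s30a_ext fun n => ?_
    rw [s30a_smul_apply, s30a_add_apply, smul_add]
    rfl
  add_smul a b x := by
    refine s30a_ext fun n => ?_
    rw [s30a_smul_apply_of_eq (a + b) x n (a.appr n + b.appr n)
      (by rw [map_add]; push_cast; rfl), add_smul]
    rfl
  zero_smul x := by
    refine s30a_ext fun n => ?_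
    rw [s30a_smul_apply_of_eq 0 x n 0 (by simp), zero_smul]
    rfl

@[simp] theorem s30a_natCast_smul_apply (m : ℕ) (x : s30a_Tp A p) (n : ℕ) :
    (((m : ℤ_[p]) • x : s30a_Tp A p) : ℕ → A) n = m • (x : ℕ → A) n := by
  rw [Nat.cast_smul_eq_nsmul, s30a_nsmul_apply]

@[simp] theorem s30a_intCast_smul_apply (m : ℤ) (x : s30a_Tp A p) (n : ℕ) :
    (((m : ℤ_[p]) • x : s30a_Tp A p) : ℕ → A) n = m • (x : ℕ → A) n := by
  rw [Int.cast_smul_eq_zsmul, s30a_zsmul_apply]

/-- The `n`-th projection, as an additive map. -/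
def s30a_proj (A : Type*) [AddCommGroup A] (p n : ℕ) : s30a_Tp A p →+ A where
  toFun x := (x : ℕ → A) n
  map_zero' := rfl
  map_add' _ _ := rfl

omit hp in
@[simp] theorem s30a_proj_apply (n : ℕ) (x : s30a_Tp A p) :
    s30a_proj A p n x = (x : ℕ → A) n := rfl

/-- **Key divisibility**: an element of the Tate module whose `k`-th component vanishes is
divisible by `p ^ k`. -/
theorem s30a_exists_pow_smul (x : s30a_Tp A p) (k : ℕ) (hx : (x : ℕ → A) k = 0) :
    ∃ w : s30a_Tp A p, x = (p : ℤ_[p]) ^ k • w := by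
  refine ⟨⟨fun n => (x : ℕ → A) (k + n), ?_, fun n => ?_⟩, ?_⟩
  · show (x : ℕ → A) (k + 0) = 0
    rw [add_zero, hx]
  · show p • (x : ℕ → A) (k + (n + 1)) = (x : ℕ → A) (k + n)
    exact s30a_succ x (k + n)
  · refine s30a_ext fun n => ?_
    rw [← Nat.cast_pow, s30a_natCast_smul_apply]
    exact (s30a_pow_smul_add x k n).symm

/-- Conversely the `k`-th component of a multiple of `p ^ k` vanishes. -/
theorem s30a_pow_smul_apply_eq_zero (w : s30a_Tp A p) (k : ℕ) :
    (((p : ℤ_[p]) ^ k • w : s30a_Tp A p) : ℕ → A) k = 0 := by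
  rw [← Nat.cast_pow, s30a_natCast_smul_apply, s30a_pow_smul]

/-- Functoriality: an additive endomorphism of `A` acts `ℤ_[p]`-linearly on the Tate module. -/
noncomputable def s30a_mapLin (f : AddMonoid.End A) : Module.End ℤ_[p] (s30a_Tp A p) where
  toFun x := ⟨fun n => f ((x : ℕ → A) n), by
    refine ⟨?_, fun n => ?_⟩
    · show f ((x : ℕ → A) 0) = 0
      rw [s30a_zero, map_zero]
    · show p • f ((x : ℕ → A) (n + 1)) = f ((x : ℕ → A) n)
      rw [← map_nsmul, s30a_succ]⟩
  map_add' x y := by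
    refine s30a_ext fun n => ?_
    show f ((x : ℕ → A) n + (y : ℕ → A) n) = f ((x : ℕ → A) n) + f ((y : ℕ → A) n)
    rw [map_add]
  map_smul' a x := by
    refine s30a_ext fun n => ?_
    show f (a.appr n • (x : ℕ → A) n) = a.appr n • f ((x : ℕ → A) n)
    rw [map_nsmul]

@[simp] theorem s30a_mapLin_apply (f : AddMonoid.End A) (x : s30a_Tp A p) (n : ℕ) :
    ((s30a_mapLin f x : s30a_Tp A p) : ℕ → A) n = f ((x : ℕ → A) n) := rfl

/-- Functoriality of the Tate module, as a ring homomorphism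
`End_ℤ(A) →+* End_{ℤ_[p]}(T_p A)`. -/
noncomputable def s30a_map (A : Type*) [AddCommGroup A] (p : ℕ) [Fact p.Prime] :
    AddMonoid.End A →+* Module.End ℤ_[p] (s30a_Tp A p) where
  toFun := s30a_mapLin
  map_one' := by
    refine LinearMap.ext fun x => s30a_ext fun n => ?_
    rfl
  map_mul' f g := by
    refine LinearMap.ext fun x => s30a_ext fun n => ?_
    rfl
  map_zero' := by
    refine LinearMap.ext fun x => s30a_ext fun n => ?_
    rfl
  map_add' f g := by
    refine LinearMap.ext fun x => s30a_ext fun n => ?_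
    rfl

@[simp] theorem s30a_map_apply (f : AddMonoid.End A) (x : s30a_Tp A p) (n : ℕ) :
    ((s30a_map A p f x : s30a_Tp A p) : ℕ → A) n = f ((x : ℕ → A) n) := rfl

/-- Two endomorphisms of `A` that agree on all `p`-power torsion induce the same endomorphism of
the Tate module. -/
theorem s30a_map_congr {f g : AddMonoid.End A}
    (h : ∀ (n : ℕ) (y : A), p ^ n • y = 0 → f y = g y) : s30a_map A p f = s30a_map A p g := by
  refine LinearMap.ext fun x => s30a_ext fun n => ?_
  exact h n _ (s30a_pow_smul x n)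

/-- An endomorphism of the Tate module vanishes as soon as it does so componentwise. -/
theorem s30a_end_ext {F G : Module.End ℤ_[p] (s30a_Tp A p)}
    (h : ∀ (x : s30a_Tp A p) (n : ℕ), ((F x : s30a_Tp A p) : ℕ → A) n = ((G x : s30a_Tp A p) : ℕ → A) n) :
    F = G :=
  LinearMap.ext fun x => s30a_ext fun n => h x n

/-- **Generic continuity**: an endomorphism of `A` fixing the `p ^ k`-torsion pointwise acts
trivially on the Tate module modulo `p ^ k`. -/
theorem s30a_map_sub_mem (f : AddMonoid.End A) (k : ℕ)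
    (hf : ∀ y : A, p ^ k • y = 0 → f y = y) (v : s30a_Tp A p) :
    ∃ w : s30a_Tp A p, s30a_map A p f v - v = (p : ℤ_[p]) ^ k • w := by
  refine s30a_exists_pow_smul _ k ?_
  rw [s30a_sub_apply, s30a_map_apply, hf _ (s30a_pow_smul v k), sub_self]

/-- Generic triviality: an endomorphism of `A` fixing all `p`-power torsion acts trivially on the
Tate module. -/
theorem s30a_map_eq_one {f : AddMonoid.End A}
    (hf : ∀ (n : ℕ) (y : A), p ^ n • y = 0 → f y = y) : s30a_map A p f = 1 := by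
  rw [← map_one (s30a_map A p)]
  exact s30a_map_congr fun n y hy => hf n y hy

end padic

end Fermat.Agent.Lib.S30
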