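/-
Plan L (S30), package [TATE-C] (helper1): the Galois and Hecke actions on the `p`-adic Tate module
`s30a_TJ N p = s30a_Tp (JZero N) p` of `J₀(N)(ℚ̄)`, through the functoriality `s30a_map` of
`Lib/S30/TateMod.lean`:

* `s30a_rho N p : s29k_G →* Module.End ℤ_[p] (s30a_TJ N p)`,
* `s30a_T N p : Nat.Primes → Module.End ℤ_[p] (s30a_TJ N p)`,
* `s30a_comm`, `s30a_unram`, `s30a_frobQuad` (fields of `s30_TateDatum`, from the landed S18/S37
  packages via `Lib/S29/GSInt.lean`),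
* `s30a_cont_of_level` : the field `cont` from a finite Galois-stable level field trivialising the
  `p ^ k`-torsion.
-/
import Fermat.Agent.Lib.S30.TateMod
import Fermat.Agent.Lib.S29.GSInt

set_option autoImplicit false
set_option linter.unusedSectionVars false

namespace Fermat.Agent.Lib.S30

open ModularCurve AlgebraicCurve Fermat.Agent.Lib.S29

noncomputable section

variable (N : ℕ) [NeZero N] (p : ℕ) [Fact p.Prime]

/-- The `p`-adic Tate module of `J₀(N)(ℚ̄)`. -/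
abbrev s30a_TJ : Type := s30a_Tp (JZero N) p

/-- The Galois action on the Tate module. -/
def s30a_rho : s29k_G →* Module.End ℤ_[p] (s30a_TJ N p) :=
  (s30a_map (JZero N) p : AddMonoid.End (JZero N) →* Module.End ℤ_[p] (s30a_TJ N p)).comp
    (DistribMulAction.toAddMonoidEnd s29k_G (JZero N))

@[simp] theorem s30a_rho_apply (σ : s29k_G) (x : s30a_TJ N p) (n : ℕ) :
    ((s30a_rho N p σ x : s30a_TJ N p) : ℕ → JZero N) n = σ • (x : ℕ → JZero N) n := rfl

/-- The Hecke operators on the Tate module. -/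
def s30a_T (ℓ : Nat.Primes) : Module.End ℤ_[p] (s30a_TJ N p) :=
  s30a_map (JZero N) p (heckeOperatorBar N ℓ).toAddMonoidHom

@[simp] theorem s30a_T_apply (ℓ : Nat.Primes) (x : s30a_TJ N p) (n : ℕ) :
    ((s30a_T N p ℓ x : s30a_TJ N p) : ℕ → JZero N) n =
      heckeOperatorBar N ℓ ((x : ℕ → JZero N) n) := rfl

/-- Galois commutes with the Hecke operators. -/
theorem s30a_comm (ℓ : Nat.Primes) (σ : s29k_G) : Commute (s30a_rho N p σ) (s30a_T N p ℓ) := by
  refine s30a_end_ext fun x n => ?_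
  show σ • heckeOperatorBar N ℓ ((x : ℕ → JZero N) n) =
    heckeOperatorBar N ℓ (σ • (x : ℕ → JZero N) n)
  exact s29g_S37Int.comm N ℓ σ _

/-- Inertia at `q ∤ Np` acts trivially. -/
theorem s30a_unram (q : ℕ) (hq : q.Prime) (hqNp : ¬ q ∣ N * p)
    (P : ValuationSubring (AlgebraicClosure ℚ)) (hP : P.LiesOverPrime q)
    (σ : s29k_G) (hσ : σ ∈ P.inertiaSubgroupIn ℚ) : s30a_rho N p σ = 1 := by
  refine s30a_end_ext fun x n => ?_
  show σ • (x : ℕ → JZero N) n = (x : ℕ → JZero N) n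
  exact s29g_inertia_trivial N p q hq hqNp P hP σ hσ _ n (s30a_pow_smul x n)

/-- Eichler–Shimura on the Tate module. -/
theorem s30a_frobQuad (ℓ : Nat.Primes) (hℓNp : ¬ (ℓ : ℕ) ∣ N * p)
    (A : ValuationSubring (AlgebraicClosure ℚ)) (hA : A.LiesOverPrime ℓ)
    (σ : s29k_G) (hσ : A.IsFrobeniusAt σ ℓ) :
    s30a_rho N p σ * s30a_rho N p σ - s30a_T N p ℓ * s30a_rho N p σ +
      (((ℓ : ℕ) : ℤ_[p])) • (1 : Module.End ℤ_[p] (s30a_TJ N p)) = 0 := by
  refine s30a_end_ext fun x n => ?_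
  show σ • σ • (x : ℕ → JZero N) n - heckeOperatorBar N ℓ (σ • (x : ℕ → JZero N) n) +
    ((((ℓ : ℕ) : ℤ_[p]) • x : s30a_TJ N p) : ℕ → JZero N) n = 0
  rw [s30a_natCast_smul_apply]
  exact s29g_frobenius_quadratic N p (ℓ : ℕ) ℓ.2 hℓNp A hA σ hσ _ n (s30a_pow_smul x n)

/-- The field `cont` from a family of level fields. -/
theorem s30a_cont_of_level
    (hlevel : ∀ k : ℕ, ∃ L : IntermediateField ℚ (AlgebraicClosure ℚ), FiniteDimensional ℚ L ∧
      (∀ σ : s29k_G, ∀ x ∈ L, σ x ∈ L) ∧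
      ∀ σ : s29k_G, (∀ x ∈ L, σ x = x) → ∀ y : JZero N, p ^ k • y = 0 → σ • y = y) (k : ℕ) :
    ∃ L : IntermediateField ℚ (AlgebraicClosure ℚ), FiniteDimensional ℚ L ∧
      (∀ σ : s29k_G, ∀ x ∈ L, σ x ∈ L) ∧
      ∀ σ : s29k_G, (∀ x ∈ L, σ x = x) → ∀ v : s30a_TJ N p,
        ∃ w : s30a_TJ N p, s30a_rho N p σ v - v = (p : ℤ_[p]) ^ k • w := by
  obtain ⟨L, hfd, hstab, hL⟩ := hlevel k
  refine ⟨L, hfd, hstab, fun σ hσ v => ?_⟩
  exact s30a_map_sub_mem (DistribMulAction.toAddMonoidEnd s29k_G (JZero N) σ) k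
    (fun y hy => hL σ hσ y hy) v

end

end Fermat.Agent.Lib.S30
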