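/-
Plan L (S30), package [EIG] (helper3), part 1: ABSTRACT EIGENVECTORS (pure Mathlib).

* `s30e_exists_regular_eigen` : in a finite-dimensional commutative algebra `B` over a field `K`,
  every character `μ : B →ₐ[K] K` occurs in the regular representation
  (`ker μ` is a minimal prime of the Artinian ring `B`, hence an associated prime of `B`).
* `s30e_exists_eigen_matrix` : a commutative ring `𝕋`, finite over `ℤ`, with an injective ring
  homomorphism `Θ : 𝕋 → M_r(ℤ)`; a field `K` of characteristic zero; then every ring homomorphism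
  `χ : 𝕋 → K` is the system of eigenvalues of a nonzero vector `w ∈ K^r`:
  `(Θ u).map cast *ᵥ w = χ u • w` for all `u`.
  (The character occurs in the regular representation of `K ⊗ 𝕋`, which embeds into `M_r(K)` by
  flatness of `K` over `ℤ`.)
-/
import Mathlib

set_option autoImplicit false
set_option linter.unusedSectionVars false
set_option linter.style.haveILetI false

noncomputable section

namespace Fermat.Agent.Lib.S30

open TensorProduct Matrix

section RegularRep

variable {K : Type*} [Field K] {B : Type*} [CommRing B] [Algebra K B] [Module.Finite K B]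

/-- In a finite-dimensional commutative algebra over a field every character occurs in the regular
representation. -/
theorem s30e_exists_regular_eigen (μ : B →ₐ[K] K) :
    ∃ y : B, y ≠ 0 ∧ ∀ x : B, x * y = μ x • y := by
  haveI : IsArtinianRing B := IsArtinianRing.of_finite K B
  set 𝔪 : Ideal B := RingHom.ker (μ : B →+* K) with h𝔪
  have hsurj : Function.Surjective (μ : B →+* K) := fun c => ⟨algebraMap K B c, by simp⟩
  haveI hmax : 𝔪.IsMaximal := RingHom.ker_isMaximal_of_surjective _ hsurj
  have hann : Module.annihilator B B = ⊥ := by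
    rw [eq_bot_iff]
    intro x hx
    have := Module.mem_annihilator.mp hx (1 : B)
    simpa using this
  have hmin : 𝔪 ∈ (Module.annihilator B B).minimalPrimes := by
    rw [hann]
    refine ⟨⟨hmax.isPrime, bot_le⟩, fun q hq hle => ?_⟩
    have hqmax : q.IsMaximal := (IsArtinianRing.isPrime_iff_isMaximal q).mp hq.1
    exact (hqmax.eq_of_le hmax.ne_top hle).ge
  have hass := Module.associatedPrimes.minimalPrimes_annihilator_subset_associatedPrimes B B hmin
  obtain ⟨-, y, hy⟩ := isAssociatedPrime_iff.mp hass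
  have hy0 : y ≠ 0 := by
    rintro rfl
    have h1 : (1 : B) ∈ 𝔪 := by
      rw [hy, Submodule.mem_colon_singleton]
      simp
    exact hmax.ne_top ((Ideal.eq_top_iff_one _).mpr h1)
  refine ⟨y, hy0, fun x => ?_⟩
  have hx : x - algebraMap K B (μ x) ∈ 𝔪 := by
    rw [h𝔪, RingHom.mem_ker]
    simp
  rw [hy, Submodule.mem_colon_singleton] at hx
  have h2 : (x - algebraMap K B (μ x)) * y = 0 := by simpa using hx
  rw [sub_mul, sub_eq_zero] at h2
  rw [h2, Algebra.smul_def]

end RegularRep

section MatrixRep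

variable {𝕋 : Type*} [CommRing 𝕋] [Module.Finite ℤ 𝕋] {r : ℕ}
  (Θ : 𝕋 →+* Matrix (Fin r) (Fin r) ℤ) (hΘ : Function.Injective Θ)
  {K : Type*} [Field K] [CharZero K] (χ : 𝕋 →+* K)

/-- The algebra homomorphism `K ⊗ 𝕋 → M_r(K)` induced by an integral matrix representation. -/
def s30e_Psi : K ⊗[ℤ] 𝕋 →ₐ[K] Matrix (Fin r) (Fin r) K :=
  Algebra.TensorProduct.lift (Algebra.ofId K (Matrix (Fin r) (Fin r) K))
    (((Int.castRingHom K).mapMatrix.comp Θ).toIntAlgHom)
    (fun c _ => Algebra.commutes c _)

theorem s30e_Psi_tmul (c : K) (u : 𝕋) :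
    s30e_Psi Θ (K := K) (c ⊗ₜ[ℤ] u) = c • (Θ u).map (Int.cast : ℤ → K) := by
  have h := Algebra.TensorProduct.lift_tmul (Algebra.ofId K (Matrix (Fin r) (Fin r) K))
    (((Int.castRingHom K).mapMatrix.comp Θ).toIntAlgHom)
    (fun c _ => Algebra.commutes c _) c u
  rw [s30e_Psi, h, Algebra.ofId_apply, Algebra.algebraMap_eq_smul_one, smul_mul_assoc, one_mul]
  rfl

theorem s30e_Psi_eq (x : K ⊗[ℤ] 𝕋) :
    s30e_Psi Θ (K := K) x =
      (matrixEquivTensor (Fin r) ℤ K).symm (LinearMap.lTensor K (Θ.toIntAlgHom.toLinearMap) x) := by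
  induction x using TensorProduct.induction_on with
  | zero => simp
  | tmul c u =>
    rw [s30e_Psi_tmul, LinearMap.lTensor_tmul, matrixEquivTensor_apply_symm]
    rfl
  | add x y hx hy => rw [map_add, map_add, map_add, hx, hy]

include hΘ in
theorem s30e_Psi_injective : Function.Injective (s30e_Psi Θ (K := K)) := by
  have h1 : Function.Injective (LinearMap.lTensor K (Θ.toIntAlgHom.toLinearMap)) :=
    Module.Flat.lTensor_preserves_injective_linearMap _ hΘ
  intro x y hxy
  rw [s30e_Psi_eq, s30e_Psi_eq] at hxy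
  exact h1 ((matrixEquivTensor (Fin r) ℤ K).symm.injective hxy)

include hΘ in
/-- **Eigenvectors for a character of an integral matrix algebra.** -/
theorem s30e_exists_eigen_matrix :
    ∃ w : Fin r → K, w ≠ 0 ∧ ∀ u : 𝕋, (Θ u).map (Int.cast : ℤ → K) *ᵥ w = χ u • w := by
  let μ : K ⊗[ℤ] 𝕋 →ₐ[K] K :=
    Algebra.TensorProduct.lift (AlgHom.id K K) χ.toIntAlgHom (fun _ _ => Commute.all _ _)
  obtain ⟨y, hy0, hy⟩ := s30e_exists_regular_eigen μ
  set Y := s30e_Psi Θ (K := K) y with hY
  have hY0 : Y ≠ 0 := by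
    intro h
    apply hy0
    apply s30e_Psi_injective Θ hΘ (K := K)
    rw [map_zero]
    exact h
  have hYu : ∀ u : 𝕋, (Θ u).map (Int.cast : ℤ → K) * Y = χ u • Y := by
    intro u
    have h1 := hy ((1 : K) ⊗ₜ[ℤ] u)
    have h2 : μ ((1 : K) ⊗ₜ[ℤ] u) = χ u := by
      simp [μ]
    rw [h2] at h1
    have h3 := congrArg (s30e_Psi Θ (K := K)) h1
    rw [map_mul, map_smul, s30e_Psi_tmul, one_smul] at h3
    exact h3
  obtain ⟨i, j, hij⟩ : ∃ i j, Y i j ≠ 0 := by
    by_contra hcon
    apply hY0
    ext i j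
    by_contra hne
    exact hcon ⟨i, j, hne⟩
  refine ⟨fun i' => Y i' j, fun h => hij (congrFun h i), fun u => ?_⟩
  funext i'
  have h4 := congrFun (congrFun (hYu u) i') j
  rw [Matrix.mul_apply] at h4
  rw [Matrix.mulVec, dotProduct, Pi.smul_apply, smul_eq_mul]
  rw [Matrix.smul_apply, smul_eq_mul] at h4
  exact h4

end MatrixRep
end Fermat.Agent.Lib.S30
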