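/-
Plan L (S30), package [EIG] (helper3), part 2: THE HECKE ALGEBRA ON THE LATTICE `H(ℤ)`.

* `s30e_heckeHom_periodHomPair` : full Hecke equivariance of the period pairing,
  `T_ℓ^H (periodHomPair (f, g)) = periodHomPair (T_ℓ f, T_ℓ g)`.
* `s30e_basisC b` : a `ℤ`-basis `b` of `H(ℤ) = s29s_M N` is a `ℂ`-basis of `Hom_par(Γ₀(N), ℂ)`;
  `s30e_rhoC b : End(S₂) →+* M_r(ℂ)` (transport through S21's `S₂ × S₂ ≃ Hom_par`), injective.
* `s30e_rhoC_mem` : elements of `heckeAlgebra N 2 S` have INTEGRAL matrices;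
  `s30e_exists_Theta` : hence an injective ring hom `Θ : heckeAlgebra N 2 S →+* M_r(ℤ)`;
  `s30e_rhoC_heckeT` : the matrix of `T_ℓ` is `s29s_heckeMat b ℓ`.
* **`s30e_exists_eigenvector`** : for every ring hom `χ : heckeAlgebra N 2 S →+* 𝒪` into a domain of
  characteristic zero there is `w ∈ 𝒪^r`, `w ≠ 0`, with
  `(s29s_heckeMat b ℓ).map cast *ᵥ w = χ (T_ℓ) • w` for all primes `ℓ ∤ N`, `ℓ ∉ S`.
-/
import Mathlib
import Fermat.Agent.Lib.S29.DSLattice
import Fermat.Agent.Lib.S29.DSPeriod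
import Fermat.Agent.Lib.Integral.Final
import Fermat.Agent.Lib.Integral.HeckeStable
import Fermat.Agent.Lib.S30.EigAbs
import Fermat.Agent.S21
import Fermat.Agent.S22

set_option autoImplicit false
set_option linter.unusedSectionVars false
set_option linter.style.haveILetI false

noncomputable section

namespace Fermat.Agent.Lib.S30

open CongruenceSubgroup ModularCurve ModularCurve.Period ModularFormClass Fermat.Agent.Lib.ES
  Fermat.Agent.Lib.Period Fermat.Agent.Lib.Integral Fermat.Agent.Lib.S29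
open P2MW.S_ModularForm_heckeT_slash_eq_self_of_mem_Gamma0.ModularForm.HeckeSlashInvariance
open scoped MatrixGroups
open Matrix

/-- **Full Hecke equivariance of the period pairing**:
`T_ℓ^H (periodHomPair (f, g)) = periodHomPair (T_ℓ f, T_ℓ g)`. -/
theorem s30e_heckeHom_periodHomPair {N : ℕ} [NeZero N] {ℓ : ℕ} [Fact ℓ.Prime] (hℓ : ℓ.Prime) (hℓN : ¬ ℓ ∣ N)
    (f g : CuspForm (Gamma0 N) 2) :
    s29h_heckeHom N ℓ ℂ (periodHomPair N (f, g)) =
      periodHomPair N (CuspForm.heckeTLin 2 hℓ hℓN f, CuspForm.heckeTLin 2 hℓ hℓN g) := by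
  have : NeZero ℓ := ⟨hℓ.ne_zero⟩
  refine AddMonoidHom.ext fun γ => ?_
  obtain ⟨γ, rfl⟩ := Additive.ofMul.surjective γ
  rw [s29h_heckeHom_apply hℓN]
  have hdet : ∀ x : OnePoint (ZMod ℓ), 0 < (heckeRepZ ℓ x).det := by
    intro x
    rw [det_heckeRepZ]
    exact_mod_cast hℓ.pos
  have h : ∀ f : CuspForm (Gamma0 N) 2,
      periodMap N (CuspForm.heckeTLin 2 hℓ hℓN f) (Additive.ofMul γ) =
        ∑ x, periodMap N f (Additive.ofMul (s29h_fam hℓN γ x)) ∧
      periodMap N (CuspForm.heckeTLin 2 hℓ hℓN f) (Additive.ofMul (jConjGamma0 N γ)) =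
        ∑ x, periodMap N f (Additive.ofMul (jConjGamma0 N (s29h_fam hℓN γ x))) := by
    intro f
    have hf' := coe_heckeTLin_eq_sum (N := N) 2 hℓ hℓN f
    exact ⟨intHk_periodMap_of_sum_slash (heckeRepZ ℓ) (heckeRep ℓ)
        (coe_heckeRep_eq_map hℓ.ne_zero) hdet (heckeRepZ_apply_one_zero ℓ) f _ hf' γ
        (fun x => s29h_fam hℓN γ x) (heckePermT ℓ (γ : SL(2, ℤ)))
        (fun x => s29h_fam_spec hℓN γ x),
      intHk_periodMap_jConj_of_sum_slash (heckeRepZ ℓ) (heckeRep ℓ)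
        (coe_heckeRep_eq_map hℓ.ne_zero) hdet (heckeRepZ_apply_one_zero ℓ) f _ hf' γ
        (fun x => s29h_fam hℓN γ x) (heckePermT ℓ (γ : SL(2, ℤ)))
        (fun x => s29h_fam_spec hℓN γ x)
        (intHk_negPerm ℓ) (intHk_texp ℓ) (intHk_negPerm_negPerm ℓ) (intHk_heckeRepZ_negPerm ℓ)⟩
  exact (intHk_periodHomPair_of_family _ γ (fun x => s29h_fam hℓN γ x) h f g).symm


/-- Lifting a ring homomorphism through an injective one whose range contains its values. -/
theorem s30e_exists_lift {R S Z : Type*} [Ring R] [Ring S] [Ring Z] (f : R →+* S) (g : Z →+* S)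
    (hg : Function.Injective g) (h : ∀ x, f x ∈ g.range) :
    ∃ h' : R →+* Z, ∀ x, g (h' x) = f x := by
  let e : Z ≃+* g.range := RingEquiv.ofBijective g.rangeRestrict
    ⟨fun a b hab => hg (congrArg Subtype.val hab), g.rangeRestrict_surjective⟩
  refine ⟨e.symm.toRingHom.comp (f.codRestrict g.range h), fun x => ?_⟩
  have h1 : e (e.symm ⟨f x, h x⟩) = ⟨f x, h x⟩ := e.apply_symm_apply _
  exact congrArg Subtype.val h1

section Lattice

variable {N : ℕ} [NeZero N] {r : ℕ} (b : Module.Basis (Fin r) ℤ (s29s_M N))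

/-- A `ℤ`-valued parabolic homomorphism `Γ₀(N) → ℂ` is an integral combination of the `castB`. -/
theorem s30e_exists_int_coeffs (ψ : Additive (Gamma0 N) →+ ℂ) (hψ : IsParabolicHom (Gamma0 N) ψ)
    (hint : ∀ γ : Gamma0 N, ∃ m : ℤ, ψ (Additive.ofMul γ) = m) :
    ∃ m : Fin r → ℤ, ψ = ∑ i, ((m i : ℤ) : ℂ) • s29s_castB b ℂ i := by
  choose m hm using hint
  let ψZ : Additive (Gamma0 N) →+ ℤ :=
    { toFun := fun a => m (Additive.toMul a)
      map_zero' := by
        have := hm 1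
        rw [ofMul_one, map_zero] at this
        have h0 : ((m 1 : ℤ) : ℂ) = ((0 : ℤ) : ℂ) := by rw [← this, Int.cast_zero]
        exact Int.cast_injective h0
      map_add' := fun a c => by
        have h1 := hm (Additive.toMul a * Additive.toMul c)
        rw [ofMul_mul, map_add, hm, hm] at h1
        have h2 : ((m (Additive.toMul a * Additive.toMul c) : ℤ) : ℂ) =
            ((m (Additive.toMul a) + m (Additive.toMul c) : ℤ) : ℂ) := by
          rw [← h1]; push_cast; rfl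
        exact Int.cast_injective h2 }
  have hψZ : ψZ ∈ s29s_M N := by
    refine s29h_mem_Hpar_of_parabolic fun γ hγ => ?_
    have h1 := hψ γ hγ
    rw [hm] at h1
    show m γ = 0
    exact_mod_cast h1
  have hcast : ψ = s29s_cast ℂ ψZ := by
    refine AddMonoidHom.ext fun a => ?_
    obtain ⟨γ, rfl⟩ := Additive.ofMul.surjective a
    rw [s29s_cast_apply]
    exact hm γ
  refine ⟨fun i => b.repr ⟨ψZ, hψZ⟩ i, ?_⟩
  have h := b.sum_repr ⟨ψZ, hψZ⟩
  have h2 := congrArg (fun x : s29s_M N => (x : Additive (Gamma0 N) →+ ℤ)) h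
  simp only [Submodule.coe_sum, Submodule.coe_smul] at h2
  rw [hcast]
  conv_lhs => rw [← h2]
  rw [map_sum]
  refine Finset.sum_congr rfl fun i _ => ?_
  rw [s29s_cast_zsmul]
  rfl

/-- The parabolic homs `Γ₀(N) → ℂ`. -/
abbrev s30e_P (N : ℕ) : Submodule ℂ (Additive (Gamma0 N) →+ ℂ) := parabolicHoms ℂ (Gamma0 N) ℂ

/-- The basis vectors of the lattice as elements of `Hom_par(Γ₀(N), ℂ)`. -/
def s30e_castP (i : Fin r) : s30e_P N :=
  ⟨s29s_castB b ℂ i, s29s_cast_isParabolic ℂ (b i).2.1⟩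

theorem s30e_castP_linearIndependent : LinearIndependent ℂ (s30e_castP b) := by
  refine LinearIndependent.of_comp (s30e_P N).subtype ?_
  exact s29s_castB_linearIndependent_complex b

theorem s30e_castP_span : ⊤ ≤ Submodule.span ℂ (Set.range (s30e_castP b)) := by
  rintro ⟨ψ, hψ⟩ -
  obtain ⟨c, hc⟩ := s29s_exists_coeffs b ψ hψ
  have h1 : (⟨ψ, hψ⟩ : s30e_P N) = ∑ i, c i • s30e_castP b i := by
    apply Subtype.ext
    rw [Submodule.coe_sum]
    simp only [Submodule.coe_smul]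
    exact hc
  rw [h1]
  exact Submodule.sum_mem _ fun i _ =>
    Submodule.smul_mem _ _ (Submodule.subset_span (Set.mem_range_self i))

/-- The `ℂ`-basis of `Hom_par(Γ₀(N), ℂ)` given by a `ℤ`-basis of the lattice `H(ℤ)`. -/
def s30e_basisC : Module.Basis (Fin r) ℂ (s30e_P N) :=
  Module.Basis.mk (s30e_castP_linearIndependent b) (s30e_castP_span b)

theorem s30e_basisC_apply (i : Fin r) : s30e_basisC b i = s30e_castP b i :=
  Module.Basis.mk_apply _ _ i

/-- The period isomorphism `S₂ × S₂ ≃ Hom_par(Γ₀(N), ℂ)` (S21). -/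
def s30e_Phi (N : ℕ) [NeZero N] :
    (CuspForm (Gamma0 N) 2 × CuspForm (Gamma0 N) 2) ≃ₗ[ℂ] s30e_P N :=
  intF_Phi N (Fermat.Agent.S21.result N)

theorem s30e_Phi_coe (x : CuspForm (Gamma0 N) 2 × CuspForm (Gamma0 N) 2) :
    ((s30e_Phi N x : s30e_P N) : Additive (Gamma0 N) →+ ℂ) = periodHomPair N x := rfl

include b in
theorem s30e_finiteDimensional_P : FiniteDimensional ℂ (s30e_P N) :=
  Module.Finite.of_basis (s30e_basisC b)

/-- Transport of endomorphisms of `S₂` to `Hom_par(Γ₀(N), ℂ)`, as a ring homomorphism. -/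
def s30e_tau (N : ℕ) [NeZero N] :
    Module.End ℂ (CuspForm (Gamma0 N) 2) →+* Module.End ℂ (s30e_P N) where
  toFun := transportEnd (s30e_Phi N)
  map_one' := by
    haveI := s30e_finiteDimensional_P (Module.finBasis ℤ (s29s_M N))
    exact transportEnd_one _
  map_mul' s t := by
    haveI := s30e_finiteDimensional_P (Module.finBasis ℤ (s29s_M N))
    exact transportEnd_mul _ s t
  map_zero' := map_zero _
  map_add' := map_add _

theorem s30e_tau_apply (t : Module.End ℂ (CuspForm (Gamma0 N) 2)) (f g : CuspForm (Gamma0 N) 2) :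
    s30e_tau N t (s30e_Phi N (f, g)) = s30e_Phi N (t f, t g) := by
  haveI := s30e_finiteDimensional_P (Module.finBasis ℤ (s29s_M N))
  exact transportEnd_apply _ t f g

theorem s30e_tau_injective : Function.Injective (s30e_tau N) := by
  haveI := s30e_finiteDimensional_P (Module.finBasis ℤ (s29s_M N))
  exact transportEnd_injective _

/-- The matrix representation of `End(S₂)` on `Hom_par(Γ₀(N), ℂ)` in the basis `basisC b`. -/
def s30e_rhoC : Module.End ℂ (CuspForm (Gamma0 N) 2) →+* Matrix (Fin r) (Fin r) ℂ :=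
  ((LinearMap.toMatrixAlgEquiv (s30e_basisC b)) : _ →+* _).comp (s30e_tau N)

theorem s30e_rhoC_injective : Function.Injective (s30e_rhoC b) := by
  intro s t h
  apply s30e_tau_injective
  exact (LinearMap.toMatrixAlgEquiv (s30e_basisC b)).injective h

/-- If `τ(t)` maps the basis vector `j` to the combination `∑ m i j • basisC i`, then `m` is the
matrix of `t`. -/
theorem s30e_rhoC_eq_of_apply (t : Module.End ℂ (CuspForm (Gamma0 N) 2))
    (m : Matrix (Fin r) (Fin r) ℂ)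
    (h : ∀ j, ((s30e_tau N t (s30e_basisC b j) : s30e_P N) : Additive (Gamma0 N) →+ ℂ) =
      ∑ i, m i j • s29s_castB b ℂ i) : s30e_rhoC b t = m := by
  ext i j
  show (LinearMap.toMatrixAlgEquiv (s30e_basisC b)) (s30e_tau N t) i j = m i j
  rw [LinearMap.toMatrixAlgEquiv_apply]
  have h1 : s30e_tau N t (s30e_basisC b j) = ∑ i, m i j • s30e_basisC b i := by
    apply Subtype.ext
    rw [h j, Submodule.coe_sum]
    refine Finset.sum_congr rfl fun i _ => ?_
    rw [Submodule.coe_smul, s30e_basisC_apply]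
    rfl
  rw [h1, Module.Basis.repr_sum_self]

end Lattice
section Lattice2

variable {N : ℕ} [NeZero N] {r : ℕ} (b : Module.Basis (Fin r) ℤ (s29s_M N))

/-- The Hecke generators have integral matrices on the lattice. -/
theorem s30e_rhoC_gen_mem (t : Module.End ℂ (CuspForm (Gamma0 N) 2))
    (ht : t ∈ CuspForm.heckeGenerators N 2 ∅) :
    s30e_rhoC b t ∈ ((Int.castRingHom ℂ).mapMatrix (m := Fin r)).range := by
  have hex : ∀ j : Fin r, ∃ m : Fin r → ℤ,
      ((s30e_tau N t (s30e_basisC b j) : s30e_P N) : Additive (Gamma0 N) →+ ℂ) =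
        ∑ i, ((m i : ℤ) : ℂ) • s29s_castB b ℂ i := by
    intro j
    obtain ⟨⟨f, g⟩, hfg⟩ := (s30e_Phi N).surjective (s30e_basisC b j)
    rw [← hfg, s30e_tau_apply, s30e_Phi_coe]
    refine s30e_exists_int_coeffs b _ (pmP_periodHomPair_mem_parabolicHoms N _) ?_
    refine intHk_hgens N t ht f g ?_
    intro γ
    have h1 : periodHomPair N (f, g) = s29s_castB b ℂ j := by
      rw [← s30e_Phi_coe, hfg, s30e_basisC_apply]
      rfl
    rw [h1]
    exact ⟨(b j : Additive (Gamma0 N) →+ ℤ) (Additive.ofMul γ), rfl⟩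
  choose m hm using hex
  refine ⟨Matrix.of fun i j => m j i, ?_⟩
  symm
  refine s30e_rhoC_eq_of_apply b t _ fun j => ?_
  rw [hm j]
  rfl

theorem s30e_rhoC_adjoin_mem (t : Module.End ℂ (CuspForm (Gamma0 N) 2))
    (hu : t ∈ Algebra.adjoin ℤ (CuspForm.heckeGenerators N 2 ∅)) :
    s30e_rhoC b t ∈ ((Int.castRingHom ℂ).mapMatrix (m := Fin r)).range := by
  induction hu using Algebra.adjoin_induction with
  | mem t ht => exact s30e_rhoC_gen_mem b t ht
  | algebraMap n =>
    rw [eq_intCast, map_intCast]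
    exact intCast_mem _ n
  | add s t _ _ hs ht =>
    rw [map_add]
    exact Subring.add_mem _ hs ht
  | mul s t _ _ hs ht =>
    rw [map_mul]
    exact Subring.mul_mem _ hs ht

/-- Every element of the Hecke algebra has an integral matrix on the lattice. -/
theorem s30e_rhoC_mem (S : Set ℕ) (u : CuspForm.heckeAlgebra N 2 S) :
    s30e_rhoC b (u : Module.End ℂ (CuspForm (Gamma0 N) 2)) ∈
      ((Int.castRingHom ℂ).mapMatrix (m := Fin r)).range :=
  s30e_rhoC_adjoin_mem b _ (CuspForm.heckeAlgebra_mono (Set.empty_subset S) u.2)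

end Lattice2
section Theta

variable {N : ℕ} [NeZero N] {r : ℕ} (b : Module.Basis (Fin r) ℤ (s29s_M N)) (S : Set ℕ)

/-- The inclusion of the Hecke algebra into `End(S₂)` as a ring homomorphism. -/
def s30e_incl : CuspForm.heckeAlgebra N 2 S →+* Module.End ℂ (CuspForm (Gamma0 N) 2) where
  toFun u := (u : Module.End ℂ (CuspForm (Gamma0 N) 2))
  map_one' := rfl
  map_mul' _ _ := rfl
  map_zero' := rfl
  map_add' _ _ := rfl

theorem s30e_incl_apply (u : CuspForm.heckeAlgebra N 2 S) :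
    s30e_incl S u = (u : Module.End ℂ (CuspForm (Gamma0 N) 2)) := rfl


theorem s30e_castMat_injective :
    Function.Injective ((Int.castRingHom ℂ).mapMatrix (m := Fin r)) := by
  intro A B hAB
  rw [RingHom.mapMatrix_apply, RingHom.mapMatrix_apply] at hAB
  exact Matrix.map_injective Int.cast_injective hAB

/-- **The Hecke algebra acts faithfully on the lattice `H(ℤ)` by integral matrices.** -/
theorem s30e_exists_Theta :
    ∃ Θ : CuspForm.heckeAlgebra N 2 S →+* Matrix (Fin r) (Fin r) ℤ,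
      Function.Injective Θ ∧ ∀ u : CuspForm.heckeAlgebra N 2 S,
        (Θ u).map (Int.cast : ℤ → ℂ) =
          s30e_rhoC b (u : Module.End ℂ (CuspForm (Gamma0 N) 2)) := by
  obtain ⟨Θ, hΘ⟩ := s30e_exists_lift ((s30e_rhoC b).comp (s30e_incl S))
    ((Int.castRingHom ℂ).mapMatrix (m := Fin r)) s30e_castMat_injective
    (fun u => s30e_rhoC_mem b S u)
  refine ⟨Θ, fun u u' huu' => ?_, fun u => ?_⟩
  · have h1 := hΘ u
    rw [huu', hΘ u'] at h1
    exact Subtype.ext (s30e_rhoC_injective b h1.symm)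
  · have h1 := hΘ u
    rw [RingHom.mapMatrix_apply] at h1
    exact h1
/-- The matrix of `T_ℓ` on the lattice is `s29s_heckeMat b ℓ`. -/
theorem s30e_rhoC_heckeT {ℓ : ℕ} [Fact ℓ.Prime] (hℓ : ℓ.Prime) (hℓN : ¬ ℓ ∣ N) :
    s30e_rhoC b (CuspForm.heckeTLin 2 hℓ hℓN) =
      (s29s_heckeMat b ℓ).map (Int.cast : ℤ → ℂ) := by
  refine s30e_rhoC_eq_of_apply b _ _ fun j => ?_
  obtain ⟨⟨f, g⟩, hfg⟩ := (s30e_Phi N).surjective (s30e_basisC b j)
  have h1 : periodHomPair N (f, g) = s29s_castB b ℂ j := by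
    rw [← s30e_Phi_coe, hfg, s30e_basisC_apply]
    rfl
  rw [← hfg, s30e_tau_apply, s30e_Phi_coe, ← s30e_heckeHom_periodHomPair hℓ hℓN, h1,
    s29s_heckeHom_castB]
  refine Finset.sum_congr rfl fun i _ => ?_
  rw [Matrix.map_apply]

end Theta

/-- **[EIG]** Every system of eigenvalues `χ : heckeAlgebra N 2 S → 𝒪` (`𝒪` a domain of
characteristic zero) occurs on the lattice `H(ℤ)`: there is a nonzero `w ∈ 𝒪^r` with
`t_ℓ w = χ(T_ℓ) w` for the integer matrices `t_ℓ = s29s_heckeMat b ℓ` of `T_ℓ^H` on `H(ℤ)`. -/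
theorem s30e_exists_eigenvector {N : ℕ} [NeZero N] {r : ℕ}
    (b : Module.Basis (Fin r) ℤ (s29s_M N)) (S : Set ℕ)
    (𝒪 : Type*) [CommRing 𝒪] [IsDomain 𝒪] [CharZero 𝒪]
    (χ : CuspForm.heckeAlgebra N 2 S →+* 𝒪) :
    ∃ w : Fin r → 𝒪, w ≠ 0 ∧
      ∀ (ℓ : ℕ) (hℓ : ℓ.Prime) (hℓN : ¬ ℓ ∣ N) (hℓS : ℓ ∉ S),
        (haveI : Fact ℓ.Prime := ⟨hℓ⟩
         (s29s_heckeMat b ℓ).map (Int.cast : ℤ → 𝒪)) *ᵥ w =
          χ (CuspForm.heckeAlgebra.T hℓ hℓN hℓS) • w := by
  classical
  let K := FractionRing 𝒪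
  haveI : CharZero K := charZero_of_injective_algebraMap (IsFractionRing.injective 𝒪 K)
  haveI : Module.Finite ℤ (CuspForm.heckeAlgebra N 2 S) := Fermat.Agent.S22.result N 2 S
  obtain ⟨Θ, hΘinj, hΘ⟩ := s30e_exists_Theta b S
  obtain ⟨wK, hwK0, hwK⟩ := s30e_exists_eigen_matrix Θ hΘinj ((algebraMap 𝒪 K).comp χ)
  -- clear denominators
  obtain ⟨c, hc⟩ := IsLocalization.exist_integer_multiples_of_finite (nonZeroDivisors 𝒪) wK
  choose w hw using hc
  have hc0 : algebraMap 𝒪 K (c : 𝒪) ≠ 0 := by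
    intro h
    exact nonZeroDivisors.coe_ne_zero c
      ((map_eq_zero_iff _ (IsFractionRing.injective 𝒪 K)).mp h)
  refine ⟨w, fun hw0 => hwK0 ?_, fun ℓ hℓ hℓN hℓS => ?_⟩
  · funext i
    have h1 := hw i
    rw [hw0, Pi.zero_apply, map_zero, Algebra.smul_def] at h1
    rcases mul_eq_zero.mp h1.symm with h | h
    · exact absurd h hc0
    · exact h
  · haveI : Fact ℓ.Prime := ⟨hℓ⟩
    have hT : Θ (CuspForm.heckeAlgebra.T hℓ hℓN hℓS) = s29s_heckeMat b ℓ := by
      apply Matrix.map_injective (Int.cast_injective (α := ℂ))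
      show (Θ _).map (Int.cast : ℤ → ℂ) = (s29s_heckeMat b ℓ).map (Int.cast : ℤ → ℂ)
      rw [hΘ, CuspForm.heckeAlgebra.coe_T, s30e_rhoC_heckeT]
    have h2 := hwK (CuspForm.heckeAlgebra.T hℓ hℓN hℓS)
    rw [hT] at h2
    funext i
    apply IsFractionRing.injective 𝒪 K
    have h3 := congrFun h2 i
    rw [Matrix.mulVec, dotProduct] at h3 ⊢
    rw [Pi.smul_apply, smul_eq_mul, RingHom.comp_apply] at h3
    rw [Pi.smul_apply, smul_eq_mul, map_mul, map_sum, hw i, Algebra.smul_def, ← mul_assoc,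
      mul_comm (algebraMap 𝒪 K (χ _)), mul_assoc, ← h3, Finset.mul_sum]
    refine Finset.sum_congr rfl fun j _ => ?_
    rw [map_mul, hw j, Matrix.map_apply, Matrix.map_apply, map_intCast, Algebra.smul_def]
    ring

end Fermat.Agent.Lib.S30
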