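/-
Plan L (S30), package [KCOMP] (helper5): compatibility of the Kummer maps `κ` of Plan K at the two
levels `n` and `n * m`:

  `κ_n (m • x) = (κ_{nm} x  mod n)`      for `x ∈ Pic0(F)[n * m]`.

Reason: if `u ^ (n * m) = φ h`, `div h = (n * m) • D`, `x = [D]`, then `u ^ m` is a root of order `n`
of `φ h`, `div h = n • (m • D)`, `m • x = [m • D]`, and `g⁻¹ • u = ζ_{nm} ^ a * u` gives
`g⁻¹ • u ^ m = (ζ_{nm} ^ m) ^ a * u ^ m` with `ζ_{nm} ^ m = ζ_n`.

* `s30k_kappaAbs_compat`  : abstract form (`s29m_kappa`, two `s29m_KappaHyp`'s with `ζ_{nm} ^ m = ζ_n`);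
* `s30k_kappaC_compat` : concrete form (`s29m_kappaC`, two `s29m_BridgeHyp`'s on the same `(K, F, φ)`).
-/
import Fermat.Agent.Lib.S29.KConcrete

set_option autoImplicit false
set_option linter.unusedSectionVars false

open AlgebraicCurve

namespace Fermat.Agent.Lib.S30

open Fermat.Agent.Lib.S29
open Complex CongruenceSubgroup

section Abstract

variable {K F : Type*} [Field K] [Field F] [Algebra K F]
variable {M : Type*} [Field M] {G : Type*} [Group G] [MulSemiringAction G M]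
variable {n m : ℕ} [NeZero n] [NeZero m] {ζn ζnm : M} {φ : F →+* M}

/-- `m • x` is `n`-torsion if `x` is `n * m`-torsion. -/
theorem s30k_smul_mem_torsion {x : Pic0 K F} (hx : x ∈ Pic0.torsion K F (n * m)) :
    (m : ℤ) • x ∈ Pic0.torsion K F n := by
  rw [Pic0.mem_torsion] at hx ⊢
  rw [smul_smul, ← hx]
  push_cast
  rfl

/-- Data of order `n * m` for `x` give data of order `n` for `m • x`. -/
theorem s30k_isKData_pow {x : Pic0 K F} {u : M} (h : s29m_IsKData (n * m) φ x u) :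
    s29m_IsKData n φ ((m : ℤ) • x) (u ^ m) := by
  obtain ⟨D, f, hf, hDx, hD, hu⟩ := h
  refine ⟨(m : ℤ) • D, f, hf, ?_, fun v => ?_, ?_⟩
  · rw [← hDx]
    rfl
  · rw [hD v]
    simp only [AddSubgroup.coe_zsmul, Finsupp.smul_apply, smul_eq_mul]
    push_cast
    ring
  · rw [← pow_mul, mul_comm m n, hu]

/-- **Level compatibility, abstract form.** -/
theorem s30k_kappaAbs_compat (Hn : s29m_KappaHyp K G n ζn φ) (Hnm : s29m_KappaHyp K G (n * m) ζnm φ)
    (hζ : ζnm ^ m = ζn) (x : Pic0.torsion K F (n * m))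
    (hx : (m : ℤ) • (x : Pic0 K F) ∈ Pic0.torsion K F n) (g : G) :
    s29m_kappa φ Hn ⟨(m : ℤ) • (x : Pic0 K F), hx⟩ (Additive.ofMul g) =
      ZMod.castHom (dvd_mul_right n m) (ZMod n) (s29m_kappa φ Hnm x (Additive.ofMul g)) := by
  obtain ⟨u, hu⟩ := s29m_exists_isKData Hnm (x : Pic0 K F) (Pic0.mem_torsion.mp x.2)
  have hu' : s29m_IsKData n φ ((m : ℤ) • (x : Pic0 K F)) (u ^ m) := s30k_isKData_pow hu
  set a : ZMod (n * m) := s29m_kappa φ Hnm x (Additive.ofMul g) with ha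
  have hspec := s29m_kummerFun_spec Hnm.prim hu.ne_zero (hu.smul_pow Hnm) g
  rw [← s29m_kappa_apply Hnm x hu g, ← ha] at hspec
  refine s29m_kappa_eq Hn ⟨(m : ℤ) • (x : Pic0 K F), hx⟩ hu' g _ ?_
  rw [smul_pow', hspec, mul_pow, ← pow_mul, mul_comm a.val m, pow_mul, hζ]
  congr 1
  -- `ζn ^ a.val = ζn ^ (cast a).val`
  have h1 : (ZMod.castHom (dvd_mul_right n m) (ZMod n) a).val = a.val % n := by
    rw [ZMod.castHom_apply, ZMod.cast_eq_val, ZMod.val_natCast]
  rw [h1, ← pow_mod_orderOf ζn, ← Hn.prim.eq_orderOf]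

end Abstract

section Concrete

variable {K : Type*} {N n m : ℕ} [NeZero n] [NeZero m] {F : Type*} [Field K] [Field F]
  [Algebra K F] {φ : F →+* Fermat.Agent.Lib.FF.ffm_E N}

/-- `ζ_{nm} ^ m = ζ_n` for `ζ_k = exp (2πi / k)`. -/
theorem s30k_zetaM_pow (n m : ℕ) [NeZero n] [NeZero m] : s29m_zetaM (n * m) ^ m = s29m_zetaM n := by
  rw [s29m_zetaM_pow, s29m_zetaM]
  congr 1
  rw [← Complex.exp_nat_mul]
  congr 1
  have hn : (n : ℂ) ≠ 0 := by exact_mod_cast NeZero.ne n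
  have hm : (m : ℂ) ≠ 0 := by exact_mod_cast NeZero.ne m
  push_cast
  field_simp

/-- **Level compatibility, concrete form**: `κ_n (m • x) = (κ_{nm} x mod n)`. -/
theorem s30k_kappaC_compat (hBn : s29m_BridgeHyp K N n φ) (hBnm : s29m_BridgeHyp K N (n * m) φ)
    (x : Pic0.torsion K F (n * m)) (hx : (m : ℤ) • (x : Pic0 K F) ∈ Pic0.torsion K F n)
    (γ : Additive (Gamma0 N)) :
    s29m_kappaC hBn ⟨(m : ℤ) • (x : Pic0 K F), hx⟩ γ =
      ZMod.castHom (dvd_mul_right n m) (ZMod n) (s29m_kappaC hBnm x γ) :=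
  s30k_kappaAbs_compat (s29m_kappaHyp_of_bridge hBn) (s29m_kappaHyp_of_bridge hBnm)
    (s30k_zetaM_pow n m) x hx (Additive.toMul γ)

/-- The same with the canonical membership proof. -/
theorem s30k_kappaC_compat' (hBn : s29m_BridgeHyp K N n φ) (hBnm : s29m_BridgeHyp K N (n * m) φ)
    (x : Pic0.torsion K F (n * m)) (γ : Additive (Gamma0 N)) :
    s29m_kappaC hBn ⟨(m : ℤ) • (x : Pic0 K F), s30k_smul_mem_torsion x.2⟩ γ =
      ZMod.castHom (dvd_mul_right n m) (ZMod n) (s29m_kappaC hBnm x γ) :=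
  s30k_kappaC_compat hBn hBnm x _ γ

end Concrete

end Fermat.Agent.Lib.S30
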