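/-
Plan L (S30), package [KCOMP], part 2 (helper5): the level compatibility for the Kummer maps
`s30k_kappa N n` on `J₀(N)(ℚ̄)[n]` of `KN.lean`:

  `κ_n (m • x) = (κ_{nm} x  mod n)`      for `x ∈ J₀(N)(ℚ̄)[n * m]`.
-/
import Fermat.Agent.Lib.S30.KN
import Fermat.Agent.Lib.S30.KComp

set_option autoImplicit false
set_option linter.unusedSectionVars false

open AlgebraicCurve ModularCurve CongruenceSubgroup

namespace Fermat.Agent.Lib.S30

open Fermat.Agent.Lib.S29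

variable (N : ℕ) [NeZero N] (n m : ℕ) [NeZero n] [NeZero m]

/-- `m • x ∈ J[n]` for `x ∈ J[n * m]`. -/
theorem s30k_smul_mem_Jp (x : s29k_Jp N (n * m)) :
    (m : ℤ) • (x : JZero N) ∈ Pic0.torsion (AlgebraicClosure ℚ) (modularFunctionFieldBar N) n :=
  s30k_smul_mem_torsion x.2

/-- **Level compatibility of `s30k_kappa`.** -/
theorem s30k_kappaJ_compat (x : s29k_Jp N (n * m))
    (hx : (m : ℤ) • (x : JZero N) ∈
      Pic0.torsion (AlgebraicClosure ℚ) (modularFunctionFieldBar N) n)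
    (γ : Additive (Gamma0 N)) :
    s30k_kappa N n ⟨(m : ℤ) • (x : JZero N), hx⟩ γ =
      ZMod.castHom (dvd_mul_right n m) (ZMod n) (s30k_kappa N (n * m) x γ) := by
  rw [s30k_kappa_apply, s30k_kappa_apply]
  have hmem : (m : ℤ) • ((s30k_ct N (n * m) x : Pic0.torsion ℂ ↥(s29bp_FK ℂ N) (n * m)) : Pic0 ℂ ↥(s29bp_FK ℂ N)) ∈
      Pic0.torsion ℂ ↥(s29bp_FK ℂ N) n := s30k_smul_mem_torsion (s30k_ct N (n * m) x).2
  have h1 : s30k_ct N n ⟨(m : ℤ) • (x : JZero N), hx⟩ =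
      ⟨(m : ℤ) • ((s30k_ct N (n * m) x : Pic0.torsion ℂ ↥(s29bp_FK ℂ N) (n * m)) : Pic0 ℂ ↥(s29bp_FK ℂ N)), hmem⟩ := by
    apply Subtype.ext
    rw [s30k_ct_coe]
    show s30k_c N ((m : ℤ) • (x : JZero N)) = (m : ℤ) • _
    rw [map_zsmul, s30k_ct_coe]
  rw [h1]
  exact s30k_kappaC_compat (s30k_hB N n) (s30k_hB N (n * m)) (s30k_ct N (n * m) x) hmem γ

/-- The special case used for the Tate module: `κ_{p^k} (p • x) = (κ_{p^(k+1)} x mod p^k)`. -/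
theorem s30k_kappaJ_compat_pow (p : ℕ) [NeZero p] (k : ℕ) (x : s29k_Jp N (p ^ k * p))
    (hx : (p : ℤ) • (x : JZero N) ∈
      Pic0.torsion (AlgebraicClosure ℚ) (modularFunctionFieldBar N) (p ^ k))
    (γ : Additive (Gamma0 N)) :
    s30k_kappa N (p ^ k) ⟨(p : ℤ) • (x : JZero N), hx⟩ γ =
      ZMod.castHom (dvd_mul_right (p ^ k) p) (ZMod (p ^ k)) (s30k_kappa N (p ^ k * p) x γ) :=
  s30k_kappaJ_compat N (p ^ k) p x hx γ

end Fermat.Agent.Lib.S30
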