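/-
Plan L (S30), package [TATE], the embedding of the integral lattice (helper5):

  `ι : H(ℤ) = s29s_M N →ₗ[ℤ] T_p J₀(N) = s30a_TJ N p`,   `(ι φ) k = κ_{p^k}⁻¹ (φ mod p^k)`.

* `s30i_level N p k φ : s29k_Jp N (p ^ k)` : the unique class with `κ_{p^k} x = φ mod p^k`
  (`s30i_level_spec`, `s30i_level_unique`), from `s30k_kappa_surj` / `s30k_kappa_injective`;
* `s30i_iota N p`, with `s30i_iota_apply` (components) and `s30i_kappa_iota` (`κ_{p^k}` of the
  components); compatibility `p • x_{k+1} = x_k` from `s30k_kappaJ_compat` (KCompJ);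
* `s30i_iota_hecke` : `ι (T_ℓ^H φ) = T_ℓ (ι φ)` for `ℓ ∤ N`;
* `s30i_kappaInf_iota` : for ANY ruler `κ_∞ : T_p J →ₗ[ℤ_[p]] Hom(Γ₀(N), ℤ_[p])` that reduces to
  `κ_{p^k}` modulo `p^k`, `κ_∞ (ι φ) = (γ ↦ (φ γ : ℤ_[p]))`.
-/
import Fermat.Agent.Lib.S30.KN
import Fermat.Agent.Lib.S30.KCompJ
import Fermat.Agent.Lib.S30.TateGal
import Fermat.Agent.Lib.S29.DSLattice

set_option autoImplicit false
set_option linter.unusedSectionVars false

open AlgebraicCurve ModularCurve CongruenceSubgroup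

namespace Fermat.Agent.Lib.S30

open Fermat.Agent.Lib.S29

noncomputable section

local notation "Kb" => AlgebraicClosure ℚ

variable (N : ℕ) [NeZero N]

/-! ### Transport of `κ_n` along an equality of levels -/

theorem s30i_kappa_congr {n n' : ℕ} [i : NeZero n] [i' : NeZero n'] (h : n = n') (x : JZero N)
    (hx : x ∈ Pic0.torsion Kb (modularFunctionFieldBar N) n)
    (hx' : x ∈ Pic0.torsion Kb (modularFunctionFieldBar N) n')
    (χ : Additive (Gamma0 N) →+ ℤ)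
    (hκ : s30k_kappa N n ⟨x, hx⟩ = s29s_cast (ZMod n) χ) :
    s30k_kappa N n' ⟨x, hx'⟩ = s29s_cast (ZMod n') χ := by
  subst h
  obtain rfl : i = i' := Subsingleton.elim _ _
  exact hκ

/-- If `κ_{nm} x = χ mod nm` then `κ_n (m • x) = χ mod n`. -/
theorem s30i_kappa_smul {n m : ℕ} [NeZero n] [NeZero m] (x : s29k_Jp N (n * m))
    (hx : (m : ℤ) • (x : JZero N) ∈ Pic0.torsion Kb (modularFunctionFieldBar N) n)
    (χ : Additive (Gamma0 N) →+ ℤ)
    (hκ : s30k_kappa N (n * m) x = s29s_cast (ZMod (n * m)) χ) :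
    s30k_kappa N n ⟨(m : ℤ) • (x : JZero N), hx⟩ = s29s_cast (ZMod n) χ := by
  refine AddMonoidHom.ext fun γ => ?_
  rw [s30k_kappaJ_compat N n m x hx γ, hκ, s29s_cast_apply, s29s_cast_apply, map_intCast]

variable (p : ℕ) [Fact p.Prime]

/-! ### The components -/

theorem s30i_cast_mem (k : ℕ) (φ : s29s_M N) :
    s29s_cast (ZMod (p ^ k)) (φ : Additive (Gamma0 N) →+ ℤ) ∈ s29h_Hp N (p ^ k) :=
  s29s_cast_mem_Hpar (ZMod (p ^ k)) (ZMod (p ^ k)) φ.2

/-- The component of `ι φ` at level `p ^ k`. -/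
def s30i_level (k : ℕ) (φ : s29s_M N) : s29k_Jp N (p ^ k) :=
  (s30k_kappa_surj N (p ^ k) _ (s30i_cast_mem N p k φ)).choose

theorem s30i_level_spec (k : ℕ) (φ : s29s_M N) :
    s30k_kappa N (p ^ k) (s30i_level N p k φ) =
      s29s_cast (ZMod (p ^ k)) (φ : Additive (Gamma0 N) →+ ℤ) :=
  (s30k_kappa_surj N (p ^ k) _ (s30i_cast_mem N p k φ)).choose_spec

theorem s30i_level_unique (k : ℕ) (φ : s29s_M N) (x : s29k_Jp N (p ^ k))
    (hx : s30k_kappa N (p ^ k) x = s29s_cast (ZMod (p ^ k)) (φ : Additive (Gamma0 N) →+ ℤ)) :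
    x = s30i_level N p k φ :=
  s30k_kappa_injective N (p ^ k) (hx.trans (s30i_level_spec N p k φ).symm)

theorem s30i_level_zero (φ : s29s_M N) : ((s30i_level N p 0 φ : s29k_Jp N (p ^ 0)) : JZero N) = 0 := by
  have h := Pic0.mem_torsion.mp (s30i_level N p 0 φ).2
  have h1 : ((p ^ 0 : ℕ) : ℤ) = 1 := by norm_num
  rw [h1, one_smul] at h
  exact h

theorem s30i_level_succ (k : ℕ) (φ : s29s_M N) :
    p • ((s30i_level N p (k + 1) φ : s29k_Jp N (p ^ (k + 1))) : JZero N) =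
      ((s30i_level N p k φ : s29k_Jp N (p ^ k)) : JZero N) := by
  set y : JZero N := ((s30i_level N p (k + 1) φ : s29k_Jp N (p ^ (k + 1))) : JZero N) with hy
  have hy1 : y ∈ Pic0.torsion Kb (modularFunctionFieldBar N) (p ^ (k + 1)) :=
    (s30i_level N p (k + 1) φ).2
  have hy2 : y ∈ Pic0.torsion Kb (modularFunctionFieldBar N) (p ^ k * p) := by
    rw [← pow_succ]; exact hy1
  have h1 : s30k_kappa N (p ^ k * p) ⟨y, hy2⟩ =
      s29s_cast (ZMod (p ^ k * p)) (φ : Additive (Gamma0 N) →+ ℤ) :=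
    s30i_kappa_congr N (pow_succ p k) y hy1 hy2 _ (s30i_level_spec N p (k + 1) φ)
  have hmem : (p : ℤ) • y ∈ Pic0.torsion Kb (modularFunctionFieldBar N) (p ^ k) :=
    s30k_smul_mem_Jp N (p ^ k) p ⟨y, hy2⟩
  have h2 := s30i_kappa_smul N (n := p ^ k) (m := p) ⟨y, hy2⟩ hmem _ h1
  have h3 := s30i_level_unique N p k φ ⟨(p : ℤ) • y, hmem⟩ h2
  have h4 := congrArg Subtype.val h3
  rw [← natCast_zsmul]
  exact h4

/-! ### The embedding `ι` -/

/-- The underlying element of the Tate module. -/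
def s30i_iotaFun (φ : s29s_M N) : s30a_TJ N p :=
  ⟨fun k => ((s30i_level N p k φ : s29k_Jp N (p ^ k)) : JZero N),
    s30i_level_zero N p φ, fun k => s30i_level_succ N p k φ⟩

@[simp]
theorem s30i_iotaFun_apply (φ : s29s_M N) (k : ℕ) :
    ((s30i_iotaFun N p φ : s30a_TJ N p) : ℕ → JZero N) k =
      ((s30i_level N p k φ : s29k_Jp N (p ^ k)) : JZero N) := rfl

theorem s30i_level_add (k : ℕ) (φ ψ : s29s_M N) :
    s30i_level N p k (φ + ψ) = s30i_level N p k φ + s30i_level N p k ψ := by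
  symm
  apply s30i_level_unique
  rw [map_add, s30i_level_spec, s30i_level_spec, Submodule.coe_add, map_add]

/-- **The embedding `ι : H(ℤ) →ₗ[ℤ] T_p J₀(N)`.** -/
def s30i_iota : ↥(s29s_M N) →ₗ[ℤ] s30a_TJ N p :=
  (AddMonoidHom.mk' (s30i_iotaFun N p) (fun φ ψ => by
    apply s30a_ext
    intro k
    rw [s30a_add_apply, s30i_iotaFun_apply, s30i_iotaFun_apply, s30i_iotaFun_apply,
      s30i_level_add]
    rfl)).toIntLinearMap

@[simp]
theorem s30i_iota_apply (φ : s29s_M N) (k : ℕ) :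
    ((s30i_iota N p φ : s30a_TJ N p) : ℕ → JZero N) k =
      ((s30i_level N p k φ : s29k_Jp N (p ^ k)) : JZero N) := rfl

/-- The components of `ι φ` are `p ^ k`-torsion (in the form of `Pic0.mem_torsion`). -/
theorem s30i_mem_Jp (x : s30a_TJ N p) (k : ℕ) :
    (x : ℕ → JZero N) k ∈ Pic0.torsion Kb (modularFunctionFieldBar N) (p ^ k) := by
  rw [Pic0.mem_torsion, natCast_zsmul]
  exact s30a_pow_smul x k

/-- `κ_{p^k}` of the `k`-th component of `ι φ` is `φ mod p^k`. -/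
theorem s30i_kappa_iota (φ : s29s_M N) (k : ℕ) :
    s30k_kappa N (p ^ k) ⟨(s30i_iota N p φ : ℕ → JZero N) k, s30i_mem_Jp N p _ k⟩ =
      s29s_cast (ZMod (p ^ k)) (φ : Additive (Gamma0 N) →+ ℤ) :=
  s30i_level_spec N p k φ

/-! ### Hecke equivariance -/

/-- `ι (T_ℓ^H φ) = T_ℓ (ι φ)` for `ℓ ∤ N`. -/
theorem s30i_iota_hecke (ℓ : ℕ) [hℓ : Fact ℓ.Prime] (hℓN : ¬ ℓ ∣ N) (φ : s29s_M N) :
    s30i_iota N p (s29h_heckeHpar N ℓ ℤ ℤ φ) = s30a_T N p ⟨ℓ, hℓ.out⟩ (s30i_iota N p φ) := by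
  apply s30a_ext
  intro k
  rw [s30i_iota_apply, s30a_T_apply, s30i_iota_apply]
  have h1 : s29k_Tl N (p ^ k) ⟨ℓ, hℓ.out⟩ (s30i_level N p k φ) =
      s30i_level N p k (s29h_heckeHpar N ℓ ℤ ℤ φ) := by
    apply s30i_level_unique
    rw [s30k_kappa_hecke N (p ^ k) ℓ hℓN, s30i_level_spec, s29s_heckeHom_cast, s29h_heckeHpar_coe]
  rw [← h1]
  rfl

/-! ### Compatibility with a ruler `κ_∞` -/

/-- For any ruler `κ_∞` reducing to `κ_{p^k}` modulo `p ^ k`: `κ_∞ (ι φ) = (γ ↦ (φ γ : ℤ_[p]))`. -/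
theorem s30i_kappaInf_iota
    (κinf : s30a_TJ N p → (Additive (Gamma0 N) →+ ℤ_[p]))
    (hκ : ∀ (x : s30a_TJ N p) (k : ℕ) (γ : Additive (Gamma0 N)),
      PadicInt.toZModPow k (κinf x γ) =
        s30k_kappa N (p ^ k) ⟨(x : ℕ → JZero N) k, s30i_mem_Jp N p x k⟩ γ)
    (φ : s29s_M N) :
    κinf (s30i_iota N p φ) = s29s_cast ℤ_[p] (φ : Additive (Gamma0 N) →+ ℤ) := by
  refine AddMonoidHom.ext fun γ => ?_
  apply PadicInt.ext_of_toZModPow.mp
  intro k
  rw [hκ, s30i_kappa_iota, s29s_cast_apply, s29s_cast_apply, map_intCast]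

end

end Fermat.Agent.Lib.S30
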