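/-
Plan L (S30), package [TATE], the ruler `κ_∞` (helper5; independent backup of [TATE-B]):

  `s30u_kinf N p : T_p J₀(N) = s30a_TJ N p →ₗ[ℤ_[p]] (Additive Γ₀(N) →+ ℤ_[p])`,
  `toZModPow k (κ_∞ x γ) = κ_{p^k} (x k) γ`   (`s30u_kinf_spec`),

injective, hence `Module.Finite ℤ_[p] (s30a_TJ N p)` and `Module.Free ℤ_[p] (s30a_TJ N p)`
(`Γ₀(N)` is finitely generated, `ℤ_[p]` is a PID), and `κ_∞ ∘ ι = cast` (`s30u_kinf_iota`).

Construction: the ring `s30u_Seq p` of compatible sequences in `∏ ZMod (p ^ k)` and its limit map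
`s30u_lim p : s30u_Seq p →+* ℤ_[p]` (`PadicInt.lift`); the sequence `k ↦ κ_{p^k} (x k) γ` is compatible
by `s30k_kappaJ_compat` (KCompJ).
-/
import Fermat.Agent.Lib.S30.TateIota
import Fermat.Agent.Lib.S16.CRank

set_option autoImplicit false
set_option linter.unusedSectionVars false

open AlgebraicCurve ModularCurve CongruenceSubgroup

namespace Fermat.Agent.Lib.S30

open Fermat.Agent.Lib.S29

noncomputable section

/-! ### Compatible sequences and their limit -/

section Seq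

variable (p : ℕ) [Fact p.Prime]

/-- The ring of compatible sequences in `∏ ZMod (p ^ k)`. -/
def s30u_Seq : Subring (∀ k : ℕ, ZMod (p ^ k)) where
  carrier := {c | ∀ k, ZMod.castHom (pow_dvd_pow p (Nat.le_succ k)) (ZMod (p ^ k)) (c (k + 1)) = c k}
  mul_mem' := by
    intro a b ha hb k
    rw [Pi.mul_apply, map_mul, ha k, hb k, Pi.mul_apply]
  one_mem' := by
    intro k
    rw [Pi.one_apply, map_one, Pi.one_apply]
  add_mem' := by
    intro a b ha hb k
    rw [Pi.add_apply, map_add, ha k, hb k, Pi.add_apply]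
  zero_mem' := by
    intro k
    rw [Pi.zero_apply, map_zero, Pi.zero_apply]
  neg_mem' := by
    intro a ha k
    rw [Pi.neg_apply, map_neg, ha k, Pi.neg_apply]

theorem s30u_Seq_compat (c : s30u_Seq p) {k1 k2 : ℕ} (h : k1 ≤ k2) :
    ZMod.castHom (pow_dvd_pow p h) (ZMod (p ^ k1)) ((c : ∀ k : ℕ, ZMod (p ^ k)) k2) =
      (c : ∀ k : ℕ, ZMod (p ^ k)) k1 := by
  induction k2, h using Nat.le_induction with
  | base => simp
  | succ k2 h ih =>
    rw [← ih, ← c.2 k2, ← RingHom.comp_apply, ZMod.castHom_comp]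

/-- Evaluation at `k`. -/
def s30u_ev (k : ℕ) : s30u_Seq p →+* ZMod (p ^ k) :=
  (Pi.evalRingHom (fun k : ℕ => ZMod (p ^ k)) k).comp (s30u_Seq p).subtype

theorem s30u_ev_apply (k : ℕ) (c : s30u_Seq p) :
    s30u_ev p k c = (c : ∀ k : ℕ, ZMod (p ^ k)) k := rfl

theorem s30u_ev_compat (k1 k2 : ℕ) (hk : k1 ≤ k2) :
    (ZMod.castHom (pow_dvd_pow p hk) (ZMod (p ^ k1))).comp (s30u_ev p k2) = s30u_ev p k1 :=
  RingHom.ext fun c => s30u_Seq_compat p c hk

/-- The limit of a compatible sequence. -/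
def s30u_lim : s30u_Seq p →+* ℤ_[p] := PadicInt.lift (s30u_ev_compat p)

theorem s30u_lim_spec (c : s30u_Seq p) (k : ℕ) :
    PadicInt.toZModPow k (s30u_lim p c) = (c : ∀ k : ℕ, ZMod (p ^ k)) k :=
  RingHom.congr_fun (PadicInt.lift_spec (s30u_ev_compat p) k) c

end Seq

/-! ### The sequence `k ↦ κ_{p^k} (x k) γ` -/

local notation "Kb" => AlgebraicClosure ℚ

variable (N : ℕ) [NeZero N]

theorem s30u_kappa_cast_congr {n n' m : ℕ} [i : NeZero n] [i' : NeZero n'] (h : n = n')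
    (hm : m ∣ n) (hm' : m ∣ n') (x : JZero N)
    (hx : x ∈ Pic0.torsion Kb (modularFunctionFieldBar N) n)
    (hx' : x ∈ Pic0.torsion Kb (modularFunctionFieldBar N) n') (γ : Additive (Gamma0 N)) :
    ZMod.castHom hm (ZMod m) (s30k_kappa N n ⟨x, hx⟩ γ) =
      ZMod.castHom hm' (ZMod m) (s30k_kappa N n' ⟨x, hx'⟩ γ) := by
  subst h
  obtain rfl : i = i' := Subsingleton.elim _ _
  rfl

variable (p : ℕ) [Fact p.Prime]

/-- The `k`-th component of an element of the Tate module, as an element of `J[p ^ k]`. -/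
def s30u_comp (x : s30a_TJ N p) (k : ℕ) : s29k_Jp N (p ^ k) :=
  ⟨(x : ℕ → JZero N) k, s30i_mem_Jp N p x k⟩

@[simp]
theorem s30u_comp_coe (x : s30a_TJ N p) (k : ℕ) :
    ((s30u_comp N p x k : s29k_Jp N (p ^ k)) : JZero N) = (x : ℕ → JZero N) k := rfl

theorem s30u_comp_add (x y : s30a_TJ N p) (k : ℕ) :
    s30u_comp N p (x + y) k = s30u_comp N p x k + s30u_comp N p y k := Subtype.ext rfl

theorem s30u_comp_smul (a : ℤ_[p]) (x : s30a_TJ N p) (k : ℕ) :
    s30u_comp N p (a • x) k = a.appr k • s30u_comp N p x k := by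
  apply Subtype.ext
  rw [s30u_comp_coe, s30a_smul_apply, AddSubgroup.coe_nsmul, s30u_comp_coe]

/-- Compatibility of the levels. -/
theorem s30u_kappa_step (x : s30a_TJ N p) (k : ℕ) (γ : Additive (Gamma0 N)) :
    ZMod.castHom (pow_dvd_pow p (Nat.le_succ k)) (ZMod (p ^ k))
        (s30k_kappa N (p ^ (k + 1)) (s30u_comp N p x (k + 1)) γ) =
      s30k_kappa N (p ^ k) (s30u_comp N p x k) γ := by
  set y : JZero N := (x : ℕ → JZero N) (k + 1) with hy
  have hy1 : y ∈ Pic0.torsion Kb (modularFunctionFieldBar N) (p ^ (k + 1)) :=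
    s30i_mem_Jp N p x (k + 1)
  have hy2 : y ∈ Pic0.torsion Kb (modularFunctionFieldBar N) (p ^ k * p) := by
    rw [← pow_succ]; exact hy1
  have hmem : (p : ℤ) • y ∈ Pic0.torsion Kb (modularFunctionFieldBar N) (p ^ k) :=
    s30k_smul_mem_Jp N (p ^ k) p ⟨y, hy2⟩
  have h1 := s30k_kappaJ_compat N (p ^ k) p ⟨y, hy2⟩ hmem γ
  have h2 : (⟨(p : ℤ) • y, hmem⟩ : s29k_Jp N (p ^ k)) = s30u_comp N p x k := by
    apply Subtype.ext
    show (p : ℤ) • y = (x : ℕ → JZero N) k
    rw [natCast_zsmul, hy, s30a_succ]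
  rw [h2] at h1
  rw [h1]
  exact s30u_kappa_cast_congr N (pow_succ p k) _ _ y hy1 hy2 γ

/-- The compatible sequence `k ↦ κ_{p^k} (x k) γ`. -/
def s30u_kseq (x : s30a_TJ N p) (γ : Additive (Gamma0 N)) : s30u_Seq p :=
  ⟨fun k => s30k_kappa N (p ^ k) (s30u_comp N p x k) γ, fun k => s30u_kappa_step N p x k γ⟩

/-! ### The ruler `κ_∞` -/

/-- `κ_∞ x` as a homomorphism `Γ₀(N) → ℤ_[p]`. -/
def s30u_kinfFun (x : s30a_TJ N p) : Additive (Gamma0 N) →+ ℤ_[p] where
  toFun γ := s30u_lim p (s30u_kseq N p x γ)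
  map_zero' := by
    apply PadicInt.ext_of_toZModPow.mp
    intro k
    rw [s30u_lim_spec, map_zero]
    exact map_zero _
  map_add' γ γ' := by
    apply PadicInt.ext_of_toZModPow.mp
    intro k
    rw [map_add, s30u_lim_spec, s30u_lim_spec, s30u_lim_spec]
    exact map_add _ γ γ'

theorem s30u_kinfFun_spec (x : s30a_TJ N p) (γ : Additive (Gamma0 N)) (k : ℕ) :
    PadicInt.toZModPow k (s30u_kinfFun N p x γ) = s30k_kappa N (p ^ k) (s30u_comp N p x k) γ :=
  s30u_lim_spec p _ k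

/-- **The ruler `κ_∞`.** -/
def s30u_kinf : s30a_TJ N p →ₗ[ℤ_[p]] (Additive (Gamma0 N) →+ ℤ_[p]) where
  toFun := s30u_kinfFun N p
  map_add' x y := by
    refine AddMonoidHom.ext fun γ => ?_
    apply PadicInt.ext_of_toZModPow.mp
    intro k
    rw [AddMonoidHom.add_apply, map_add, s30u_kinfFun_spec, s30u_kinfFun_spec, s30u_kinfFun_spec,
      s30u_comp_add, map_add, AddMonoidHom.add_apply]
  map_smul' a x := by
    refine AddMonoidHom.ext fun γ => ?_
    apply PadicInt.ext_of_toZModPow.mp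
    intro k
    rw [RingHom.id_apply, AddMonoidHom.smul_apply, smul_eq_mul, map_mul, s30u_kinfFun_spec,
      s30u_kinfFun_spec, s30u_comp_smul, map_nsmul, AddMonoidHom.nsmul_apply, nsmul_eq_mul]
    rfl

theorem s30u_kinf_spec (x : s30a_TJ N p) (k : ℕ) (γ : Additive (Gamma0 N)) :
    PadicInt.toZModPow k (s30u_kinf N p x γ) =
      s30k_kappa N (p ^ k) ⟨(x : ℕ → JZero N) k, s30i_mem_Jp N p x k⟩ γ :=
  s30u_kinfFun_spec N p x γ k

/-- `κ_∞` is injective. -/
theorem s30u_kinf_injective : Function.Injective (s30u_kinf N p) := by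
  rw [injective_iff_map_eq_zero]
  intro x hx
  apply s30a_ext
  intro k
  have h1 : s30k_kappa N (p ^ k) (s30u_comp N p x k) = 0 := by
    refine AddMonoidHom.ext fun γ => ?_
    rw [← s30u_kinfFun_spec]
    have : s30u_kinfFun N p x γ = 0 := DFunLike.congr_fun hx γ
    rw [this, map_zero]
    rfl
  have h2 : s30u_comp N p x k = 0 :=
    s30k_kappa_injective N (p ^ k) (h1.trans (map_zero _).symm)
  exact congrArg Subtype.val h2

/-- `κ_∞ ∘ ι = cast`. -/
theorem s30u_kinf_iota (φ : s29s_M N) :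
    s30u_kinf N p (s30i_iota N p φ) = s29s_cast ℤ_[p] (φ : Additive (Gamma0 N) →+ ℤ) :=
  s30i_kappaInf_iota N p (fun x => s30u_kinf N p x) (fun x k γ => s30u_kinf_spec N p x k γ) φ

/-! ### The Tate module is finite free over `ℤ_[p]` -/

instance s30u_finite : Module.Finite ℤ_[p] (s30a_TJ N p) := by
  haveI : Group.FG (Gamma0 N) := Fermat.Agent.Lib.ES.groupFG_Gamma0 N
  haveI : Module.Finite ℤ_[p] (Additive (Gamma0 N) →+ ℤ_[p]) :=
    Fermat.Agent.Lib.S16.s16c_finite_hom ℤ_[p]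
  exact Module.Finite.of_injective (s30u_kinf N p) (s30u_kinf_injective N p)

theorem s30u_isTorsionFree_hom :
    Module.IsTorsionFree ℤ_[p] (Additive (Gamma0 N) →+ ℤ_[p]) :=
  Function.Injective.moduleIsTorsionFree (fun f => (f : Additive (Gamma0 N) → ℤ_[p]))
    DFunLike.coe_injective (fun _ _ => rfl)

theorem s30u_isTorsionFree : Module.IsTorsionFree ℤ_[p] (s30a_TJ N p) := by
  haveI := s30u_isTorsionFree_hom N p
  exact Function.Injective.moduleIsTorsionFree (s30u_kinf N p) (s30u_kinf_injective N p)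
    (fun a x => (s30u_kinf N p).map_smul a x)

instance s30u_free : Module.Free ℤ_[p] (s30a_TJ N p) := by
  haveI := s30u_isTorsionFree N p
  exact Module.free_of_finite_type_torsion_free'

end

end Fermat.Agent.Lib.S30
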