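/-
Plan L (S30), package [CYC], piece (5) (helper6, for helper2): **complex conjugation inverts the
roots of unity of `ℚ̄`**: `complexConjugation ζ = ζ ^ (n - 1)` whenever `ζ ^ n = 1`, `n ≠ 0`
(`complexEmbedding` sends `ζ` to the unit circle, where conjugation is inversion).
-/
import Mathlib
import Fermat.Prelude.Def_GaloisRep_ComplexConjugation

set_option autoImplicit false
set_option linter.style.haveILetI false

namespace Fermat.Agent.Lib.S30

/-- On the unit circle, conjugation is inversion; for an `n`-th root of unity the inverse is the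
`(n - 1)`-st power. -/
theorem s30c2_conj_eq_pow (z : ℂ) (n : ℕ) (h : z ^ n = 1) (hn : n ≠ 0) :
    starRingEnd ℂ z = z ^ (n - 1) := by
  have hnorm : ‖z‖ = 1 := Complex.norm_eq_one_of_pow_eq_one h hn
  have hz0 : z ≠ 0 := by
    intro h0
    rw [h0, norm_zero] at hnorm
    exact zero_ne_one hnorm
  have h1 : z * starRingEnd ℂ z = 1 := by
    rw [Complex.mul_conj, Complex.normSq_eq_norm_sq, hnorm]
    norm_num
  have h2 : z * z ^ (n - 1) = 1 := by
    rw [← pow_succ', Nat.sub_add_cancel (Nat.one_le_iff_ne_zero.mpr hn), h]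
  exact mul_left_cancel₀ hz0 (h1.trans h2.symm)

/-- **Complex conjugation inverts roots of unity.** -/
theorem s30c2_conj_root (ζ : AlgebraicClosure ℚ) (n : ℕ) (h : ζ ^ n = 1) (hn : n ≠ 0) :
    complexConjugation ζ = ζ ^ (n - 1) := by
  apply complexEmbedding.toRingHom.injective
  show complexEmbedding (complexConjugation ζ) = complexEmbedding (ζ ^ (n - 1))
  rw [complexEmbedding_complexConjugation, map_pow]
  apply s30c2_conj_eq_pow _ n _ hn
  rw [← map_pow, h, map_one]

/-- Variant: `complexConjugation ζ * ζ = 1`. -/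
theorem s30c2_conj_root_mul (ζ : AlgebraicClosure ℚ) (n : ℕ) (h : ζ ^ n = 1) (hn : n ≠ 0) :
    complexConjugation ζ * ζ = 1 := by
  rw [s30c2_conj_root ζ n h hn, ← pow_succ, Nat.sub_add_cancel (Nat.one_le_iff_ne_zero.mpr hn), h]

/-- `ℚ̄` has all `p ^ i`-th roots of unity. -/
theorem s30c2_hasEnoughRootsOfUnity (p : ℕ) [Fact p.Prime] (i : ℕ) :
    HasEnoughRootsOfUnity (AlgebraicClosure ℚ) (p ^ i) := by
  haveI : NeZero ((p ^ i : ℕ) : AlgebraicClosure ℚ) :=
    ⟨Nat.cast_ne_zero.mpr (pow_ne_zero i (Fact.out : p.Prime).ne_zero)⟩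
  infer_instance

/-- **The `p`-adic cyclotomic character of `ℚ̄` sends complex conjugation to `-1`.** -/
theorem s30c2_cyclotomicCharacter_conj (p : ℕ) [Fact p.Prime] :
    cyclotomicCharacter (AlgebraicClosure ℚ) p
      (MulSemiringAction.toRingAut (AlgebraicClosure ℚ ≃ₐ[ℚ] AlgebraicClosure ℚ)
        (AlgebraicClosure ℚ) complexConjugation) = -1 := by
  have hp : p.Prime := Fact.out
  haveI : ∀ i, HasEnoughRootsOfUnity (AlgebraicClosure ℚ) (p ^ i) :=
    s30c2_hasEnoughRootsOfUnity p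
  apply Units.ext
  rw [Units.val_neg, Units.val_one]
  refine PadicInt.ext_of_toZModPow.mp fun n => ?_
  rw [cyclotomicCharacter.toZModPow, map_neg, map_one]
  haveI : NeZero (p ^ n) := ⟨pow_ne_zero n hp.ne_zero⟩
  symm
  have key := modularCyclotomicCharacter.unique (AlgebraicClosure ℚ)
    (HasEnoughRootsOfUnity.natCard_rootsOfUnity (AlgebraicClosure ℚ) (p ^ n))
    (MulSemiringAction.toRingAut (AlgebraicClosure ℚ ≃ₐ[ℚ] AlgebraicClosure ℚ)
      (AlgebraicClosure ℚ) complexConjugation) (c := (-1 : ZMod (p ^ n))) ?_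
  · rw [← key]
  · intro t ht
    have ht' : ((t : (AlgebraicClosure ℚ)ˣ) : AlgebraicClosure ℚ) ^ (p ^ n) = 1 := by
      have := (mem_rootsOfUnity _ _).mp ht
      rw [← Units.val_pow_eq_pow_val, this, Units.val_one]
    have h1 : (-1 : ZMod (p ^ n)).val = p ^ n - 1 := by
      obtain ⟨m, hm⟩ : ∃ m, p ^ n = m + 1 := ⟨p ^ n - 1, by have := pow_pos hp.pos n; omega⟩
      rw [hm]
      exact ZMod.val_neg_one m
    rw [h1]
    exact s30c2_conj_root _ (p ^ n) ht' (pow_ne_zero n hp.ne_zero)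

end Fermat.Agent.Lib.S30
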