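/-
Plan L (S30), package [CYC-B] (helper9): the `p`-adic cyclotomic character of `G_ℚ` as a
`s30_CycDatum p`, and its value `-1` at complex conjugation.

`ε := cyclotomicCharacter ℚ̄ p ∘ (G_ℚ → RingAut ℚ̄)` (Mathlib).

* `s30y_eps_spec`     : `σ ζ = ζ ^ (ε σ mod pⁿ)` for `ζ ^ pⁿ = 1`;
* `s30y_toZModPow_eq` : if `σ ζ = ζ ^ a` for one primitive `pⁿ`-th root of unity then
  `ε σ ≡ a mod pⁿ`;
* `s30y_frob`, `s30y_unram`, `s30y_cont`, `s30y_cycDatum : s30_CycDatum p`;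
* `s30y_conj` : `ε complexConjugation = -1`.
-/
import Mathlib
import Fermat.Prelude.Def_GaloisRep_ComplexConjugation
import Fermat.Agent.Lib.S30.LIface
import Fermat.Agent.Lib.S29.Cyclo

set_option autoImplicit false

namespace Fermat.Agent.Lib.S30

open Fermat.Agent.Lib.S29

local notation "Qbar" => AlgebraicClosure ℚ

section Eps

variable (p : ℕ) [Fact p.Prime]

/-- the `p`-adic cyclotomic character of `G_ℚ`. -/
noncomputable def s30y_eps : s29k_G →* ℤ_[p]ˣ :=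
  (cyclotomicCharacter Qbar p).comp (MulSemiringAction.toRingAut s29k_G Qbar)

theorem s30y_neZero_pow (n : ℕ) : NeZero (p ^ n) :=
  ⟨pow_ne_zero n (Fact.out : p.Prime).ne_zero⟩

theorem s30y_hasEnough (i : ℕ) : HasEnoughRootsOfUnity Qbar (p ^ i) := by
  have := s30y_neZero_pow p i
  infer_instance

/-- `σ ζ = ζ ^ (ε σ mod pⁿ)`. -/
theorem s30y_eps_spec (σ : s29k_G) (n : ℕ) (ζ : Qbar) (hζ : ζ ^ p ^ n = 1) :
    σ ζ = ζ ^ (PadicInt.toZModPow n ((s30y_eps p σ : ℤ_[p]ˣ) : ℤ_[p])).val := by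
  have : ∀ i, HasEnoughRootsOfUnity Qbar (p ^ i) := s30y_hasEnough p
  exact cyclotomicCharacter.spec p (MulSemiringAction.toRingAut s29k_G Qbar σ) ζ hζ

/-- a primitive `pⁿ`-th root of unity in `ℚ̄`. -/
theorem s30y_exists_primitiveRoot (n : ℕ) : ∃ ζ : Qbar, IsPrimitiveRoot ζ (p ^ n) := by
  have := s30y_hasEnough p n
  exact HasEnoughRootsOfUnity.exists_primitiveRoot Qbar (p ^ n)

/-- `ε σ mod pⁿ` is determined by the action on one primitive `pⁿ`-th root of unity. -/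
theorem s30y_toZModPow_eq (σ : s29k_G) (n : ℕ) {ζ : Qbar} (hζ : IsPrimitiveRoot ζ (p ^ n)) (a : ℕ)
    (h : σ ζ = ζ ^ a) :
    PadicInt.toZModPow n ((s30y_eps p σ : ℤ_[p]ˣ) : ℤ_[p]) = (a : ZMod (p ^ n)) := by
  have := s30y_neZero_pow p n
  have h1 := s30y_eps_spec p σ n ζ hζ.pow_eq_one
  rw [h, pow_eq_pow_mod a hζ.pow_eq_one] at h1
  have h2 := hζ.pow_inj (Nat.mod_lt _ (Nat.pos_of_ne_zero (NeZero.ne _))) (ZMod.val_lt _) h1
  apply ZMod.val_injective
  rw [ZMod.val_natCast, h2]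

/-- `ε σ = a` if `σ ζ = ζ ^ a` for all `p`-power roots of unity. -/
theorem s30y_eps_eq_natCast (σ : s29k_G) (a : ℕ)
    (h : ∀ (n : ℕ) (ζ : Qbar), ζ ^ p ^ n = 1 → σ ζ = ζ ^ a) :
    ((s30y_eps p σ : ℤ_[p]ˣ) : ℤ_[p]) = (a : ℤ_[p]) := by
  apply PadicInt.ext_of_toZModPow.mp
  intro n
  obtain ⟨ζ, hζ⟩ := s30y_exists_primitiveRoot p n
  rw [s30y_toZModPow_eq p σ n hζ a (h n ζ hζ.pow_eq_one), map_natCast]

end Eps

section Fields

variable (p : ℕ) [Fact p.Prime]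

theorem s30y_residue_pow_ne_zero {ℓ : ℕ} (hℓ : ℓ.Prime) (hℓp : ℓ ≠ p) (A : ValuationSubring Qbar)
    (hA : A.LiesOverPrime ℓ) (n : ℕ) : ((p ^ n : ℕ) : IsLocalRing.ResidueField A) ≠ 0 := by
  rw [Nat.cast_pow]
  exact pow_ne_zero n (s29y_natCast_residue_ne_zero A hℓ (Fact.out : p.Prime) hℓp hA)

/-- **`ε(Frob_ℓ) = ℓ`** for `ℓ ≠ p`. -/
theorem s30y_frob (ℓ : ℕ) (hℓ : ℓ.Prime) (hℓp : ℓ ≠ p) (A : ValuationSubring Qbar)
    (hA : A.LiesOverPrime ℓ) (σ : s29k_G) (hσ : A.IsFrobeniusAt σ ℓ) :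
    ((s30y_eps p σ : ℤ_[p]ˣ) : ℤ_[p]) = (ℓ : ℤ_[p]) := by
  apply s30y_eps_eq_natCast
  intro n ζ hζ
  exact s29y_apply_root_of_residue A (s30y_neZero_pow p n).ne
    (s30y_residue_pow_ne_zero p hℓ hℓp A hA n) ⟨σ, hσ.mem_decompositionSubgroup⟩ ℓ
    (fun x => hσ.smul_residue_eq x) hζ

/-- **`ε` is trivial on inertia at `q ≠ p`.** -/
theorem s30y_unram (q : ℕ) (hq : q.Prime) (hqp : q ≠ p) (P : ValuationSubring Qbar)
    (hP : P.LiesOverPrime q) (σ : s29k_G) (hσ : σ ∈ P.inertiaSubgroupIn ℚ) :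
    s30y_eps p σ = 1 := by
  obtain ⟨g, hg, rfl⟩ := Subgroup.mem_map.mp hσ
  have hg' : ∀ x : IsLocalRing.ResidueField P, g • x = x ^ 1 := by
    intro x
    have h1 : MulSemiringAction.toRingAut (P.decompositionSubgroup ℚ)
        (IsLocalRing.ResidueField P) g = 1 := hg
    have h2 := congrArg (fun f : RingAut (IsLocalRing.ResidueField P) => f x) h1
    simpa using h2
  apply Units.ext
  rw [Units.val_one, ← Nat.cast_one]
  apply s30y_eps_eq_natCast
  intro n ζ hζ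
  exact s29y_apply_root_of_residue P (s30y_neZero_pow p n).ne
    (s30y_residue_pow_ne_zero p hq hqp P hP n) g 1 hg' hζ

/-- **continuity of `ε`.** -/
theorem s30y_cont (k : ℕ) : ∃ L : IntermediateField ℚ Qbar, FiniteDimensional ℚ L ∧
    (∀ σ : s29k_G, ∀ x ∈ L, σ x ∈ L) ∧
    ∀ σ : s29k_G, (∀ x ∈ L, σ x = x) →
      ∃ w : ℤ_[p], ((s30y_eps p σ : ℤ_[p]ˣ) : ℤ_[p]) - 1 = (p : ℤ_[p]) ^ k * w := by
  obtain ⟨ζ, hζ⟩ := s30y_exists_primitiveRoot p k
  have := s30y_neZero_pow p k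
  have hζint : IsIntegral ℚ ζ := (hζ.isIntegral (Nat.pos_of_ne_zero (NeZero.ne _))).tower_top
  have hfd : FiniteDimensional ℚ (IntermediateField.adjoin ℚ {ζ}) :=
    IntermediateField.adjoin.finiteDimensional hζint
  have hcl : IsAlgClosure ℚ Qbar := ⟨inferInstance, AlgebraicClosure.isAlgebraic ℚ⟩
  have hnQ : Normal ℚ Qbar := IsAlgClosure.normal ℚ Qbar
  set L₀ : IntermediateField ℚ Qbar := IntermediateField.adjoin ℚ {ζ} with hL₀
  set L : IntermediateField ℚ Qbar := IntermediateField.normalClosure ℚ L₀ Qbar with hL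
  have hle : L₀ ≤ L := IntermediateField.le_normalClosure L₀
  have hnorm : Normal ℚ L := normalClosure.normal ℚ L₀ Qbar
  refine ⟨L, normalClosure.is_finiteDimensional ℚ L₀ Qbar, fun σ y hy => ?_, fun σ hσ => ?_⟩
  · have h1 := IntermediateField.normal_iff_forall_map_le'.mp hnorm σ
    exact h1 ((IntermediateField.mem_map _).mpr ⟨y, hy, rfl⟩)
  · have hζL : ζ ∈ L := hle (IntermediateField.mem_adjoin_simple_self ℚ ζ)
    have h1 : σ ζ = ζ ^ 1 := by rw [pow_one]; exact hσ ζ hζL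
    have h2 := s30y_toZModPow_eq p σ k hζ 1 h1
    have h3 : ((s30y_eps p σ : ℤ_[p]ˣ) : ℤ_[p]) - 1 ∈ RingHom.ker (PadicInt.toZModPow (p := p) k) := by
      rw [RingHom.mem_ker, map_sub, h2, map_one, Nat.cast_one, sub_self]
    rw [PadicInt.ker_toZModPow, Ideal.mem_span_singleton] at h3
    obtain ⟨w, hw⟩ := h3
    exact ⟨w, hw⟩

/-- **[CYC]** the cyclotomic datum. -/
noncomputable def s30y_cycDatum : s30_CycDatum p where
  ε := s30y_eps p
  frob := s30y_frob p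
  unram := s30y_unram p
  cont := s30y_cont p

end Fields

section Conj

variable (p : ℕ) [Fact p.Prime]

/-- complex conjugation inverts the roots of unity. -/
theorem s30y_conj_root (m : ℕ) (hm : m ≠ 0) (ζ : Qbar) (hζ : ζ ^ m = 1) :
    complexConjugation ζ = ζ ^ (m - 1) := by
  apply complexEmbedding.toRingHom.injective
  show complexEmbedding (complexConjugation ζ) = complexEmbedding (ζ ^ (m - 1))
  rw [complexEmbedding_complexConjugation, map_pow]
  set z : ℂ := complexEmbedding ζ with hz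
  have hzm : z ^ m = 1 := by rw [hz, ← map_pow, hζ, map_one]
  have hnorm : ‖z‖ = 1 := Complex.norm_eq_one_of_pow_eq_one hzm hm
  have hz0 : z ≠ 0 := by
    intro h0
    rw [h0, norm_zero] at hnorm
    exact zero_ne_one hnorm
  have h1 : z * (starRingEnd ℂ) z = 1 := by
    rw [Complex.mul_conj, Complex.normSq_eq_norm_sq, hnorm]
    norm_num
  have h2 : z * z ^ (m - 1) = 1 := by
    rw [← pow_succ', Nat.sub_add_cancel (Nat.pos_of_ne_zero hm), hzm]
  exact mul_left_cancel₀ hz0 (h1.trans h2.symm)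

/-- **`ε(c) = -1`.** -/
theorem s30y_conj : s30y_eps p complexConjugation = -1 := by
  apply Units.ext
  rw [Units.val_neg, Units.val_one]
  apply PadicInt.ext_of_toZModPow.mp
  intro n
  obtain ⟨ζ, hζ⟩ := s30y_exists_primitiveRoot p n
  have hn := s30y_neZero_pow p n
  have h1 := s30y_conj_root (p ^ n) hn.ne ζ hζ.pow_eq_one
  rw [s30y_toZModPow_eq p complexConjugation n hζ (p ^ n - 1) h1, map_neg, map_one,
    Nat.cast_sub (Nat.one_le_iff_ne_zero.mpr hn.ne), ZMod.natCast_self, Nat.cast_one, zero_sub]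

/-- the same for the datum. -/
theorem s30y_conj_datum : (s30y_cycDatum p).ε complexConjugation = -1 := s30y_conj p

end Conj

end Fermat.Agent.Lib.S30
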