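/-
Plan L (S30), package [DENS] (owner: helper9).

`s30d_densContract : s30_DensContract` — quadratic relations at the Frobenius elements outside a
finite set of primes, adic continuity and Frobenius density (`s29d_frobDensity`) give a scalar
relation `ρ g + d g • ρ g⁻¹ = t g • 1` for every `g ∈ G_ℚ`.
-/
import Mathlib
import Fermat.Agent.Lib.S30.LIface
import Fermat.Agent.Lib.S29.QuadPow
import Fermat.Agent.Lib.S29.FDPlace

set_option autoImplicit false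

open IsLocalRing

namespace Fermat.Agent.Lib.S30

open Fermat.Agent.Lib.S29

section Algebra

variable {R : Type*} [CommRing R] {M : Type*} [AddCommGroup M] [Module R M]

/-- coordinates of an element of `I • ⊤` lie in `I`. -/
theorem s30d_repr_mem_of_mem_smul_top {ι : Type*} (b : Module.Basis ι R M) (I : Ideal R) {x : M}
    (hx : x ∈ I • (⊤ : Submodule R M)) (i : ι) : b.repr x i ∈ I := by
  refine Submodule.smul_induction_on hx ?_ ?_
  · intro a ha w _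
    rw [map_smul, Finsupp.smul_apply, smul_eq_mul]
    exact I.mul_mem_right _ ha
  · intro x y hx hy
    rw [map_add, Finsupp.add_apply]
    exact I.add_mem hx hy

/-- a linear map preserves `I • ⊤`. -/
theorem s30d_map_mem_smul_top (f : Module.End R M) (I : Ideal R) {x : M}
    (hx : x ∈ I • (⊤ : Submodule R M)) : f x ∈ I • (⊤ : Submodule R M) := by
  refine Submodule.smul_induction_on hx ?_ ?_
  · intro a ha w _
    rw [map_smul]
    exact Submodule.smul_mem_smul ha Submodule.mem_top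
  · intro x y hx hy
    rw [map_add]
    exact Submodule.add_mem _ hx hy

/-- an endomorphism of a finite free module over a Noetherian local ring which is congruent to a
scalar modulo every power of the maximal ideal is a scalar. -/
theorem s30d_scalar_of_approx [IsLocalRing R] [IsNoetherianRing R] [Module.Free R M]
    (E : Module.End R M)
    (h : ∀ n : ℕ, ∃ s : R, ∀ v : M,
      E v - s • v ∈ (maximalIdeal R ^ n) • (⊤ : Submodule R M)) :
    ∃ t : R, E = t • (1 : Module.End R M) := by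
  classical
  set b := Module.Free.chooseBasis R M with hb
  have hH : ∀ x : R, (∀ n, x ∈ maximalIdeal R ^ n) → x = 0 := by
    intro x hx
    have h1 : x ∈ (⨅ n, maximalIdeal R ^ n : Ideal R) := by
      rw [Submodule.mem_iInf]
      exact hx
    rw [Ideal.iInf_pow_eq_bot_of_isLocalRing _ (maximalIdeal.isMaximal R).ne_top] at h1
    simpa using h1
  have hcoef : ∀ n, ∃ s : R, ∀ i k,
      b.repr (E (b k)) i - (if k = i then s else 0) ∈ maximalIdeal R ^ n := by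
    intro n
    obtain ⟨s, hs⟩ := h n
    refine ⟨s, fun i k => ?_⟩
    have h1 := s30d_repr_mem_of_mem_smul_top b _ (hs (b k)) i
    rw [map_sub, map_smul, Finsupp.sub_apply, Finsupp.smul_apply, b.repr_self,
      Finsupp.single_apply, smul_eq_mul] at h1
    convert h1 using 2
    split_ifs <;> simp
  have hoff : ∀ i k, k ≠ i → b.repr (E (b k)) i = 0 := by
    intro i k hik
    apply hH
    intro n
    obtain ⟨s, hs⟩ := hcoef n
    have := hs i k
    rwa [if_neg hik, sub_zero] at this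
  have hdiag : ∀ i k, b.repr (E (b i)) i = b.repr (E (b k)) k := by
    intro i k
    rw [← sub_eq_zero]
    apply hH
    intro n
    obtain ⟨s, hs⟩ := hcoef n
    have h1 := hs i i
    have h2 := hs k k
    rw [if_pos rfl] at h1 h2
    have := (maximalIdeal R ^ n).sub_mem h1 h2
    convert this using 1
    ring
  by_cases hne : Nonempty (Module.Free.ChooseBasisIndex R M)
  · obtain ⟨i₀⟩ := hne
    refine ⟨b.repr (E (b i₀)) i₀, ?_⟩
    apply b.ext
    intro k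
    apply b.repr.injective
    ext i
    rw [LinearMap.smul_apply, Module.End.one_apply, map_smul, Finsupp.smul_apply, b.repr_self,
      Finsupp.single_apply, smul_eq_mul]
    by_cases hik : k = i
    · subst hik
      rw [if_pos rfl, mul_one]
      exact hdiag k i₀
    · rw [if_neg hik, mul_zero]
      exact hoff i k hik
  · refine ⟨0, ?_⟩
    apply b.ext
    intro k
    exact (hne ⟨k⟩).elim

/-- on a nontrivial free module, `t ↦ t • 1` is injective. -/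
theorem s30d_smul_one_injective [Module.Free R M] [Nontrivial M] {t t' : R}
    (h : t • (1 : Module.End R M) = t' • (1 : Module.End R M)) : t = t' := by
  classical
  set b := Module.Free.chooseBasis R M with hb
  have hne : Nonempty (Module.Free.ChooseBasisIndex R M) := by
    by_contra hne
    rw [not_nonempty_iff] at hne
    have hsub : Subsingleton M := b.repr.toEquiv.subsingleton
    exact not_subsingleton M hsub
  obtain ⟨i⟩ := hne
  have h1 := congrArg (fun f : Module.End R M => b.repr (f (b i)) i) h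
  simpa using h1

end Algebra

section Rep

variable {𝒪 : Type} [CommRing 𝒪] {Λ : Type} [AddCommGroup Λ] [Module 𝒪 Λ]
  (ρ : s29k_G →* Module.End 𝒪 Λ) (d : s29k_G →* 𝒪ˣ)

theorem s30d_rho_mul_inv (σ : s29k_G) : ρ σ * ρ σ⁻¹ = 1 := by
  rw [← map_mul, mul_inv_cancel, map_one]

theorem s30d_rho_inv_mul (σ : s29k_G) : ρ σ⁻¹ * ρ σ = 1 := by
  rw [← map_mul, inv_mul_cancel, map_one]

/-- the quadratic relation gives the trace-like relation. -/
theorem s30d_rel_of_quad (σ : s29k_G) (a c : 𝒪)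
    (hq : ρ σ * ρ σ - a • ρ σ + c • (1 : Module.End 𝒪 Λ) = 0) :
    ρ σ + c • ρ σ⁻¹ = a • (1 : Module.End 𝒪 Λ) := by
  have hinv := s30d_rho_mul_inv ρ σ
  have h1 : (ρ σ * ρ σ - a • ρ σ + c • (1 : Module.End 𝒪 Λ)) * ρ σ⁻¹ = 0 := by
    rw [hq, zero_mul]
  rw [add_mul, sub_mul, mul_assoc, hinv, mul_one, smul_mul_assoc, hinv, smul_mul_assoc,
    one_mul] at h1
  have h2 : ρ σ + c • ρ σ⁻¹ - a • (1 : Module.End 𝒪 Λ) = 0 := by
    rw [← h1]; abel
  exact sub_eq_zero.mp h2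

/-- the trace-like relation for all powers (Lucas / Dickson). -/
theorem s30d_rel_pow (σ : s29k_G) (a c : 𝒪)
    (hrel : ρ σ + c • ρ σ⁻¹ = a • (1 : Module.End 𝒪 Λ)) (j : ℕ) :
    ∃ s : 𝒪, ρ (σ ^ j) + c ^ j • ρ (σ ^ j)⁻¹ = s • (1 : Module.End 𝒪 Λ) := by
  have hinv := s30d_rho_mul_inv ρ σ
  have hinv' := s30d_rho_inv_mul ρ σ
  have hsum : ρ σ + c • ρ σ⁻¹ = algebraMap 𝒪 (Module.End 𝒪 Λ) a := by
    rw [Algebra.algebraMap_eq_smul_one]; exact hrel
  have hAB : ρ σ * (c • ρ σ⁻¹) = algebraMap 𝒪 (Module.End 𝒪 Λ) c := by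
    rw [mul_smul_comm, hinv, Algebra.algebraMap_eq_smul_one]
  have hBA : (c • ρ σ⁻¹) * ρ σ = algebraMap 𝒪 (Module.End 𝒪 Λ) c := by
    rw [smul_mul_assoc, hinv', Algebra.algebraMap_eq_smul_one]
  obtain ⟨s, hs⟩ := s29y_pow_add_pow_scalar hsum hAB hBA j
  refine ⟨s, ?_⟩
  rw [← Algebra.algebraMap_eq_smul_one, ← hs, smul_pow, map_pow, ← inv_pow, map_pow]

end Rep

section Main

variable {𝒪 : Type} [CommRing 𝒪] [IsLocalRing 𝒪] {Λ : Type} [AddCommGroup Λ] [Module 𝒪 Λ]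
  (ρ : s29k_G →* Module.End 𝒪 Λ) (d : s29k_G →* 𝒪ˣ)

/-- a common finite Galois-stable level for `ρ` and `d` modulo `𝔪 ^ n`. -/
theorem s30d_exists_level (hρ : GaloisActionIsAdicContinuous 𝒪 ρ) (hd : s30_CharContinuous d)
    (n : ℕ) :
    ∃ L : IntermediateField ℚ (AlgebraicClosure ℚ), FiniteDimensional ℚ L ∧
      (∀ σ : s29k_G, ∀ x ∈ L, σ x ∈ L) ∧
      ∀ σ : s29k_G, (∀ x ∈ L, σ x = x) →
        (∀ v : Λ, ρ σ v - v ∈ (maximalIdeal 𝒪 ^ n) • (⊤ : Submodule 𝒪 Λ)) ∧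
        ((d σ : 𝒪ˣ) : 𝒪) - 1 ∈ maximalIdeal 𝒪 ^ n := by
  obtain ⟨L₁, hL₁, h₁⟩ := hρ n
  obtain ⟨L₂, hL₂, h₂⟩ := hd n
  have hcl : IsAlgClosure ℚ (AlgebraicClosure ℚ) := ⟨inferInstance, AlgebraicClosure.isAlgebraic ℚ⟩
  have hnQ : Normal ℚ (AlgebraicClosure ℚ) := IsAlgClosure.normal ℚ (AlgebraicClosure ℚ)
  set L₀ : IntermediateField ℚ (AlgebraicClosure ℚ) := L₁ ⊔ L₂ with hL₀
  have hfd : FiniteDimensional ℚ L₀ := IntermediateField.finiteDimensional_sup L₁ L₂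
  set L : IntermediateField ℚ (AlgebraicClosure ℚ) :=
    IntermediateField.normalClosure ℚ L₀ (AlgebraicClosure ℚ) with hL
  have hle : L₀ ≤ L := IntermediateField.le_normalClosure L₀
  have hnorm : Normal ℚ L := normalClosure.normal ℚ L₀ (AlgebraicClosure ℚ)
  refine ⟨L, normalClosure.is_finiteDimensional ℚ L₀ (AlgebraicClosure ℚ),
    fun σ y hy => ?_, fun σ hσ => ⟨?_, ?_⟩⟩
  · have h1 := IntermediateField.normal_iff_forall_map_le'.mp hnorm σ
    exact h1 ((IntermediateField.mem_map _).mpr ⟨y, hy, rfl⟩)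
  · exact h₁ σ (fun x hx => hσ x (hle ((le_sup_left : L₁ ≤ L₁ ⊔ L₂) hx)))
  · exact h₂ σ (fun x hx => hσ x (hle ((le_sup_right : L₂ ≤ L₁ ⊔ L₂) hx)))

/-- **approximation**: modulo every power of the maximal ideal, `ρ g + d g • ρ g⁻¹` is a
scalar. -/
theorem s30d_approx (hρ : GaloisActionIsAdicContinuous 𝒪 ρ) (hd : s30_CharContinuous d)
    (S₀ : Finset ℕ) (a : ℕ → 𝒪)
    (hfrob : ∀ ℓ : ℕ, ℓ.Prime → ℓ ∉ S₀ →
      ∀ A : ValuationSubring (AlgebraicClosure ℚ), A.LiesOverPrime ℓ →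
        ∀ σ : s29k_G, A.IsFrobeniusAt σ ℓ →
          ρ σ * ρ σ - a ℓ • ρ σ + (ℓ : 𝒪) • (1 : Module.End 𝒪 Λ) = 0 ∧
            ((d σ : 𝒪ˣ) : 𝒪) = (ℓ : 𝒪))
    (g : s29k_G) (n : ℕ) :
    ∃ s : 𝒪, ∀ v : Λ, (ρ g + ((d g : 𝒪ˣ) : 𝒪) • ρ g⁻¹) v - s • v ∈
      (maximalIdeal 𝒪 ^ n) • (⊤ : Submodule 𝒪 Λ) := by
  obtain ⟨L, hL, hstab, hlev⟩ := s30d_exists_level ρ d hρ hd n
  obtain ⟨ℓ, A, σ, j, hℓ, hℓS, hA, hFr, hj⟩ := s29d_frobDensity L hL hstab S₀ g
  obtain ⟨hquad, hdσ⟩ := hfrob ℓ hℓ hℓS A hA σ hFr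
  have hrel : ρ σ + ((d σ : 𝒪ˣ) : 𝒪) • ρ σ⁻¹ = a ℓ • (1 : Module.End 𝒪 Λ) := by
    apply s30d_rel_of_quad
    rw [hdσ]
    exact hquad
  obtain ⟨s, hs⟩ := s30d_rel_pow ρ σ (a ℓ) _ hrel j
  refine ⟨s, fun v => ?_⟩
  obtain ⟨τ, hτ⟩ : ∃ τ : s29k_G, τ = σ ^ j := ⟨_, rfl⟩
  rw [← hτ] at hs hj
  have hdτ : ((d τ : 𝒪ˣ) : 𝒪) = ((d σ : 𝒪ˣ) : 𝒪) ^ j := by
    rw [hτ, map_pow, Units.val_pow_eq_pow_val]
  rw [← hdτ] at hs
  obtain ⟨h, hg, hfix⟩ : ∃ h : s29k_G, g = τ * h ∧ ∀ x ∈ L, h x = x := by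
    refine ⟨τ⁻¹ * g, by rw [mul_inv_cancel_left], fun x hx => ?_⟩
    rw [AlgEquiv.mul_apply, ← hj x hx]
    exact τ.symm_apply_apply x
  have hfix' : ∀ x ∈ L, h⁻¹ x = x := by
    intro x hx
    conv_lhs => rw [← hfix x hx]
    exact h.symm_apply_apply x
  obtain ⟨h1, h2⟩ := hlev h hfix
  obtain ⟨h3, -⟩ := hlev h⁻¹ hfix'
  have hsv : s • v = ρ τ v + ((d τ : 𝒪ˣ) : 𝒪) • ρ τ⁻¹ v := by
    have := congrArg (fun f : Module.End 𝒪 Λ => f v) hs
    simp only [LinearMap.add_apply, LinearMap.smul_apply, Module.End.one_apply] at this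
    exact this.symm
  have key : (ρ g + ((d g : 𝒪ˣ) : 𝒪) • ρ g⁻¹) v - s • v =
      ρ τ (ρ h v - v) + ((d τ : 𝒪ˣ) : 𝒪) • (((d h : 𝒪ˣ) : 𝒪) • (ρ h⁻¹ (ρ τ⁻¹ v) - ρ τ⁻¹ v) +
        (((d h : 𝒪ˣ) : 𝒪) - 1) • ρ τ⁻¹ v) := by
    rw [hsv, hg, map_mul, map_mul, mul_inv_rev, map_mul]
    simp only [LinearMap.add_apply, LinearMap.smul_apply, Module.End.mul_apply, Units.val_mul,
      map_sub, smul_sub, smul_add, sub_smul, one_smul, mul_smul]
    abel
  rw [key]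
  refine Submodule.add_mem _ (s30d_map_mem_smul_top _ _ (h1 v)) (Submodule.smul_mem _ _
    (Submodule.add_mem _ (Submodule.smul_mem _ _ (h3 _)) ?_))
  exact Submodule.smul_mem_smul h2 Submodule.mem_top

end Main

/-- **[DENS]** -/
theorem s30d_densContract : s30_DensContract := by
  intro 𝒪 _ _ _ _ Λ _ _ _ _ _ ρ hρ d hd S₀ a hfrob
  have hex : ∀ g : s29k_G, ∃ t : 𝒪,
      ρ g + ((d g : 𝒪ˣ) : 𝒪) • ρ g⁻¹ = t • (1 : Module.End 𝒪 Λ) := fun g =>
    s30d_scalar_of_approx _ (s30d_approx ρ d hρ hd S₀ a hfrob g)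
  choose t ht using hex
  refine ⟨t, ht, fun ℓ hℓ hℓS A hA σ hFr => ?_⟩
  obtain ⟨hquad, hdσ⟩ := hfrob ℓ hℓ hℓS A hA σ hFr
  have hrel : ρ σ + ((d σ : 𝒪ˣ) : 𝒪) • ρ σ⁻¹ = a ℓ • (1 : Module.End 𝒪 Λ) := by
    apply s30d_rel_of_quad
    rw [hdσ]
    exact hquad
  exact s30d_smul_one_injective ((ht σ).symm.trans hrel)

end Fermat.Agent.Lib.S30
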