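/-
Plan L (S30), package [EIG]/[TATE] (helper3): a module with an injective linear map into
`Hom(G, R)`, `G` a finitely generated group, is finite over a noetherian ring `R` and free over a
principal ideal domain `R`.  In particular (`R = ℤ_[p]`, `G = Γ₀(N)`) this gives the instances
`Module.Finite` / `Module.Free` of the Tate module from an injective ruler `κ_∞`.
-/
import Mathlib
import Fermat.Agent.Lib.S16.CRank
import Fermat.Agent.Lib.ES.FG

set_option autoImplicit false
set_option linter.unusedSectionVars false

namespace Fermat.Agent.Lib.S30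

open Fermat.Agent.Lib.S16 Fermat.Agent.Lib.ES CongruenceSubgroup
open scoped MatrixGroups

section Abstract

variable {R : Type*} [CommRing R] {G : Type*} [Group G] {Λ : Type*} [AddCommGroup Λ] [Module R Λ]

/-- `Hom(G, R)` is torsion-free over a domain `R`. -/
theorem s30e_isTorsionFree_hom [IsDomain R] : Module.IsTorsionFree R (Additive G →+ R) :=
  Function.Injective.moduleIsTorsionFree (fun f => (f : Additive G → R)) DFunLike.coe_injective
    (fun _ _ => rfl)

theorem s30e_finite_of_injective_hom [IsNoetherianRing R] [Group.FG G]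
    (κ : Λ →ₗ[R] (Additive G →+ R)) (hκ : Function.Injective κ) : Module.Finite R Λ :=
  haveI : Module.Finite R (Additive G →+ R) := s16c_finite_hom R
  Module.Finite.of_injective κ hκ

theorem s30e_isTorsionFree_of_injective_hom [IsDomain R]
    (κ : Λ →ₗ[R] (Additive G →+ R)) (hκ : Function.Injective κ) : Module.IsTorsionFree R Λ :=
  haveI : Module.IsTorsionFree R (Additive G →+ R) := s30e_isTorsionFree_hom
  Function.Injective.moduleIsTorsionFree κ hκ (fun r m => map_smul κ r m)

theorem s30e_free_of_injective_hom [IsDomain R] [IsPrincipalIdealRing R] [Group.FG G]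
    (κ : Λ →ₗ[R] (Additive G →+ R)) (hκ : Function.Injective κ) : Module.Free R Λ :=
  haveI : Module.Finite R Λ := s30e_finite_of_injective_hom κ hκ
  haveI : Module.IsTorsionFree R Λ := s30e_isTorsionFree_of_injective_hom κ hκ
  Module.free_of_finite_type_torsion_free'

end Abstract

section Gamma0

variable {N : ℕ} [NeZero N] {p : ℕ} [Fact p.Prime] {Λ : Type*} [AddCommGroup Λ] [Module ℤ_[p] Λ]

/-- A `ℤ_[p]`-module with an injective linear map into `Hom(Γ₀(N), ℤ_[p])` is finite. -/
theorem s30e_finite_of_ruler (κ : Λ →ₗ[ℤ_[p]] (Additive (Gamma0 N) →+ ℤ_[p]))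
    (hκ : Function.Injective κ) : Module.Finite ℤ_[p] Λ :=
  s30e_finite_of_injective_hom κ hκ

/-- A `ℤ_[p]`-module with an injective linear map into `Hom(Γ₀(N), ℤ_[p])` is free. -/
theorem s30e_free_of_ruler (κ : Λ →ₗ[ℤ_[p]] (Additive (Gamma0 N) →+ ℤ_[p]))
    (hκ : Function.Injective κ) : Module.Free ℤ_[p] Λ :=
  s30e_free_of_injective_hom κ hκ

end Gamma0

end Fermat.Agent.Lib.S30
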