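/-
Plan L (S30), package [EIG] (helper3), part 3: from the integral lattice to the Tate module.

* `s30e_linearIndependent_domain_of_int` : `ℤ`-linearly independent integer valued functions stay
  linearly independent over every domain of characteristic zero;
  `s30e_castB_linearIndependent b R` : the vectors `s29s_castB b R i = (b i : Γ₀(N) → ℤ → R)` are
  `R`-linearly independent for every domain `R` of characteristic zero (e.g. `R = ℤ_[p]`).
* `s30e_isTorsionFree_padicInt`, `s30e_flat_padicInt` : a domain of characteristic zero which is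
  a `ℤ_[p]`-algebra is torsion-free, hence flat over `ℤ_[p]`.
* `s30e_tensor_sum_ne_zero` : for `A` flat over `R` and `β` an `R`-linearly independent family,
  `∑ w_i ⊗ β_i ≠ 0` in `A ⊗[R] V` for `w ≠ 0`.
* `s30e_eig_of_linearIndependent`, `s30e_eig_of_embedding` : **the field `eig` of
  `s30_TateDatum`** for any `ℤ_[p]`-module `Λ` with endomorphisms `TΛ ℓ` and a Hecke-equivariant
  map `ι : H(ℤ) → Λ` such that the `ι (b i)` are `ℤ_[p]`-linearly independent — e.g. if there is a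
  `ℤ_[p]`-linear ruler `κ : Λ → Hom(Γ₀(N), ℤ_[p])` with `κ (ι φ) = (γ ↦ (φ γ : ℤ_[p]))`.
-/
import Mathlib
import Fermat.Agent.Lib.S30.EigLattice

set_option autoImplicit false
set_option linter.unusedSectionVars false

noncomputable section

namespace Fermat.Agent.Lib.S30

open Fermat.Agent.Lib.S29
open CongruenceSubgroup
open scoped MatrixGroups
open TensorProduct Matrix

/-! ### Linear independence over domains of characteristic zero -/

/-- `ℤ`-linearly independent integer valued functions are linearly independent over every field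
of characteristic zero. -/
theorem s30e_linearIndependent_field_of_int {X ι : Type*} [Fintype ι] (K : Type*) [Field K]
    [CharZero K] (u : ι → X → ℤ) (hu : LinearIndependent ℤ u) :
    LinearIndependent K (fun i x => ((u i x : ℤ) : K)) := by
  classical
  -- step a: independence over `ℚ`
  let castLin : (X → ℤ) →ₗ[ℤ] (X → ℚ) :=
    { toFun := fun f x => (f x : ℚ)
      map_add' := fun f g => by ext x; simp
      map_smul' := fun m f => by ext x; simp }
  have hker : LinearMap.ker castLin = ⊥ := by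
    rw [LinearMap.ker_eq_bot]
    intro f g h
    ext x
    exact Int.cast_injective (congrFun h x)
  have hq : LinearIndependent ℚ (fun i x => ((u i x : ℤ) : ℚ)) :=
    (LinearIndependent.iff_fractionRing ℤ ℚ).mp (hu.map' castLin hker)
  -- step b: independence over `K` via `ℚ`-linear functionals on `K`
  rw [Fintype.linearIndependent_iff] at hq ⊢
  intro c hc i
  rw [← Module.forall_dual_apply_eq_zero_iff ℚ]
  intro lam
  refine hq (fun i => lam (c i)) ?_ i
  ext x
  have h1 := congrFun hc x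
  simp only [Finset.sum_apply, Pi.smul_apply, smul_eq_mul, Pi.zero_apply] at h1 ⊢
  have h2 := congrArg lam h1
  rw [map_sum, map_zero] at h2
  rw [← h2]
  refine Finset.sum_congr rfl fun j _ => ?_
  have h3 : c j * ((u j x : ℤ) : K) = (u j x : ℤ) • c j := by rw [zsmul_eq_mul, mul_comm]
  rw [h3, map_zsmul, zsmul_eq_mul, mul_comm]

/-- `ℤ`-linearly independent integer valued functions are linearly independent over every domain
of characteristic zero. -/
theorem s30e_linearIndependent_domain_of_int {X ι : Type*} [Fintype ι] (R : Type*) [CommRing R]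
    [IsDomain R] [CharZero R] (u : ι → X → ℤ) (hu : LinearIndependent ℤ u) :
    LinearIndependent R (fun i x => ((u i x : ℤ) : R)) := by
  classical
  have : CharZero (FractionRing R) := IsFractionRing.charZero R
  have hK := s30e_linearIndependent_field_of_int (FractionRing R) u hu
  rw [Fintype.linearIndependent_iff] at hK ⊢
  intro c hc i
  have h1 := hK (fun i => algebraMap R (FractionRing R) (c i)) ?_ i
  · exact (IsFractionRing.injective R (FractionRing R)) (h1.trans (map_zero _).symm)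
  · ext x
    have h2 := congrArg (algebraMap R (FractionRing R)) (congrFun hc x)
    simp only [Finset.sum_apply, Pi.smul_apply, smul_eq_mul, Pi.zero_apply, map_sum, map_mul,
      map_intCast, map_zero] at h2 ⊢
    exact h2

section Indep

variable {N : ℕ} [NeZero N] {ι : Type*} [Fintype ι] [DecidableEq ι]
  (b : Module.Basis ι ℤ (s29s_M N))

/-- **(b1)** the basis vectors of the lattice `H(ℤ)` with coefficients extended to a domain `R` of
characteristic zero are `R`-linearly independent. -/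
theorem s30e_castB_linearIndependent (R : Type*) [CommRing R] [IsDomain R] [CharZero R] :
    LinearIndependent R (s29s_castB b R) := by
  let coeLin : (Additive (Gamma0 N) →+ R) →ₗ[R] (Additive (Gamma0 N) → R) :=
    { toFun := fun χ => (χ : Additive (Gamma0 N) → R)
      map_add' := fun _ _ => rfl
      map_smul' := fun _ _ => rfl }
  refine LinearIndependent.of_comp coeLin ?_
  exact s30e_linearIndependent_domain_of_int R _ (s29s_basis_fun_linearIndependent b)

end Indep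

/-! ### Flatness over `ℤ_[p]` -/

section Flat

variable (p : ℕ) [Fact p.Prime] (𝒪 : Type*) [CommRing 𝒪] [IsDomain 𝒪] [CharZero 𝒪]
  [Algebra ℤ_[p] 𝒪]

theorem s30e_algebraMap_padicInt_injective : Function.Injective (algebraMap ℤ_[p] 𝒪) := by
  rw [injective_iff_map_eq_zero]
  intro x hx
  by_contra hx0
  have h1 := PadicInt.unitCoeff_spec hx0
  rw [h1, map_mul, map_pow, map_natCast] at hx
  have hu : IsUnit (algebraMap ℤ_[p] 𝒪 ((PadicInt.unitCoeff hx0 : ℤ_[p]ˣ) : ℤ_[p])) :=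
    (PadicInt.unitCoeff hx0).isUnit.map _
  have h2 : ((p : 𝒪)) ^ x.valuation = 0 := (hu.mul_right_eq_zero).mp hx
  have h3 : (p : 𝒪) = 0 := eq_zero_of_pow_eq_zero h2
  exact (Nat.cast_ne_zero.mpr (Fact.out : p.Prime).ne_zero) h3

theorem s30e_isTorsionFree_padicInt : Module.IsTorsionFree ℤ_[p] 𝒪 :=
  Module.isTorsionFree_iff_algebraMap_injective.mpr (s30e_algebraMap_padicInt_injective p 𝒪)

theorem s30e_flat_padicInt : Module.Flat ℤ_[p] 𝒪 := by
  have := s30e_isTorsionFree_padicInt p 𝒪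
  infer_instance

end Flat

/-! ### Two lemmas on `A ⊗[R] V` -/

section TensorLA

variable {R A V ι : Type*} [CommRing R] [CommRing A] [Algebra R A] [AddCommGroup V] [Module R V]
  [Fintype ι]

/-- An `A`-combination of `R`-linearly independent vectors in `A ⊗[R] V`, `A` flat over `R`,
vanishes only trivially. -/
theorem s30e_tensor_sum_ne_zero [Module.Flat R A] (β : ι → V) (hβ : LinearIndependent R β)
    (w : ι → A) (hw : w ≠ 0) : ∑ i, w i ⊗ₜ[R] β i ≠ 0 := by
  classical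
  obtain ⟨i0, hi0⟩ := Function.ne_iff.mp hw
  have hinj : Function.Injective (Fintype.linearCombination R β) :=
    linearIndependent_iff_injective_fintypeLinearCombination.mp hβ
  have hinj' : Function.Injective ((Fintype.linearCombination R β).lTensor A) :=
    Module.Flat.lTensor_preserves_injective_linearMap (M := A) _ hinj
  intro hv
  -- the preimage
  set x : A ⊗[R] (ι → R) := ∑ i, w i ⊗ₜ[R] (Pi.single i (1 : R)) with hx
  have hFx : (Fintype.linearCombination R β).lTensor A x = ∑ i, w i ⊗ₜ[R] β i := by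
    rw [hx, map_sum]
    refine Finset.sum_congr rfl fun i _ => ?_
    rw [LinearMap.lTensor_tmul, Fintype.linearCombination_apply_single, one_smul]
  have hx0 : x = 0 := by
    apply hinj'
    rw [hFx, hv, map_zero]
  let E : A ⊗[R] (ι → R) →ₗ[R] A :=
    (TensorProduct.rid R A).toLinearMap.comp
      ((LinearMap.proj i0 : (ι → R) →ₗ[R] R).lTensor A)
  have h1 : E x = w i0 := by
    rw [hx, map_sum]
    have : ∀ i, E (w i ⊗ₜ[R] (Pi.single i (1 : R))) = if i = i0 then w i else 0 := by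
      intro i
      show (TensorProduct.rid R A) (((LinearMap.proj i0 : (ι → R) →ₗ[R] R).lTensor A)
        (w i ⊗ₜ[R] Pi.single i 1)) = _
      rw [LinearMap.lTensor_tmul, TensorProduct.rid_tmul, LinearMap.proj_apply, Pi.single_apply]
      split_ifs with h1 h2 h2
      · simp
      · exact absurd h1.symm h2
      · exact absurd h2.symm h1
      · simp
    simp_rw [this]
    simp
  rw [hx0, map_zero] at h1
  exact hi0 h1.symm

/-- Base change of an endomorphism with matrix `t` on the vectors `β`. -/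
theorem s30e_baseChange_sum (T : Module.End R V) (β : ι → V) (t : Matrix ι ι R)
    (hT : ∀ j, T (β j) = ∑ i, t i j • β i) (w : ι → A) :
    T.baseChange A (∑ j, w j ⊗ₜ[R] β j) =
      ∑ i, ((t.map (algebraMap R A)) *ᵥ w) i ⊗ₜ[R] β i := by
  rw [map_sum]
  simp_rw [LinearMap.baseChange_tmul, hT, TensorProduct.tmul_sum, TensorProduct.tmul_smul,
    TensorProduct.smul_tmul']
  rw [Finset.sum_comm]
  refine Finset.sum_congr rfl fun i _ => ?_
  rw [← TensorProduct.sum_tmul]
  congr 1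
  show _ = ∑ j, (t.map (algebraMap R A)) i j * w j
  refine Finset.sum_congr rfl fun j _ => ?_
  rw [Matrix.map_apply, Algebra.smul_def]

end TensorLA

/-! ### The field `eig` -/

section Eig

variable {N : ℕ} [NeZero N] (p : ℕ) [Fact p.Prime]
  {Λ : Type*} [AddCommGroup Λ] [Module ℤ_[p] Λ]

/-- **The field `eig` from a Hecke-equivariant map `ι : H(ℤ) → Λ` carrying a `ℤ`-basis of the
lattice to a `ℤ_[p]`-linearly independent family.** -/
theorem s30e_eig_of_linearIndependent {r : ℕ} (b : Module.Basis (Fin r) ℤ ↥(s29s_M N))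
    (TΛ : Nat.Primes → Module.End ℤ_[p] Λ) (ι : ↥(s29s_M N) →ₗ[ℤ] Λ)
    (hι : ∀ (ℓ : ℕ) (hℓ : ℓ.Prime), ¬ ℓ ∣ N → ∀ φ : ↥(s29s_M N),
      ι (haveI : Fact ℓ.Prime := ⟨hℓ⟩; s29h_heckeHpar N ℓ ℤ ℤ φ) = TΛ ⟨ℓ, hℓ⟩ (ι φ))
    (hli : LinearIndependent ℤ_[p] (fun i => ι (b i)))
    (S : Set ℕ) (𝒪 : Type*) [CommRing 𝒪] [IsDomain 𝒪] [CharZero 𝒪] [Algebra ℤ_[p] 𝒪]
    (χ : ↥(CuspForm.heckeAlgebra N 2 S) →+* 𝒪) :
    ∃ v : 𝒪 ⊗[ℤ_[p]] Λ, v ≠ 0 ∧
      ∀ (ℓ : ℕ) (hℓ : ℓ.Prime) (hℓN : ¬ ℓ ∣ N) (hℓS : ℓ ∉ S),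
        (TΛ ⟨ℓ, hℓ⟩).baseChange 𝒪 v = χ (CuspForm.heckeAlgebra.T hℓ hℓN hℓS) • v := by
  classical
  have : Module.Flat ℤ_[p] 𝒪 := s30e_flat_padicInt p 𝒪
  obtain ⟨w, hw0, hw⟩ := s30e_exists_eigenvector b S 𝒪 χ
  refine ⟨∑ i, w i ⊗ₜ[ℤ_[p]] ι (b i), s30e_tensor_sum_ne_zero _ hli w hw0, ?_⟩
  intro ℓ hℓ hℓN hℓS
  have : Fact ℓ.Prime := ⟨hℓ⟩
  have hT : ∀ j, TΛ ⟨ℓ, hℓ⟩ (ι (b j)) =
      ∑ i, ((s29s_heckeMat b ℓ).map (Int.cast : ℤ → ℤ_[p])) i j • ι (b i) := by
    intro j
    rw [← hι ℓ hℓ hℓN (b j)]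
    have h1 : s29h_heckeHpar N ℓ ℤ ℤ (b j) = ∑ i, s29s_heckeMat b ℓ i j • b i := by
      have h := b.sum_repr (s29h_heckeHpar N ℓ ℤ ℤ (b j))
      rw [← h]
      refine Finset.sum_congr rfl fun i _ => ?_
      rw [s29s_heckeMat, LinearMap.toMatrix_apply]
    rw [h1, map_sum]
    refine Finset.sum_congr rfl fun i _ => ?_
    rw [map_zsmul, Matrix.map_apply, Int.cast_smul_eq_zsmul]
  rw [s30e_baseChange_sum (TΛ ⟨ℓ, hℓ⟩) (fun i => ι (b i)) _ hT w]
  have hmat : ((s29s_heckeMat b ℓ).map (Int.cast : ℤ → ℤ_[p])).map (algebraMap ℤ_[p] 𝒪) =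
      (s29s_heckeMat b ℓ).map (Int.cast : ℤ → 𝒪) := by
    ext i j
    simp
  rw [hmat, hw ℓ hℓ hℓN hℓS, Finset.smul_sum]
  refine Finset.sum_congr rfl fun i _ => ?_
  rw [TensorProduct.smul_tmul', Pi.smul_apply]

/-- **The field `eig` from a Hecke-equivariant map `ι : H(ℤ) → Λ` and a `ℤ_[p]`-linear ruler
`κ : Λ → Hom(Γ₀(N), ℤ_[p])` with `κ (ι φ) = (γ ↦ (φ γ : ℤ_[p]))`.** -/
theorem s30e_eig_of_embedding
    (TΛ : Nat.Primes → Module.End ℤ_[p] Λ) (ι : ↥(s29s_M N) →ₗ[ℤ] Λ)
    (hι : ∀ (ℓ : ℕ) (hℓ : ℓ.Prime), ¬ ℓ ∣ N → ∀ φ : ↥(s29s_M N),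
      ι (haveI : Fact ℓ.Prime := ⟨hℓ⟩; s29h_heckeHpar N ℓ ℤ ℤ φ) = TΛ ⟨ℓ, hℓ⟩ (ι φ))
    (κ : Λ →ₗ[ℤ_[p]] (Additive (Gamma0 N) →+ ℤ_[p]))
    (hκ : ∀ φ : ↥(s29s_M N), κ (ι φ) = s29s_cast ℤ_[p] (φ : Additive (Gamma0 N) →+ ℤ))
    (S : Set ℕ) (𝒪 : Type*) [CommRing 𝒪] [IsDomain 𝒪] [CharZero 𝒪] [Algebra ℤ_[p] 𝒪]
    (χ : ↥(CuspForm.heckeAlgebra N 2 S) →+* 𝒪) :
    ∃ v : 𝒪 ⊗[ℤ_[p]] Λ, v ≠ 0 ∧
      ∀ (ℓ : ℕ) (hℓ : ℓ.Prime) (hℓN : ¬ ℓ ∣ N) (hℓS : ℓ ∉ S),
        (TΛ ⟨ℓ, hℓ⟩).baseChange 𝒪 v = χ (CuspForm.heckeAlgebra.T hℓ hℓN hℓS) • v := by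
  classical
  let b := Module.finBasis ℤ ↥(s29s_M N)
  refine s30e_eig_of_linearIndependent p b TΛ ι hι ?_ S 𝒪 χ
  refine LinearIndependent.of_comp κ ?_
  have h : (⇑κ ∘ fun i => ι (b i)) = s29s_castB b ℤ_[p] := by
    funext i
    exact hκ (b i)
  rw [h]
  exact s30e_castB_linearIndependent b ℤ_[p]

end Eig

end Fermat.Agent.Lib.S30
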