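/-
Plan L (S30), package [TATE], part C2 (helper6): **commutativity of the Hecke operators on the
Tate module from the Eichler–Shimura relation**.

If `σ` satisfies `ρ σ * ρ σ - T * ρ σ + c • 1 = 0` then `T = ρ σ + c • ρ σ⁻¹`; so every endomorphism
commuting with the whole Galois action commutes with `T`.  Hence the field `T_comm` of
`s30_TateDatum` follows from the fields `comm` and `frobQuad` (and the existence of Frobenius
elements), provided `T ℓ = 0` for `ℓ ∣ N`.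
-/
import Mathlib
import Fermat.Agent.Lib.S30.LIface
import Fermat.Agent.Lib.Frobenius.Exists

set_option autoImplicit false
set_option linter.unusedSectionVars false

namespace Fermat.Agent.Lib.S30

open Fermat.Agent.Lib.S29

section Generic

variable {G R Λ : Type*} [Group G] [CommRing R] [AddCommGroup Λ] [Module R Λ]

/-- From the quadratic relation, `T = ρ σ + c • ρ σ⁻¹`. -/
theorem s30a_eq_of_frobQuad (ρ : G →* Module.End R Λ) (T : Module.End R Λ) (σ : G) (c : R)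
    (hq : ρ σ * ρ σ - T * ρ σ + c • (1 : Module.End R Λ) = 0) :
    T = ρ σ + c • ρ σ⁻¹ := by
  have h1 : ρ σ * ρ σ⁻¹ = 1 := by rw [← map_mul, mul_inv_cancel, map_one]
  have h2 : T * ρ σ = ρ σ * ρ σ + c • (1 : Module.End R Λ) := by
    rw [← sub_eq_zero, ← neg_eq_zero, ← hq]
    abel
  calc T = T * (ρ σ * ρ σ⁻¹) := by rw [h1, mul_one]
    _ = (T * ρ σ) * ρ σ⁻¹ := by rw [mul_assoc]
    _ = (ρ σ * ρ σ + c • (1 : Module.End R Λ)) * ρ σ⁻¹ := by rw [h2]
    _ = ρ σ + c • ρ σ⁻¹ := by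
      rw [add_mul, mul_assoc, h1, mul_one, smul_mul_assoc, one_mul]

/-- An endomorphism commuting with the Galois action commutes with a Hecke operator satisfying the
Eichler–Shimura relation at some `σ`. -/
theorem s30a_commute_of_frobQuad (ρ : G →* Module.End R Λ) (T T' : Module.End R Λ) (σ : G) (c : R)
    (hq : ρ σ * ρ σ - T * ρ σ + c • (1 : Module.End R Λ) = 0)
    (hc : ∀ τ : G, Commute (ρ τ) T') : Commute T T' := by
  rw [s30a_eq_of_frobQuad ρ T σ c hq]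
  exact ((hc σ).add_left ((hc σ⁻¹).smul_left c))

end Generic

/-- **`T_comm` from `comm` and `frobQuad`**, in the field shapes of `s30_TateDatum`, for a family
of Hecke operators vanishing at the primes dividing `N`. -/
theorem s30a_T_comm_of {N p : ℕ} [Fact p.Prime] {Λ : Type*} [AddCommGroup Λ] [Module ℤ_[p] Λ]
    (ρ : s29k_G →* Module.End ℤ_[p] Λ) (T : Nat.Primes → Module.End ℤ_[p] Λ)
    (hT0 : ∀ ℓ : Nat.Primes, (ℓ : ℕ) ∣ N → T ℓ = 0)
    (comm : ∀ (ℓ : Nat.Primes) (σ : s29k_G), Commute (ρ σ) (T ℓ))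
    (frobQuad : ∀ ℓ : Nat.Primes, ¬ (ℓ : ℕ) ∣ N * p →
      ∀ A : ValuationSubring (AlgebraicClosure ℚ), A.LiesOverPrime ℓ →
        ∀ σ : s29k_G, A.IsFrobeniusAt σ ℓ →
          ρ σ * ρ σ - T ℓ * ρ σ + (((ℓ : ℕ) : ℤ_[p])) • (1 : Module.End ℤ_[p] Λ) = 0)
    (ℓ ℓ' : Nat.Primes) : Commute (T ℓ) (T ℓ') := by
  have hp : p.Prime := Fact.out
  -- the Eichler–Shimura trick for a prime not dividing `N p`
  have key : ∀ ℓ₁ ℓ₂ : Nat.Primes, ¬ (ℓ₁ : ℕ) ∣ N * p → Commute (T ℓ₁) (T ℓ₂) := by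
    intro ℓ₁ ℓ₂ h1
    obtain ⟨A, σ, hA, hσ⟩ := Fermat.Agent.Lib.Frobenius.exists_isFrobeniusAt (ℓ₁ : ℕ) ℓ₁.2
    exact s30a_commute_of_frobQuad ρ (T ℓ₁) (T ℓ₂) σ _ (frobQuad ℓ₁ h1 A hA σ hσ)
      (fun τ => comm ℓ₂ τ)
  by_cases h1 : (ℓ : ℕ) ∣ N
  · rw [hT0 ℓ h1]; exact Commute.zero_left _
  by_cases h2 : (ℓ' : ℕ) ∣ N
  · rw [hT0 ℓ' h2]; exact Commute.zero_right _
  by_cases h3 : (ℓ : ℕ) = p
  · by_cases h4 : (ℓ' : ℕ) = p
    · have : ℓ = ℓ' := Subtype.ext (h3.trans h4.symm)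
      rw [this]
    · refine (key ℓ' ℓ ?_).symm
      intro h5
      rcases (Nat.Prime.dvd_mul ℓ'.2).mp h5 with h6 | h6
      · exact h2 h6
      · exact h4 ((Nat.prime_dvd_prime_iff_eq ℓ'.2 hp).mp h6)
  · refine key ℓ ℓ' ?_
    intro h5
    rcases (Nat.Prime.dvd_mul ℓ.2).mp h5 with h6 | h6
    · exact h1 h6
    · exact h3 ((Nat.prime_dvd_prime_iff_eq ℓ.2 hp).mp h6)

end Fermat.Agent.Lib.S30
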