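/-
Plan L (S30), package [TATE], part C3 (helper6): **the Hecke family of the Tate datum with its zero
branch, and the fields `comm`, `frobQuad`, `T_comm`, `cont` of `s30_TateDatum` in final shape** for
`Λ := s30a_TJ N p`, `ρ := s30a_rho N p`, `T := s30a_Tz N p`.

`s30a_Tz N p ℓ := if ℓ ∣ N then 0 else s30a_T N p ℓ`: the contract only uses `T ℓ` for `ℓ ∤ N`, and
with the zero branch the commutativity `T_comm` follows from Eichler–Shimura (`TateComm.lean`).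
-/
import Fermat.Agent.Lib.S30.TateGal
import Fermat.Agent.Lib.S30.TateLevel
import Fermat.Agent.Lib.S30.TateComm

set_option autoImplicit false
set_option linter.unusedSectionVars false
set_option linter.style.haveILetI false

namespace Fermat.Agent.Lib.S30

open ModularCurve AlgebraicCurve Fermat.Agent.Lib.S29

noncomputable section

variable (N : ℕ) [NeZero N] (p : ℕ) [Fact p.Prime]

open Classical in
/-- The Hecke family of the Tate datum: `T ℓ` for `ℓ ∤ N`, zero for `ℓ ∣ N`. -/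
def s30a_Tz (ℓ : Nat.Primes) : Module.End ℤ_[p] (s30a_TJ N p) :=
  if (ℓ : ℕ) ∣ N then 0 else s30a_T N p ℓ

theorem s30a_Tz_of_dvd {ℓ : Nat.Primes} (h : (ℓ : ℕ) ∣ N) : s30a_Tz N p ℓ = 0 := by
  unfold s30a_Tz
  exact if_pos h

theorem s30a_Tz_of_not_dvd {ℓ : Nat.Primes} (h : ¬ (ℓ : ℕ) ∣ N) :
    s30a_Tz N p ℓ = s30a_T N p ℓ := by
  unfold s30a_Tz
  exact if_neg h

/-- Field `comm`. -/
theorem s30a_Tz_comm (ℓ : Nat.Primes) (σ : s29k_G) :
    Commute (s30a_rho N p σ) (s30a_Tz N p ℓ) := by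
  by_cases h : (ℓ : ℕ) ∣ N
  · rw [s30a_Tz_of_dvd N p h]
    exact Commute.zero_right _
  · rw [s30a_Tz_of_not_dvd N p h]
    exact s30a_comm N p ℓ σ

/-- Field `frobQuad`. -/
theorem s30a_Tz_frobQuad (ℓ : Nat.Primes) (hℓNp : ¬ (ℓ : ℕ) ∣ N * p)
    (A : ValuationSubring (AlgebraicClosure ℚ)) (hA : A.LiesOverPrime ℓ)
    (σ : s29k_G) (hσ : A.IsFrobeniusAt σ ℓ) :
    s30a_rho N p σ * s30a_rho N p σ - s30a_Tz N p ℓ * s30a_rho N p σ +
      (((ℓ : ℕ) : ℤ_[p])) • (1 : Module.End ℤ_[p] (s30a_TJ N p)) = 0 := by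
  have h : ¬ (ℓ : ℕ) ∣ N := fun h => hℓNp (Dvd.dvd.mul_right h p)
  rw [s30a_Tz_of_not_dvd N p h]
  exact s30a_frobQuad N p ℓ hℓNp A hA σ hσ

/-- Field `T_comm`. -/
theorem s30a_Tz_T_comm (ℓ ℓ' : Nat.Primes) : Commute (s30a_Tz N p ℓ) (s30a_Tz N p ℓ') :=
  s30a_T_comm_of (N := N) (s30a_rho N p) (s30a_Tz N p) (fun _ h => s30a_Tz_of_dvd N p h)
    (s30a_Tz_comm N p) (s30a_Tz_frobQuad N p) ℓ ℓ'

/-- Field `cont`. -/
theorem s30a_cont (k : ℕ) :
    ∃ L : IntermediateField ℚ (AlgebraicClosure ℚ), FiniteDimensional ℚ L ∧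
      (∀ σ : s29k_G, ∀ x ∈ L, σ x ∈ L) ∧
      ∀ σ : s29k_G, (∀ x ∈ L, σ x = x) → ∀ v : s30a_TJ N p,
        ∃ w : s30a_TJ N p, s30a_rho N p σ v - v = (p : ℤ_[p]) ^ k • w := by
  have hp : p.Prime := Fact.out
  refine s30a_cont_of_level N p (fun k => ?_) k
  haveI : NeZero (p ^ k) := ⟨pow_ne_zero k hp.ne_zero⟩
  obtain ⟨L, hfd, hstab, hL⟩ := s30a_exists_level N (p ^ k)
  refine ⟨L, hfd, hstab, fun σ hσ y hy => hL σ hσ y ?_⟩
  rw [natCast_zsmul]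
  exact hy

end

end Fermat.Agent.Lib.S30
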