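/-
Plan L (S30), package [EIG] (helper3), part 4: the field `eig` of `s30_TateDatum` for the Tate
module `Λ = s30a_TJ N p` of `J₀(N)` with the Hecke family `T = s30a_Tz N p` (TateHecke), from the
embedding `ι = s30i_iota N p` of the integral lattice (TateIota) and ANY `ℤ_[p]`-linear ruler
`κ_∞ : Λ → Hom(Γ₀(N), ℤ_[p])` reducing to `κ_{p^k}` modulo `p ^ k`.

* `s30e_eig_tate N p κinf hκ` : literally the field `eig` (for `S : Finset ℕ`, `𝒪 : Type`);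
* `s30e_eig_tate_set` : the same for arbitrary `S : Set ℕ`, `𝒪 : Type*`;
* `s30e_iota_linearIndependent` : the `ι (b i)` are `ℤ_[p]`-linearly independent.
-/
import Mathlib
import Fermat.Agent.Lib.S30.EigEmbed
import Fermat.Agent.Lib.S30.TateIota
import Fermat.Agent.Lib.S30.TateHecke

set_option autoImplicit false
set_option linter.unusedSectionVars false

noncomputable section

namespace Fermat.Agent.Lib.S30

open Fermat.Agent.Lib.S29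
open CongruenceSubgroup AlgebraicCurve ModularCurve
open scoped MatrixGroups
open TensorProduct Matrix

variable (N : ℕ) [NeZero N] (p : ℕ) [Fact p.Prime]

/-- Hecke equivariance of `ι` for the Hecke family with zero branch. -/
theorem s30e_iota_hecke_Tz (ℓ : ℕ) (hℓ : ℓ.Prime) (hℓN : ¬ ℓ ∣ N) (φ : ↥(s29s_M N)) :
    s30i_iota N p (haveI : Fact ℓ.Prime := ⟨hℓ⟩; s29h_heckeHpar N ℓ ℤ ℤ φ) =
      s30a_Tz N p ⟨ℓ, hℓ⟩ (s30i_iota N p φ) := by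
  haveI : Fact ℓ.Prime := ⟨hℓ⟩
  rw [s30a_Tz_of_not_dvd N p (ℓ := ⟨ℓ, hℓ⟩) hℓN]
  exact s30i_iota_hecke N p ℓ hℓN φ

/-- **`eig` for the Tate module, any `S : Set ℕ`, any universe.** -/
theorem s30e_eig_tate_set
    (κinf : s30a_TJ N p →ₗ[ℤ_[p]] (Additive (Gamma0 N) →+ ℤ_[p]))
    (hκ : ∀ (x : s30a_TJ N p) (k : ℕ) (γ : Additive (Gamma0 N)),
      PadicInt.toZModPow k (κinf x γ) =
        s30k_kappa N (p ^ k) ⟨(x : ℕ → JZero N) k, s30i_mem_Jp N p x k⟩ γ)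
    (S : Set ℕ) (𝒪 : Type*) [CommRing 𝒪] [IsDomain 𝒪] [CharZero 𝒪] [Algebra ℤ_[p] 𝒪]
    (χ : ↥(CuspForm.heckeAlgebra N 2 S) →+* 𝒪) :
    ∃ v : 𝒪 ⊗[ℤ_[p]] (s30a_TJ N p), v ≠ 0 ∧
      ∀ (ℓ : ℕ) (hℓ : ℓ.Prime) (hℓN : ¬ ℓ ∣ N) (hℓS : ℓ ∉ S),
        (s30a_Tz N p ⟨ℓ, hℓ⟩).baseChange 𝒪 v = χ (CuspForm.heckeAlgebra.T hℓ hℓN hℓS) • v :=
  s30e_eig_of_embedding p (s30a_Tz N p) (s30i_iota N p) (s30e_iota_hecke_Tz N p) κinf
    (fun φ => s30i_kappaInf_iota N p (fun x => κinf x) hκ φ) S 𝒪 χ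

/-- **The field `eig` of `s30_TateDatum N p`** for `Λ := s30a_TJ N p`, `T := s30a_Tz N p`. -/
theorem s30e_eig_tate
    (κinf : s30a_TJ N p →ₗ[ℤ_[p]] (Additive (Gamma0 N) →+ ℤ_[p]))
    (hκ : ∀ (x : s30a_TJ N p) (k : ℕ) (γ : Additive (Gamma0 N)),
      PadicInt.toZModPow k (κinf x γ) =
        s30k_kappa N (p ^ k) ⟨(x : ℕ → JZero N) k, s30i_mem_Jp N p x k⟩ γ) :
    ∀ (S : Finset ℕ) (𝒪 : Type) [CommRing 𝒪] [IsDomain 𝒪] [CharZero 𝒪] [Algebra ℤ_[p] 𝒪]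
      (χ : CuspForm.heckeAlgebra N 2 (↑S : Set ℕ) →+* 𝒪),
      ∃ v : 𝒪 ⊗[ℤ_[p]] (s30a_TJ N p), v ≠ 0 ∧
        ∀ (ℓ : ℕ) (hℓ : ℓ.Prime) (hℓN : ¬ ℓ ∣ N) (hℓS : ℓ ∉ (↑S : Set ℕ)),
          (s30a_Tz N p ⟨ℓ, hℓ⟩).baseChange 𝒪 v =
            χ (CuspForm.heckeAlgebra.T hℓ hℓN hℓS) • v :=
  fun S 𝒪 _ _ _ _ χ => s30e_eig_tate_set N p κinf hκ (↑S : Set ℕ) 𝒪 χ

/-- The images `ι (b i)` of a `ℤ`-basis of the lattice are `ℤ_[p]`-linearly independent in the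
Tate module (given a ruler `κ_∞`). -/
theorem s30e_iota_linearIndependent
    (κinf : s30a_TJ N p →ₗ[ℤ_[p]] (Additive (Gamma0 N) →+ ℤ_[p]))
    (hκ : ∀ (x : s30a_TJ N p) (k : ℕ) (γ : Additive (Gamma0 N)),
      PadicInt.toZModPow k (κinf x γ) =
        s30k_kappa N (p ^ k) ⟨(x : ℕ → JZero N) k, s30i_mem_Jp N p x k⟩ γ)
    {ι : Type*} [Fintype ι] [DecidableEq ι] (b : Module.Basis ι ℤ ↥(s29s_M N)) :
    LinearIndependent ℤ_[p] (fun i => s30i_iota N p (b i)) := by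
  refine LinearIndependent.of_comp κinf ?_
  have h : (⇑κinf ∘ fun i => s30i_iota N p (b i)) = s29s_castB b ℤ_[p] := by
    funext i
    exact s30i_kappaInf_iota N p (fun x => κinf x) hκ (b i)
  rw [h]
  exact s30e_castB_linearIndependent b ℤ_[p]

end Fermat.Agent.Lib.S30
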