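/-
Plan L (S30), package [EIG]/[TATE] (helper3): THE FULL `s30_TateDatum N p` FROM A RULER.

Given ANY `ℤ_[p]`-linear map `κ_∞ : T_p J₀(N) = s30a_TJ N p → Hom(Γ₀(N), ℤ_[p])` whose reduction
modulo `p ^ k` is the Kummer map `κ_{p^k}` of the `k`-th component,

* `s30e_ruler_injective` : `κ_∞` is injective (from `s30k_kappa_injective` at every level);
* `s30e_finite_TJ`, `s30e_free_TJ` : the Tate module is finite free over `ℤ_[p]`;
* `s30e_tateDatum N p κinf hκ : s30_TateDatum N p` : the datum, with `Λ := s30a_TJ N p`,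
  `ρ := s30a_rho N p`, `T := s30a_Tz N p`, fields from TateGal / TateHecke / EigTate.
-/
import Mathlib
import Fermat.Agent.Lib.S30.LIface
import Fermat.Agent.Lib.S30.EigTate
import Fermat.Agent.Lib.S30.EigFree

set_option autoImplicit false
set_option linter.unusedSectionVars false

noncomputable section

namespace Fermat.Agent.Lib.S30

open Fermat.Agent.Lib.S29
open CongruenceSubgroup AlgebraicCurve ModularCurve
open scoped MatrixGroups

variable (N : ℕ) [NeZero N] (p : ℕ) [Fact p.Prime]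

/-- A ruler reducing to the (injective) Kummer maps at all levels is injective. -/
theorem s30e_ruler_injective
    (κinf : s30a_TJ N p →ₗ[ℤ_[p]] (Additive (Gamma0 N) →+ ℤ_[p]))
    (hκ : ∀ (x : s30a_TJ N p) (k : ℕ) (γ : Additive (Gamma0 N)),
      PadicInt.toZModPow k (κinf x γ) =
        s30k_kappa N (p ^ k) ⟨(x : ℕ → JZero N) k, s30i_mem_Jp N p x k⟩ γ) :
    Function.Injective κinf := by
  rw [injective_iff_map_eq_zero]
  intro x hx
  apply s30a_ext
  intro k
  have h1 : s30k_kappa N (p ^ k) ⟨(x : ℕ → JZero N) k, s30i_mem_Jp N p x k⟩ = 0 := by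
    refine AddMonoidHom.ext fun γ => ?_
    rw [← hκ x k γ, hx, AddMonoidHom.zero_apply, map_zero, AddMonoidHom.zero_apply]
  have h2 : (⟨(x : ℕ → JZero N) k, s30i_mem_Jp N p x k⟩ : s29k_Jp N (p ^ k)) = 0 :=
    s30k_kappa_injective N (p ^ k) (h1.trans (map_zero _).symm)
  exact congrArg Subtype.val h2

theorem s30e_finite_TJ
    (κinf : s30a_TJ N p →ₗ[ℤ_[p]] (Additive (Gamma0 N) →+ ℤ_[p]))
    (hκ : ∀ (x : s30a_TJ N p) (k : ℕ) (γ : Additive (Gamma0 N)),
      PadicInt.toZModPow k (κinf x γ) =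
        s30k_kappa N (p ^ k) ⟨(x : ℕ → JZero N) k, s30i_mem_Jp N p x k⟩ γ) :
    Module.Finite ℤ_[p] (s30a_TJ N p) :=
  s30e_finite_of_ruler κinf (s30e_ruler_injective N p κinf hκ)

theorem s30e_free_TJ
    (κinf : s30a_TJ N p →ₗ[ℤ_[p]] (Additive (Gamma0 N) →+ ℤ_[p]))
    (hκ : ∀ (x : s30a_TJ N p) (k : ℕ) (γ : Additive (Gamma0 N)),
      PadicInt.toZModPow k (κinf x γ) =
        s30k_kappa N (p ^ k) ⟨(x : ℕ → JZero N) k, s30i_mem_Jp N p x k⟩ γ) :
    Module.Free ℤ_[p] (s30a_TJ N p) :=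
  s30e_free_of_ruler κinf (s30e_ruler_injective N p κinf hκ)

/-- **The Tate datum of `J₀(N)` from a ruler `κ_∞`.** -/
def s30e_tateDatum
    (κinf : s30a_TJ N p →ₗ[ℤ_[p]] (Additive (Gamma0 N) →+ ℤ_[p]))
    (hκ : ∀ (x : s30a_TJ N p) (k : ℕ) (γ : Additive (Gamma0 N)),
      PadicInt.toZModPow k (κinf x γ) =
        s30k_kappa N (p ^ k) ⟨(x : ℕ → JZero N) k, s30i_mem_Jp N p x k⟩ γ) :
    s30_TateDatum N p :=
  haveI : Module.Finite ℤ_[p] (s30a_TJ N p) := s30e_finite_TJ N p κinf hκ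
  haveI : Module.Free ℤ_[p] (s30a_TJ N p) := s30e_free_TJ N p κinf hκ
  { Λ := s30a_TJ N p
    ρ := s30a_rho N p
    T := s30a_Tz N p
    T_comm := s30a_Tz_T_comm N p
    comm := s30a_Tz_comm N p
    cont := s30a_cont N p
    unram := s30a_unram N p
    frobQuad := s30a_Tz_frobQuad N p
    eig := s30e_eig_tate N p κinf hκ }

end Fermat.Agent.Lib.S30
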