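/-
Plan L (S30), package [EXT-A] (helper5): a complete discrete valuation ring `𝒪` whose maximal
ideal contains `p` receives a ring homomorphism from `ℤ_[p]`.

Construction: `ℤ_[p] → ZMod (p ^ n) → 𝒪 ⧸ 𝔪 ^ n` (the second map exists because `p ^ n ∈ 𝔪 ^ n`) is a
compatible family, lifted by `IsAdicComplete.liftRingHom`.
-/
import Fermat.Agent.Lib.S30.LIface

set_option autoImplicit false

open IsLocalRing

namespace Fermat.Agent.Lib.S30

section

variable {p : ℕ} {R : Type*} [CommRing R] (I : Ideal R)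

/-- If `p ∈ I`, there is a ring homomorphism `ZMod (p ^ n) →+* R ⧸ I ^ n`. -/
theorem s30x_exists_zmod_hom (hp : (p : R) ∈ I) (n : ℕ) :
    Nonempty (ZMod (p ^ n) →+* R ⧸ I ^ n) := by
  have := ringChar.charP (R ⧸ I ^ n)
  have h : ringChar (R ⧸ I ^ n) ∣ p ^ n := by
    rw [← CharP.cast_eq_zero_iff (R ⧸ I ^ n) (ringChar (R ⧸ I ^ n)) (p ^ n)]
    have h1 : ((p ^ n : ℕ) : R) ∈ I ^ n := by
      push_cast
      exact Ideal.pow_mem_pow hp n
    rw [← map_natCast (Ideal.Quotient.mk (I ^ n))]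
    exact Ideal.Quotient.eq_zero_iff_mem.mpr h1
  exact ⟨ZMod.castHom h _⟩

/-- A ring that is `I`-adically complete with `p ∈ I` receives a ring homomorphism from `ℤ_[p]`,
compatible with the reductions `ℤ_[p] → ZMod (p ^ n)`. -/
theorem s30x_exists_padicInt_hom [Fact p.Prime] [IsAdicComplete I R] (hp : (p : R) ∈ I) :
    ∃ (j : ℤ_[p] →+* R) (g : ∀ n : ℕ, ZMod (p ^ n) →+* R ⧸ I ^ n),
      ∀ (n : ℕ) (x : ℤ_[p]), Ideal.Quotient.mk (I ^ n) (j x) = g n (PadicInt.toZModPow n x) := by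
  let g : ∀ n : ℕ, ZMod (p ^ n) →+* R ⧸ I ^ n := fun n => (s30x_exists_zmod_hom (p := p) I hp n).some
  let f : (n : ℕ) → ℤ_[p] →+* R ⧸ I ^ n := fun n => (g n).comp (PadicInt.toZModPow n)
  have hf : ∀ {m n : ℕ} (hle : m ≤ n), (Ideal.Quotient.factorPow I hle).comp (f n) = f m := by
    intro m n hle
    have h1 : PadicInt.toZModPow (p := p) m =
        (ZMod.castHom (pow_dvd_pow p hle) (ZMod (p ^ m))).comp (PadicInt.toZModPow n) :=
      (PadicInt.zmod_cast_comp_toZModPow m n hle).symm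
    show (Ideal.Quotient.factorPow I hle).comp ((g n).comp (PadicInt.toZModPow n)) =
      (g m).comp (PadicInt.toZModPow m)
    rw [h1, ← RingHom.comp_assoc, ← RingHom.comp_assoc]
    congr 1
    exact Subsingleton.elim _ _
  exact ⟨IsAdicComplete.liftRingHom I f hf, g, fun n x => IsAdicComplete.mk_liftRingHom I f hf n x⟩

end

/-- **[EXT-A]** -/
theorem s30x_extA : s30_ExtAContract := by
  intro p _ 𝒪 _ _ _ _ hp
  obtain ⟨j, -, -⟩ := s30x_exists_padicInt_hom (p := p) (IsLocalRing.maximalIdeal 𝒪) hp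
  exact ⟨j⟩

end Fermat.Agent.Lib.S30
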