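/-
Plan L (S30), final assembly, part 1 (lead): the abstract core.  A finite free module `M` over the
coefficient ring `𝒪` with a continuous Galois action commuting with a family of operators `T i`,
a nonzero simultaneous eigenvector, and quadratic relations for the Frobenius elements on the
eigen-submodule  ⇒  (via the contracts `[DENS]` and `[TWO]`)  a rank-two `GaloisRepAdic` over a
finite extension with the prescribed characteristic polynomials.
-/
import Fermat.Agent.Lib.S30.LIface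

set_option autoImplicit false
set_option linter.unusedSectionVars false

open Polynomial IsLocalRing
open scoped TensorProduct

namespace Fermat.Agent.Lib.S30

open Fermat.Agent.Lib.S29

noncomputable section

section Eigen

variable {𝒪 : Type} [CommRing 𝒪] {M : Type} [AddCommGroup M] [Module 𝒪 M]
  {ι : Type} (T : ι → Module.End 𝒪 M) (c : ι → 𝒪)

/-- The simultaneous eigen-submodule. -/
def s30f_eigen : Submodule 𝒪 M where
  carrier := {w | ∀ i, T i w = c i • w}
  add_mem' := fun {x y} hx hy i => by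
    show T i (x + y) = c i • (x + y)
    rw [map_add, hx i, hy i, smul_add]
  zero_mem' := fun i => by
    show T i 0 = c i • (0 : M)
    rw [map_zero, smul_zero]
  smul_mem' := fun r x hx i => by
    show T i (r • x) = c i • r • x
    rw [map_smul, hx i, smul_comm]

theorem s30f_mem_eigen {w : M} : w ∈ s30f_eigen T c ↔ ∀ i, T i w = c i • w := Iff.rfl

variable {T c}

/-- An endomorphism commuting with all `T i` preserves the eigen-submodule. -/
theorem s30f_map_mem_eigen {f : Module.End 𝒪 M} (hf : ∀ i, Commute f (T i)) {w : M}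
    (hw : w ∈ s30f_eigen T c) : f w ∈ s30f_eigen T c := by
  intro i
  have h1 : T i (f w) = f (T i w) := by
    have := congrArg (fun g : Module.End 𝒪 M => g w) (hf i).eq
    exact this.symm
  rw [h1, hw i, map_smul]

/-- Saturation of the eigen-submodule in a torsion-free module. -/
theorem s30f_eigen_saturated [IsDomain 𝒪] [Module.IsTorsionFree 𝒪 M] {r : 𝒪} (hr : r ≠ 0) {m : M}
    (hm : r • m ∈ s30f_eigen T c) : m ∈ s30f_eigen T c := by
  intro i
  have h1 := hm i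
  rw [map_smul, smul_comm] at h1
  have h2 : r • (T i m - c i • m) = 0 := by rw [smul_sub, h1, sub_self]
  exact sub_eq_zero.mp ((smul_eq_zero.mp h2).resolve_left hr)

end Eigen

section Restrict

variable {𝒪 : Type} [CommRing 𝒪] {M : Type} [AddCommGroup M] [Module 𝒪 M]
  {G : Type} [Monoid G] (ρ : G →* Module.End 𝒪 M) (E : Submodule 𝒪 M)
  (hE : ∀ (g : G) (w : M), w ∈ E → ρ g w ∈ E)

/-- The restriction of a representation to a stable submodule. -/
def s30f_restrict : G →* Module.End 𝒪 E where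
  toFun g := (ρ g).restrict (fun w hw => hE g w hw)
  map_one' := by
    apply LinearMap.ext
    intro w
    apply Subtype.ext
    simp
  map_mul' g h := by
    apply LinearMap.ext
    intro w
    apply Subtype.ext
    simp

@[simp] theorem s30f_restrict_apply (g : G) (w : E) :
    ((s30f_restrict ρ E hE g w : E) : M) = ρ g (w : M) := rfl

end Restrict

section Core

variable {𝒪 : Type} [CommRing 𝒪] [IsDomain 𝒪] [IsDiscreteValuationRing 𝒪]
  {M : Type} [AddCommGroup M] [Module 𝒪 M] [Module.Free 𝒪 M] [Module.Finite 𝒪 M]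

/-- Submodules of finite free modules over a discrete valuation ring are finite. -/
theorem s30f_finite_submodule (E : Submodule 𝒪 M) : Module.Finite 𝒪 E :=
  Module.IsNoetherian.finite 𝒪 E

/-- Submodules of finite free modules over a discrete valuation ring are free. -/
theorem s30f_free_submodule (E : Submodule 𝒪 M) : Module.Free 𝒪 E :=
  Module.Free.of_basis (Submodule.basisOfPid (Module.Free.chooseBasis 𝒪 M) E).2

/-- Elements of `𝔪 ^ n • ⊤` are multiples of the `n`-th power of a uniformiser. -/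
theorem s30f_exists_smul_of_mem {ϖ : 𝒪} (hϖ : maximalIdeal 𝒪 = Ideal.span {ϖ}) (n : ℕ) {x : M}
    (hx : x ∈ (maximalIdeal 𝒪 ^ n) • (⊤ : Submodule 𝒪 M)) : ∃ m : M, x = ϖ ^ n • m := by
  rw [hϖ, Ideal.span_singleton_pow, Submodule.ideal_span_singleton_smul] at hx
  obtain ⟨m, -, rfl⟩ := hx
  exact ⟨m, rfl⟩

theorem s30f_smul_mem {ϖ : 𝒪} (hϖ : maximalIdeal 𝒪 = Ideal.span {ϖ}) (n : ℕ)
    {E : Type} [AddCommGroup E] [Module 𝒪 E] (m : E) :
    ϖ ^ n • m ∈ (maximalIdeal 𝒪 ^ n) • (⊤ : Submodule 𝒪 E) := by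
  rw [hϖ, Ideal.span_singleton_pow]
  exact Submodule.smul_mem_smul (Ideal.mem_span_singleton_self _) Submodule.mem_top

/-- Adic continuity is inherited by a stable saturated submodule. -/
theorem s30f_continuous_restrict (ρ : s29k_G →* Module.End 𝒪 M)
    (hcont : GaloisActionIsAdicContinuous 𝒪 ρ) (E : Submodule 𝒪 M)
    (hE : ∀ (g : s29k_G) (w : M), w ∈ E → ρ g w ∈ E)
    (hsat : ∀ (r : 𝒪), r ≠ 0 → ∀ m : M, r • m ∈ E → m ∈ E) :
    GaloisActionIsAdicContinuous 𝒪 (s30f_restrict ρ E hE) := by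
  obtain ⟨ϖ, hϖirr⟩ := IsDiscreteValuationRing.exists_irreducible 𝒪
  have hϖ : maximalIdeal 𝒪 = Ideal.span {ϖ} := hϖirr.maximalIdeal_eq
  intro n
  obtain ⟨L, hL, h1⟩ := hcont n
  refine ⟨L, hL, fun σ hσ w => ?_⟩
  obtain ⟨m, hm⟩ := s30f_exists_smul_of_mem hϖ n (h1 σ hσ (w : M))
  have hmE : m ∈ E := by
    apply hsat (ϖ ^ n) (pow_ne_zero n hϖirr.ne_zero) m
    rw [← hm]
    exact E.sub_mem (hE σ w w.2) w.2
  have : s30f_restrict ρ E hE σ w - w = ϖ ^ n • (⟨m, hmE⟩ : E) := by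
    apply Subtype.ext
    exact hm
  rw [this]
  exact s30f_smul_mem hϖ n _

variable [IsAdicComplete (maximalIdeal 𝒪) 𝒪] [Finite (ResidueField 𝒪)] [CharZero 𝒪]

/-- **The abstract core of S30.** -/
theorem s30f_core (hDens : s30_DensContract) (hTwo : s30_TwoContract) (p : ℕ) [Fact p.Prime]
    (hp : (p : 𝒪) ∈ maximalIdeal 𝒪)
    (ρ : s29k_G →* Module.End 𝒪 M) (hcont : GaloisActionIsAdicContinuous 𝒪 ρ)
    (d : s29k_G →* 𝒪ˣ) (hd : s30_CharContinuous d)
    {ι : Type} (T : ι → Module.End 𝒪 M) (c : ι → 𝒪)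
    (hcomm : ∀ (σ : s29k_G) (i : ι), Commute (ρ σ) (T i))
    (v : M) (hv0 : v ≠ 0) (hv : v ∈ s30f_eigen T c)
    (S₀ : Finset ℕ) (a : ℕ → 𝒪)
    (hfrob : ∀ ℓ : ℕ, ℓ.Prime → ℓ ∉ S₀ →
      ∀ A : ValuationSubring (AlgebraicClosure ℚ), A.LiesOverPrime ℓ →
        ∀ σ : s29k_G, A.IsFrobeniusAt σ ℓ →
          (∀ w ∈ s30f_eigen T c, ρ σ (ρ σ w) - a ℓ • ρ σ w + (ℓ : 𝒪) • w = 0) ∧
            ((d σ : 𝒪ˣ) : 𝒪) = (ℓ : 𝒪)) :
    ∃ (𝒪'' : Type) (_ : CommRing 𝒪'') (_ : IsDomain 𝒪'') (_ : IsDiscreteValuationRing 𝒪'')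
      (_ : IsAdicComplete (maximalIdeal 𝒪'') 𝒪'')
      (_ : Finite (ResidueField 𝒪'')) (_ : CharZero 𝒪'')
      (_ : Algebra 𝒪 𝒪'') (_ : Module.Finite 𝒪 𝒪'') (_ : IsLocalHom (algebraMap 𝒪 𝒪'')),
      Function.Injective (algebraMap 𝒪 𝒪'') ∧
      ∃ ρ'' : GaloisRepAdic 𝒪'',
        (∀ ℓ : ℕ, ℓ.Prime → ℓ ∉ S₀ →
          ∀ A : ValuationSubring (AlgebraicClosure ℚ), A.LiesOverPrime ℓ →
            ∀ σ : s29k_G, A.IsFrobeniusAt σ ℓ →
              LinearMap.charpoly (ρ''.ρ σ) =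
                X ^ 2 - C (algebraMap 𝒪 𝒪'' (a ℓ)) * X + C ((ℓ : 𝒪''))) ∧
        ∀ σ : s29k_G, ρ σ = 1 → d σ = 1 → ρ''.ρ σ = 1 := by
  -- the eigen-submodule and the restricted representation
  set E : Submodule 𝒪 M := s30f_eigen T c with hEdef
  have hE : ∀ (g : s29k_G) (w : M), w ∈ E → ρ g w ∈ E := fun g w hw =>
    s30f_map_mem_eigen (fun i => hcomm g i) hw
  have hsat : ∀ (r : 𝒪), r ≠ 0 → ∀ m : M, r • m ∈ E → m ∈ E := fun r hr m hm =>
    s30f_eigen_saturated hr hm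
  haveI : Module.Finite 𝒪 E := s30f_finite_submodule E
  haveI : Module.Free 𝒪 E := s30f_free_submodule E
  haveI : Nontrivial E := ⟨⟨⟨v, hv⟩, 0, fun h => hv0 (congrArg Subtype.val h)⟩⟩
  set ρE : s29k_G →* Module.End 𝒪 E := s30f_restrict ρ E hE with hρE
  have hcontE : GaloisActionIsAdicContinuous 𝒪 ρE := s30f_continuous_restrict ρ hcont E hE hsat
  -- [DENS]
  obtain ⟨t, ht, htfrob⟩ := hDens 𝒪 E ρE hcontE d hd S₀ a (by
    intro ℓ hℓ hℓS A hA σ hσ
    obtain ⟨h1, h2⟩ := hfrob ℓ hℓ hℓS A hA σ hσ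
    refine ⟨?_, h2⟩
    apply LinearMap.ext
    intro w
    apply Subtype.ext
    exact h1 (w : M) w.2)
  -- [TWO]
  obtain ⟨𝒪'', i1, i2, i3, i4, i5, i6, i7, i8, i9, hinj, ρ'', hchar, hone⟩ :=
    hTwo p 𝒪 hp E ρE hcontE d hd t ht
  refine ⟨𝒪'', i1, i2, i3, i4, i5, i6, i7, i8, i9, hinj, ρ'', ?_, ?_⟩
  · intro ℓ hℓ hℓS A hA σ hσ
    rw [hchar σ, htfrob ℓ hℓ hℓS A hA σ hσ, (hfrob ℓ hℓ hℓS A hA σ hσ).2, map_natCast]
  · intro σ hσ1 hσd
    apply hone σ ?_ hσd
    apply LinearMap.ext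
    intro w
    apply Subtype.ext
    show ρ σ (w : M) = (w : M)
    rw [hσ1]
    rfl

end Core

end

end Fermat.Agent.Lib.S30
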