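/-
Plan L (S30), final assembly, part 2 (lead): S30 from the contracts
`[EXT-A]`, `[DENS]`, `[TWO]` and the data `[TATE]` (`s30_TateDatum N p`), `[CYC]`
(`s30_CycDatum p`): base change of the Tate module to the coefficient ring `𝒪'`, the
eigen-submodule of `χ`, and the abstract core `s30f_core`.
-/
import Fermat.Agent.Lib.S30.LCore

set_option autoImplicit false
set_option linter.unusedSectionVars false
set_option linter.style.haveILetI false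

open Polynomial IsLocalRing
open scoped TensorProduct

namespace Fermat.Agent.Lib.S30

open Fermat.Agent.Lib.S29

noncomputable section

section BaseChange

variable {R : Type} [CommRing R] (𝒪 : Type) [CommRing 𝒪] [Algebra R 𝒪]
  {Λ : Type} [AddCommGroup Λ] [Module R Λ] {G : Type} [Monoid G]

/-- Base change of a representation. -/
def s30f_baseChange (ρ : G →* Module.End R Λ) : G →* Module.End 𝒪 (𝒪 ⊗[R] Λ) where
  toFun σ := (ρ σ).baseChange 𝒪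
  map_one' := by rw [map_one, LinearMap.baseChange_one]
  map_mul' σ τ := by rw [map_mul, LinearMap.baseChange_mul]

@[simp] theorem s30f_baseChange_apply (ρ : G →* Module.End R Λ) (σ : G) :
    s30f_baseChange 𝒪 ρ σ = (ρ σ).baseChange 𝒪 := rfl

theorem s30f_baseChange_commute {f g : Module.End R Λ} (h : Commute f g) :
    Commute (f.baseChange 𝒪) (g.baseChange 𝒪) := by
  show f.baseChange 𝒪 * g.baseChange 𝒪 = g.baseChange 𝒪 * f.baseChange 𝒪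
  rw [← LinearMap.baseChange_mul, ← LinearMap.baseChange_mul, h.eq]

end BaseChange

section Main

variable (p : ℕ) [Fact p.Prime]

/-- Continuity of the base change of a `p`-adically continuous representation. -/
theorem s30f_continuous_baseChange {𝒪 : Type} [CommRing 𝒪] [IsLocalRing 𝒪] [Algebra ℤ_[p] 𝒪]
    (hp : (p : 𝒪) ∈ maximalIdeal 𝒪)
    {Λ : Type} [AddCommGroup Λ] [Module ℤ_[p] Λ] (ρ : s29k_G →* Module.End ℤ_[p] Λ)
    (hcont : ∀ k : ℕ, ∃ L : IntermediateField ℚ (AlgebraicClosure ℚ), FiniteDimensional ℚ L ∧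
      (∀ σ : s29k_G, ∀ x ∈ L, σ x ∈ L) ∧
      ∀ σ : s29k_G, (∀ x ∈ L, σ x = x) → ∀ v : Λ, ∃ w : Λ, ρ σ v - v = (p : ℤ_[p]) ^ k • w) :
    GaloisActionIsAdicContinuous 𝒪 (s30f_baseChange 𝒪 ρ) := by
  intro n
  obtain ⟨L, hL, -, h1⟩ := hcont n
  refine ⟨L, hL, fun σ hσ x => ?_⟩
  have hpn : ((p : 𝒪)) ^ n ∈ maximalIdeal 𝒪 ^ n := Ideal.pow_mem_pow hp n
  induction x using TensorProduct.induction_on with
  | zero => rw [map_zero, sub_zero]; exact Submodule.zero_mem _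
  | tmul b v =>
    obtain ⟨w, hw⟩ := h1 σ hσ v
    rw [s30f_baseChange_apply, LinearMap.baseChange_tmul, ← TensorProduct.tmul_sub, hw,
      TensorProduct.tmul_smul, TensorProduct.smul_tmul', Algebra.smul_def, map_pow, map_natCast,
      ← smul_eq_mul, ← TensorProduct.smul_tmul']
    exact Submodule.smul_mem_smul hpn Submodule.mem_top
  | add x y hx hy =>
    rw [map_add, add_sub_add_comm]
    exact Submodule.add_mem _ hx hy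

/-- **S30 from the contracts.** -/
theorem s30f_main (hExtA : s30_ExtAContract) (hDens : s30_DensContract) (hTwo : s30_TwoContract)
    (N : ℕ) [NeZero N] (D : s30_TateDatum N p) (Cy : s30_CycDatum p)
    (S : Finset ℕ) (hpS : p ∈ S) (hNS : ∀ q : ℕ, q.Prime → q ∣ N → q ∈ S)
    (𝒪' : Type) [CommRing 𝒪'] [IsDomain 𝒪'] [IsDiscreteValuationRing 𝒪']
    [IsAdicComplete (maximalIdeal 𝒪') 𝒪'] [Finite (ResidueField 𝒪')]
    [CharZero 𝒪'] (hp𝒪' : (p : 𝒪') ∈ maximalIdeal 𝒪')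
    (χ : CuspForm.heckeAlgebra N 2 (↑S : Set ℕ) →+* 𝒪') :
    ∃ (𝒪'' : Type) (_ : CommRing 𝒪'') (_ : IsDomain 𝒪'') (_ : IsDiscreteValuationRing 𝒪'')
      (_ : IsAdicComplete (maximalIdeal 𝒪'') 𝒪'')
      (_ : Finite (ResidueField 𝒪'')) (_ : CharZero 𝒪'')
      (_ : Algebra 𝒪' 𝒪'') (_ : Module.Finite 𝒪' 𝒪'') (_ : IsLocalHom (algebraMap 𝒪' 𝒪'')),
      Function.Injective (algebraMap 𝒪' 𝒪'') ∧
      ∃ ρ : GaloisRepAdic 𝒪'',
        (∀ (ℓ : ℕ) (hℓ : ℓ.Prime) (hℓN : ¬ ℓ ∣ N) (hℓS : ℓ ∉ (↑S : Set ℕ)),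
          ∀ A : ValuationSubring (AlgebraicClosure ℚ), A.LiesOverPrime ℓ →
            ∀ σ : AlgebraicClosure ℚ ≃ₐ[ℚ] AlgebraicClosure ℚ, A.IsFrobeniusAt σ ℓ →
              LinearMap.charpoly (ρ.ρ σ) =
                X ^ 2 - C (algebraMap 𝒪' 𝒪'' (χ (CuspForm.heckeAlgebra.T hℓ hℓN hℓS))) * X
                  + C ((ℓ : 𝒪''))) ∧
        (∀ q : ℕ, q.Prime → ¬ q ∣ N → q ≠ p → ρ.IsUnramifiedAt q) := by
  classical
  obtain ⟨f⟩ := hExtA p 𝒪' hp𝒪'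
  letI : Algebra ℤ_[p] 𝒪' := f.toAlgebra
  have hfnat : ∀ m : ℕ, algebraMap ℤ_[p] 𝒪' (m : ℤ_[p]) = (m : 𝒪') := fun m => map_natCast _ m
  -- the base-changed Tate module
  set ρ : s29k_G →* Module.End 𝒪' (𝒪' ⊗[ℤ_[p]] D.Λ) := s30f_baseChange 𝒪' D.ρ with hρ
  have hcont : GaloisActionIsAdicContinuous 𝒪' ρ :=
    s30f_continuous_baseChange p hp𝒪' D.ρ D.cont
  -- the cyclotomic character
  set d : s29k_G →* 𝒪'ˣ := (Units.map (f : ℤ_[p] →* 𝒪')).comp Cy.ε with hd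
  have hdval : ∀ σ : s29k_G, ((d σ : 𝒪'ˣ) : 𝒪') = f ((Cy.ε σ : ℤ_[p]ˣ) : ℤ_[p]) := fun σ => rfl
  have hdcont : s30_CharContinuous d := by
    intro n
    obtain ⟨L, hL, -, h1⟩ := Cy.cont n
    refine ⟨L, hL, fun σ hσ => ?_⟩
    obtain ⟨w, hw⟩ := h1 σ hσ
    have : ((d σ : 𝒪'ˣ) : 𝒪') - 1 = (p : 𝒪') ^ n * f w := by
      rw [hdval, ← map_one f, ← map_sub, hw, map_mul, map_pow, map_natCast]
    rw [this]
    exact Ideal.mul_mem_right _ _ (Ideal.pow_mem_pow hp𝒪' n)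
  -- the eigen-system
  let ι : Type := {ℓ : ℕ // ℓ.Prime ∧ ¬ ℓ ∣ N ∧ ℓ ∉ (↑S : Set ℕ)}
  let T : ι → Module.End 𝒪' (𝒪' ⊗[ℤ_[p]] D.Λ) := fun i => (D.T ⟨i.1, i.2.1⟩).baseChange 𝒪'
  let c : ι → 𝒪' := fun i => χ (CuspForm.heckeAlgebra.T i.2.1 i.2.2.1 i.2.2.2)
  have hcomm : ∀ (σ : s29k_G) (i : ι), Commute (ρ σ) (T i) := fun σ i =>
    s30f_baseChange_commute 𝒪' (D.comm ⟨i.1, i.2.1⟩ σ)
  obtain ⟨v, hv0, hv⟩ := D.eig S 𝒪' χ
  have hvE : v ∈ s30f_eigen T c := fun i => hv i.1 i.2.1 i.2.2.1 i.2.2.2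
  -- the Frobenius data
  let a : ℕ → 𝒪' := fun ℓ =>
    if h : ℓ.Prime ∧ ¬ ℓ ∣ N ∧ ℓ ∉ (↑S : Set ℕ) then
      χ (CuspForm.heckeAlgebra.T h.1 h.2.1 h.2.2) else 0
  have hgood : ∀ ℓ : ℕ, ℓ.Prime → ℓ ∉ S → ¬ ℓ ∣ N ∧ ℓ ≠ p := by
    intro ℓ hℓ hℓS
    exact ⟨fun h => hℓS (hNS ℓ hℓ h), fun h => hℓS (h ▸ hpS)⟩
  have hndvd : ∀ ℓ : ℕ, ℓ.Prime → ¬ ℓ ∣ N → ℓ ≠ p → ¬ ℓ ∣ N * p := by
    intro ℓ hℓ h1 h2 h3
    rcases (Nat.Prime.dvd_mul hℓ).mp h3 with h | h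
    · exact h1 h
    · exact h2 ((Nat.prime_dvd_prime_iff_eq hℓ (Fact.out : p.Prime)).mp h)
  have hfrob : ∀ ℓ : ℕ, ℓ.Prime → ℓ ∉ S →
      ∀ A : ValuationSubring (AlgebraicClosure ℚ), A.LiesOverPrime ℓ →
        ∀ σ : s29k_G, A.IsFrobeniusAt σ ℓ →
          (∀ w ∈ s30f_eigen T c, ρ σ (ρ σ w) - a ℓ • ρ σ w + (ℓ : 𝒪') • w = 0) ∧
            ((d σ : 𝒪'ˣ) : 𝒪') = (ℓ : 𝒪') := by
    intro ℓ hℓ hℓS A hA σ hσ
    obtain ⟨hℓN, hℓp⟩ := hgood ℓ hℓ hℓS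
    have hℓS' : ℓ ∉ (↑S : Set ℕ) := fun h => hℓS (Finset.mem_coe.mp h)
    refine ⟨fun w hw => ?_, ?_⟩
    · have hq := D.frobQuad ⟨ℓ, hℓ⟩ (hndvd ℓ hℓ hℓN hℓp) A hA σ hσ
      have hq' := congrArg (fun g : Module.End ℤ_[p] D.Λ => g.baseChange 𝒪' w) hq
      simp only [LinearMap.baseChange_add, LinearMap.baseChange_sub, LinearMap.baseChange_mul,
        LinearMap.baseChange_smul, LinearMap.baseChange_one, LinearMap.baseChange_zero,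
        LinearMap.add_apply, LinearMap.sub_apply, Module.End.mul_apply, LinearMap.smul_apply,
        Module.End.one_apply, LinearMap.zero_apply] at hq'
      have hi : (⟨ℓ, hℓ, hℓN, hℓS'⟩ : ι) = ⟨ℓ, hℓ, hℓN, hℓS'⟩ := rfl
      have hTw : (D.T ⟨ℓ, hℓ⟩).baseChange 𝒪' (ρ σ w) = a ℓ • ρ σ w := by
        have h1 := s30f_map_mem_eigen (fun i => hcomm σ i) hw ⟨ℓ, hℓ, hℓN, hℓS'⟩
        have ha : a ℓ = c ⟨ℓ, hℓ, hℓN, hℓS'⟩ := by
          show (if h : ℓ.Prime ∧ ¬ ℓ ∣ N ∧ ℓ ∉ (↑S : Set ℕ) then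
            χ (CuspForm.heckeAlgebra.T h.1 h.2.1 h.2.2) else 0) = _
          rw [dif_pos ⟨hℓ, hℓN, hℓS'⟩]
        rw [ha]
        exact h1
      have hsm : (((ℓ : ℕ) : ℤ_[p])) • w = (ℓ : 𝒪') • w := by
        rw [algebra_compatible_smul 𝒪' ((ℓ : ℕ) : ℤ_[p]) w, hfnat]
      rw [s30f_baseChange_apply] at hTw ⊢
      rw [hTw, hsm] at hq'
      exact hq'
    · rw [hdval, Cy.frob ℓ hℓ hℓp A hA σ hσ, map_natCast]
  obtain ⟨𝒪'', i1, i2, i3, i4, i5, i6, i7, i8, i9, hinj, ρ'', hchar, hone⟩ :=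
    s30f_core hDens hTwo p hp𝒪' ρ hcont d hdcont T c hcomm v hv0 hvE S a hfrob
  refine ⟨𝒪'', i1, i2, i3, i4, i5, i6, i7, i8, i9, hinj, ρ'', ?_, ?_⟩
  · intro ℓ hℓ hℓN hℓS A hA σ hσ
    have hℓS' : ℓ ∉ S := fun h => hℓS (Finset.mem_coe.mpr h)
    rw [hchar ℓ hℓ hℓS' A hA σ hσ]
    have ha : a ℓ = χ (CuspForm.heckeAlgebra.T hℓ hℓN hℓS) := by
      show (if h : ℓ.Prime ∧ ¬ ℓ ∣ N ∧ ℓ ∉ (↑S : Set ℕ) then
        χ (CuspForm.heckeAlgebra.T h.1 h.2.1 h.2.2) else 0) = _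
      rw [dif_pos ⟨hℓ, hℓN, hℓS⟩]
    rw [ha]
  · intro q hq hqN hqp P hP σ hσ
    apply hone σ
    · rw [hρ, s30f_baseChange_apply, D.unram q hq (hndvd q hq hqN hqp) P hP σ hσ,
        LinearMap.baseChange_one]
    · rw [hd, MonoidHom.comp_apply, Cy.unram q hq hqp P hP σ hσ, map_one]

end Main

end

end Fermat.Agent.Lib.S30
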