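/-
Plan L (S30): INTERFACE FILE 2 (lead).  The `[TWO]` contract in its complex-conjugation form:
with an element `c` of order two on which the determinant character takes the value `-1`, the
rank-two representation exists over the coefficient ring `𝒪` itself (Wiles, Lemma 2.2.3), so no
extension of `𝒪` is needed.
-/
import Fermat.Agent.Lib.S30.LIface

set_option autoImplicit false

open Polynomial IsLocalRing

namespace Fermat.Agent.Lib.S30

open Fermat.Agent.Lib.S29

/-- **[TWO], form C**: a continuous representation on a finite free module over `𝒪` all of whose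
elements satisfy `ρ g + d g • ρ g⁻¹ = t g`, together with an involution `c` with `d c = -1`,
yields a rank-two `GaloisRepAdic` over `𝒪` itself with characteristic polynomials
`X² - t g X + d g`. -/
def s30_TwoContractC : Prop :=
  ∀ (p : ℕ) [Fact p.Prime]
    (𝒪 : Type) [CommRing 𝒪] [IsDomain 𝒪] [IsDiscreteValuationRing 𝒪]
    [IsAdicComplete (IsLocalRing.maximalIdeal 𝒪) 𝒪] [Finite (IsLocalRing.ResidueField 𝒪)]
    [CharZero 𝒪] (_ : (p : 𝒪) ∈ IsLocalRing.maximalIdeal 𝒪)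
    (Λ : Type) [AddCommGroup Λ] [Module 𝒪 Λ] [Module.Free 𝒪 Λ] [Module.Finite 𝒪 Λ] [Nontrivial Λ]
    (ρ : s29k_G →* Module.End 𝒪 Λ) (_ : GaloisActionIsAdicContinuous 𝒪 ρ)
    (d : s29k_G →* 𝒪ˣ) (_ : s30_CharContinuous d) (t : s29k_G → 𝒪)
    (_ : ∀ g : s29k_G, ρ g + ((d g : 𝒪ˣ) : 𝒪) • ρ g⁻¹ = t g • 1)
    (c : s29k_G) (_ : c * c = 1) (_ : d c = -1),
    ∃ ρ'' : GaloisRepAdic 𝒪,
      (∀ g : s29k_G, LinearMap.charpoly (ρ''.ρ g) =
        X ^ 2 - C (t g) * X + C ((d g : 𝒪ˣ) : 𝒪)) ∧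
      ∀ g : s29k_G, ρ g = 1 → d g = 1 → ρ''.ρ g = 1

end Fermat.Agent.Lib.S30
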