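/-
Plan L (S30), package [TWO] form C, the characteristic-polynomial clause of the lattice lemma
(helper9).

`s30t2_charpoly_lattice` : for a free `𝒪`-lattice `Λ' ⊆ K²` of rank two (`K = Frac 𝒪`), stable
under a matrix `M ∈ M₂(K)`, the characteristic polynomial of the induced endomorphism of `Λ'`
maps to the characteristic polynomial of `M`.
-/
import Mathlib

set_option autoImplicit false

namespace Fermat.Agent.Lib.S30

section

variable {𝒪 : Type*} [CommRing 𝒪] [IsDomain 𝒪] {K : Type*} [Field K] [Algebra 𝒪 K]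
  [IsFractionRing 𝒪 K]

/-- the characteristic polynomial of the action of a matrix on a stable lattice of full rank. -/
theorem s30t2_charpoly_lattice (Λ' : Submodule 𝒪 (Fin 2 → K)) [Module.Free 𝒪 Λ']
    [Module.Finite 𝒪 Λ'] (hrank : Module.finrank 𝒪 Λ' = 2) (M : Matrix (Fin 2) (Fin 2) K)
    (f : Module.End 𝒪 Λ')
    (hf : ∀ v : Λ', ((f v : Λ') : Fin 2 → K) = M.mulVec (v : Fin 2 → K)) :
    (LinearMap.charpoly f).map (algebraMap 𝒪 K) = M.charpoly := by
  classical
  -- an `𝒪`-basis of the lattice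
  set b : Module.Basis (Fin 2) 𝒪 Λ' := Module.finBasisOfFinrankEq 𝒪 Λ' hrank with hb
  set B : Fin 2 → (Fin 2 → K) := fun i => ((b i : Λ') : Fin 2 → K) with hB
  have hli𝒪 : LinearIndependent 𝒪 B := by
    have h1 : LinearIndependent 𝒪 (fun i => Λ'.subtype (b i)) :=
      b.linearIndependent.map' Λ'.subtype (Submodule.ker_subtype Λ')
    exact h1
  have hliK : LinearIndependent K B := (LinearIndependent.iff_fractionRing 𝒪 K).mp hli𝒪
  have hcard : Fintype.card (Fin 2) = Module.finrank K (Fin 2 → K) := by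
    rw [Module.finrank_fintype_fun_eq_card]
  set B' : Module.Basis (Fin 2) K (Fin 2 → K) :=
    basisOfLinearIndependentOfCardEqFinrank hliK hcard with hB'
  have hB'coe : ∀ i, B' i = B i := fun i => by
    rw [hB', coe_basisOfLinearIndependentOfCardEqFinrank]
  -- the matrix of `f`
  set A : Matrix (Fin 2) (Fin 2) 𝒪 := LinearMap.toMatrix b b f with hA
  have hfb : ∀ i, f (b i) = ∑ k, A k i • b k := by
    intro i
    have h1 := b.sum_repr (f (b i))
    rw [← h1]
    refine Finset.sum_congr rfl fun k _ => ?_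
    rw [hA, LinearMap.toMatrix_apply]
  have hMB : ∀ i, M.mulVec (B i) = ∑ k, algebraMap 𝒪 K (A k i) • B k := by
    intro i
    rw [hB, ← hf (b i), hfb i]
    rw [Submodule.coe_sum]
    refine Finset.sum_congr rfl fun k _ => ?_
    rw [Submodule.coe_smul, algebraMap_smul]
  have hmat : LinearMap.toMatrix B' B' (Matrix.toLin' M) = A.map (algebraMap 𝒪 K) := by
    ext k i
    rw [LinearMap.toMatrix_apply, Matrix.toLin'_apply, hB'coe, hMB i, Matrix.map_apply]
    have h2 : (∑ k, algebraMap 𝒪 K (A k i) • B k) = ∑ k, algebraMap 𝒪 K (A k i) • B' k := by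
      refine Finset.sum_congr rfl fun k _ => ?_
      rw [hB'coe]
    rw [h2, B'.repr_sum_self]
  calc (LinearMap.charpoly f).map (algebraMap 𝒪 K)
      = (A.charpoly).map (algebraMap 𝒪 K) := by rw [hA, LinearMap.charpoly_toMatrix]
    _ = (A.map (algebraMap 𝒪 K)).charpoly := (Matrix.charpoly_map A (algebraMap 𝒪 K)).symm
    _ = (LinearMap.toMatrix B' B' (Matrix.toLin' M)).charpoly := by rw [hmat]
    _ = (Matrix.toLin' M).charpoly := LinearMap.charpoly_toMatrix _ B'
    _ = M.charpoly := Matrix.charpoly_toLin' M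

end

end Fermat.Agent.Lib.S30
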