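/-
Plan L (S30), package [TWO], design C (complex conjugation, no extension of the coefficient ring):
INTERFACE between [WIL] (helper4), [LATT] (helper8) and [TWOC] (helper9).

* `s30_WilContract` : Wiles' construction.  From `ρ g + d g • ρ g⁻¹ = t g • 1` on a nontrivial
  finite free module and an element `c` with `c * c = 1`, `d c = -1`: a monoid homomorphism
  `ρ' : G →* M₂(K)`, `K = Frac 𝒪`, with trace `t`, determinant `d`, bounded denominators (`m`), and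
  the approximation property: if `t (σ * h) ≡ t h` and `t (h * σ) ≡ t h` modulo an ideal `I` for
  all `h`, then `m • (ρ' σ - 1)` has entries in `I`  (`I = ⊥` gives `ρ' σ = 1`).
* `s30_LattContract` : a `G`-stable lattice `𝒪² ⊆ Λ' ⊆ m⁻¹ 𝒪²` in `K²`, finite free of rank two,
  on which the characteristic polynomials are those of the matrices `ρ' g`.
[TWOC] proves `s30_WilContract → s30_LattContract → s30_TwoContractC`.
-/
import Mathlib
import Fermat.Agent.Lib.S30.LIface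

set_option autoImplicit false

namespace Fermat.Agent.Lib.S30

open Fermat.Agent.Lib.S29

/-- **[WIL]** Wiles' construction of a two-dimensional representation from the relation
`ρ g + d g • ρ g⁻¹ = t g • 1` and a complex conjugation. -/
def s30_WilContract : Prop :=
  ∀ (𝒪 : Type) [CommRing 𝒪] [IsDomain 𝒪] [IsDiscreteValuationRing 𝒪] [CharZero 𝒪]
    (Λ : Type) [AddCommGroup Λ] [Module 𝒪 Λ] [Module.Free 𝒪 Λ] [Module.Finite 𝒪 Λ] [Nontrivial Λ]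
    (ρ : s29k_G →* Module.End 𝒪 Λ) (d : s29k_G →* 𝒪ˣ) (t : s29k_G → 𝒪)
    (_ : ∀ g : s29k_G, ρ g + ((d g : 𝒪ˣ) : 𝒪) • ρ g⁻¹ = t g • 1)
    (c : s29k_G) (_ : c * c = 1) (_ : d c = -1),
    ∃ (ρ' : s29k_G →* Matrix (Fin 2) (Fin 2) (FractionRing 𝒪)) (m : 𝒪), m ≠ 0 ∧
      (∀ g : s29k_G, (ρ' g).trace = algebraMap 𝒪 (FractionRing 𝒪) (t g)) ∧
      (∀ g : s29k_G, (ρ' g).det = algebraMap 𝒪 (FractionRing 𝒪) ((d g : 𝒪ˣ) : 𝒪)) ∧
      (∀ (g : s29k_G) (i j : Fin 2), ∃ r : 𝒪,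
        algebraMap 𝒪 (FractionRing 𝒪) r = algebraMap 𝒪 (FractionRing 𝒪) m * ρ' g i j) ∧
      ∀ (I : Ideal 𝒪) (σ : s29k_G),
        (∀ h : s29k_G, t (σ * h) - t h ∈ I) → (∀ h : s29k_G, t (h * σ) - t h ∈ I) →
        ∀ i j : Fin 2, ∃ r ∈ I,
          algebraMap 𝒪 (FractionRing 𝒪) r = algebraMap 𝒪 (FractionRing 𝒪) m * (ρ' σ - 1) i j

/-- **[LATT]** a stable lattice for a matrix representation with bounded denominators. -/
def s30_LattContract : Prop :=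
  ∀ (𝒪 : Type) [CommRing 𝒪] [IsDomain 𝒪] [IsDiscreteValuationRing 𝒪]
    (ρ' : s29k_G →* Matrix (Fin 2) (Fin 2) (FractionRing 𝒪)) (m : 𝒪) (_ : m ≠ 0)
    (_ : ∀ (g : s29k_G) (i j : Fin 2), ∃ r : 𝒪,
      algebraMap 𝒪 (FractionRing 𝒪) r = algebraMap 𝒪 (FractionRing 𝒪) m * ρ' g i j),
    ∃ (Λ' : Submodule 𝒪 (Fin 2 → FractionRing 𝒪)) (_ : Module.Finite 𝒪 Λ') (_ : Module.Free 𝒪 Λ'),
      Module.finrank 𝒪 Λ' = 2 ∧
      (∀ g : s29k_G, ∀ v ∈ Λ', (ρ' g).mulVec v ∈ Λ') ∧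
      (∀ v : Fin 2 → 𝒪, (fun i => algebraMap 𝒪 (FractionRing 𝒪) (v i)) ∈ Λ') ∧
      (∀ v ∈ Λ', ∀ i : Fin 2, ∃ r : 𝒪,
        algebraMap 𝒪 (FractionRing 𝒪) r = algebraMap 𝒪 (FractionRing 𝒪) m * v i) ∧
      ∀ (g : s29k_G) (f : Module.End 𝒪 Λ'),
        (∀ v : Λ', ((f v : Λ') : Fin 2 → FractionRing 𝒪) =
          (ρ' g).mulVec (v : Fin 2 → FractionRing 𝒪)) →
        (LinearMap.charpoly f).map (algebraMap 𝒪 (FractionRing 𝒪)) = (ρ' g).charpoly

end Fermat.Agent.Lib.S30
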