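/-
Plan L (S30), package [TWO] design C, piece [LATT] (helper8): the STABLE LATTICE of a matrix
representation with bounded denominators.

`𝒪` a principal ideal domain with fraction field `K`, `ρ' : G →* M₂(K)` with `m • ρ' g` integral for a
fixed `m ≠ 0`.  The `𝒪`-span `Λ'` of all columns of all `ρ' g` is a `G`-stable lattice with
`𝒪² ⊆ Λ' ⊆ m⁻¹ 𝒪²`; it is finite free of rank two, and the characteristic polynomial of the action
of `g` on it maps to the characteristic polynomial of `ρ' g` (helper9's `s30t2_charpoly_lattice`).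
`s30l_lattContract : s30_LattContract`.
-/
import Mathlib
import Fermat.Agent.Lib.S30.TwoCIface
import Fermat.Agent.Lib.S30.LattChar

set_option autoImplicit false
set_option linter.style.haveILetI false
set_option linter.unusedSectionVars false

noncomputable section

namespace Fermat.Agent.Lib.S30

open Module

section Std

variable (R K : Type*) [CommRing R] [Field K] [Algebra R K]

/-- The standard lattice `R² ⊆ K²`. -/
def s30l_std : Submodule R (Fin 2 → K) :=
  LinearMap.range ((Algebra.linearMap R K).compLeft (Fin 2))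

variable {R K}

theorem s30l_mem_std_iff {v : Fin 2 → K} :
    v ∈ s30l_std R K ↔ ∀ i, ∃ y : R, algebraMap R K y = v i := by
  constructor
  · rintro ⟨y, rfl⟩ i
    exact ⟨y i, rfl⟩
  · intro hv
    choose y hy using hv
    exact ⟨y, funext hy⟩

instance s30l_std_isNoetherian [IsNoetherianRing R] : IsNoetherian R (s30l_std R K) :=
  isNoetherian_of_surjective ((Algebra.linearMap R K).compLeft (Fin 2)).rangeRestrict
    (LinearMap.range_rangeRestrict _)

end Std

section Lattice

variable {R K : Type*} [CommRing R] [IsDomain R] [IsPrincipalIdealRing R] [Field K] [Algebra R K]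
  [IsFractionRing R K] {G : Type*} [Group G]

/-- The lattice spanned by the columns of all the matrices `ρ' g`. -/
def s30l_span (ρ' : G →* Matrix (Fin 2) (Fin 2) K) : Submodule R (Fin 2 → K) :=
  Submodule.span R {v | ∃ (g : G) (i : Fin 2), v = (ρ' g).mulVec (Pi.single i 1)}

variable (ρ' : G →* Matrix (Fin 2) (Fin 2) K)

theorem s30l_span_stable (g : G) {v : Fin 2 → K} (hv : v ∈ s30l_span (R := R) ρ') :
    (ρ' g).mulVec v ∈ s30l_span (R := R) ρ' := by
  induction hv using Submodule.span_induction with
  | mem v hv =>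
    obtain ⟨h, i, rfl⟩ := hv
    refine Submodule.subset_span ⟨g * h, i, ?_⟩
    rw [map_mul, Matrix.mulVec_mulVec]
  | zero => rw [Matrix.mulVec_zero]; exact Submodule.zero_mem _
  | add a b _ _ ha hb => rw [Matrix.mulVec_add]; exact Submodule.add_mem _ ha hb
  | smul c a _ ha =>
    rw [← algebraMap_smul K c a, Matrix.mulVec_smul, algebraMap_smul]
    exact Submodule.smul_mem _ c ha

theorem s30l_single_mem (i : Fin 2) :
    (Pi.single i 1 : Fin 2 → K) ∈ s30l_span (R := R) ρ' := by
  refine Submodule.subset_span ⟨1, i, ?_⟩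
  rw [map_one, Matrix.one_mulVec]

theorem s30l_std_le : ∀ v : Fin 2 → R,
    (fun i => algebraMap R K (v i)) ∈ s30l_span (R := R) ρ' := by
  intro v
  have h : (fun i => algebraMap R K (v i)) =
      v 0 • (Pi.single 0 1 : Fin 2 → K) + v 1 • (Pi.single 1 1 : Fin 2 → K) := by
    ext k
    fin_cases k <;> simp [Algebra.smul_def]
  rw [h]
  exact Submodule.add_mem _ (Submodule.smul_mem _ _ (s30l_single_mem ρ' 0))
    (Submodule.smul_mem _ _ (s30l_single_mem ρ' 1))

theorem s30l_smul_mem_std (m : R)
    (hW : ∀ (g : G) (i j : Fin 2), ∃ r : R, algebraMap R K r = algebraMap R K m * ρ' g i j)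
    {v : Fin 2 → K} (hv : v ∈ s30l_span (R := R) ρ') (i : Fin 2) :
    ∃ r : R, algebraMap R K r = algebraMap R K m * v i := by
  induction hv using Submodule.span_induction with
  | mem v hv =>
    obtain ⟨g, k, rfl⟩ := hv
    obtain ⟨r, hr⟩ := hW g i k
    refine ⟨r, ?_⟩
    rw [hr, Matrix.mulVec_single_one]
    rfl
  | zero => exact ⟨0, by rw [map_zero, Pi.zero_apply, mul_zero]⟩
  | add a b _ _ ha hb =>
    obtain ⟨ra, hra⟩ := ha
    obtain ⟨rb, hrb⟩ := hb
    exact ⟨ra + rb, by rw [map_add, hra, hrb, Pi.add_apply, mul_add]⟩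
  | smul c a _ ha =>
    obtain ⟨ra, hra⟩ := ha
    exact ⟨c * ra, by rw [map_mul, hra, Pi.smul_apply, Algebra.smul_def]; ring⟩

theorem s30l_finite (m : R) (hm : m ≠ 0)
    (hW : ∀ (g : G) (i j : Fin 2), ∃ r : R, algebraMap R K r = algebraMap R K m * ρ' g i j) :
    Module.Finite R (s30l_span (R := R) ρ') := by
  have hmK : algebraMap R K m ≠ 0 := fun h0 =>
    hm (IsFractionRing.injective R K (h0.trans (map_zero _).symm))
  -- multiplication by `m` embeds the lattice into the standard lattice
  let φ : s30l_span (R := R) ρ' →ₗ[R] s30l_std R K :=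
    { toFun := fun v => ⟨m • (v : Fin 2 → K), by
        rw [s30l_mem_std_iff]
        intro i
        obtain ⟨r, hr⟩ := s30l_smul_mem_std ρ' m hW v.2 i
        exact ⟨r, by rw [hr, Pi.smul_apply, Algebra.smul_def]⟩⟩
      map_add' := fun v w => Subtype.ext (by
        show m • ((v + w : s30l_span (R := R) ρ') : Fin 2 → K) = m • (v : Fin 2 → K) + m • (w : Fin 2 → K)
        rw [Submodule.coe_add, smul_add])
      map_smul' := fun c v => Subtype.ext (by
        show m • ((c • v : s30l_span (R := R) ρ') : Fin 2 → K) = c • (m • (v : Fin 2 → K))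
        rw [Submodule.coe_smul, smul_comm]) }
  have hφ : Function.Injective φ := by
    intro v w hvw
    have h1 : m • (v : Fin 2 → K) = m • (w : Fin 2 → K) := congrArg Subtype.val hvw
    apply Subtype.ext
    rw [← algebraMap_smul K m (v : Fin 2 → K), ← algebraMap_smul K m (w : Fin 2 → K)] at h1
    exact smul_right_injective _ hmK h1
  exact Module.Finite.of_injective φ hφ

/-- a finite free lattice in `K²` containing the standard basis vectors has rank two. -/
theorem s30l_finrank_eq_two (V : Submodule R (Fin 2 → K)) [Module.Finite R V] [Module.Free R V]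
    (hV : ∀ i : Fin 2, (Pi.single i 1 : Fin 2 → K) ∈ V) : Module.finrank R V = 2 := by
  classical
  apply le_antisymm
  · set n := Module.finrank R V with hn
    let β : Basis (Fin n) R V := Module.finBasisOfFinrankEq R _ hn.symm
    have h1 : LinearIndependent R (fun i => ((β i : V) : Fin 2 → K)) :=
      β.linearIndependent.map' V.subtype (Submodule.ker_subtype _)
    have h2 : LinearIndependent K (fun i => ((β i : V) : Fin 2 → K)) :=
      (LinearIndependent.iff_fractionRing R K).mp h1
    have h3 := h2.fintype_card_le_finrank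
    rw [Fintype.card_fin, Module.finrank_fin_fun] at h3
    exact h3
  · let u : Fin 2 → V := fun i => ⟨Pi.single i 1, hV i⟩
    have hu : LinearIndependent R u := by
      have h1 : LinearIndependent K (fun i : Fin 2 => (Pi.single i 1 : Fin 2 → K)) := by
        have hb := (Pi.basisFun K (Fin 2)).linearIndependent
        convert hb using 1
        funext i
        ext k
        simp [Pi.single_apply]
      have h2 : LinearIndependent R (fun i : Fin 2 => (Pi.single i 1 : Fin 2 → K)) :=
        (LinearIndependent.iff_fractionRing R K).mpr h1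
      exact LinearIndependent.of_comp V.subtype h2
    have := hu.fintype_card_le_finrank
    rwa [Fintype.card_fin] at this

end Lattice

/-- **[LATT]**. -/
theorem s30l_lattContract : s30_LattContract := by
  intro 𝒪 _ _ _ ρ' m hm hW
  haveI hfin : Module.Finite 𝒪 (s30l_span (R := 𝒪) ρ') := s30l_finite ρ' m hm hW
  haveI hfree : Module.Free 𝒪 (s30l_span (R := 𝒪) ρ') := Module.free_of_finite_type_torsion_free'
  have hrank : Module.finrank 𝒪 (s30l_span (R := 𝒪) ρ') = 2 :=
    s30l_finrank_eq_two _ (s30l_single_mem ρ')
  refine ⟨s30l_span (R := 𝒪) ρ', hfin, hfree, hrank, fun g v hv => s30l_span_stable ρ' g hv,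
    s30l_std_le ρ', fun v hv i => s30l_smul_mem_std ρ' m hW hv i, fun g f hf => ?_⟩
  exact s30t2_charpoly_lattice _ hrank (ρ' g) f hf

end Fermat.Agent.Lib.S30
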