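/-
Plan L (S30), package [TWO] form C: the lattice lemma `s30_LattContract` (backup proof, helper9).

For a matrix representation `ρ' : G →* M₂(K)`, `K = Frac 𝒪`, with bounded denominators
(`m • ρ' g` integral), the `𝒪`-span `Λ'` of all `ρ' g eᵢ` is a `G`-stable lattice with
`𝒪² ⊆ Λ' ⊆ m⁻¹ 𝒪²`, finite free of rank two; the characteristic polynomial clause is
`s30t2_charpoly_lattice` (LattChar.lean).
-/
import Mathlib
import Fermat.Agent.Lib.S30.TwoCIface
import Fermat.Agent.Lib.S30.LattChar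

set_option autoImplicit false

namespace Fermat.Agent.Lib.S30

open Fermat.Agent.Lib.S29

section Lattice

variable {𝒪 : Type} [CommRing 𝒪] [IsDomain 𝒪] {K : Type} [Field K] [Algebra 𝒪 K]
  [IsFractionRing 𝒪 K] {G : Type*} [Group G] (ρ' : G →* Matrix (Fin 2) (Fin 2) K)

/-- the inclusion `𝒪² → K²`. -/
noncomputable def s30l3_incl (𝒪 : Type) [CommRing 𝒪] (K : Type) [Field K] [Algebra 𝒪 K] :
    (Fin 2 → 𝒪) →ₗ[𝒪] (Fin 2 → K) :=
  (Algebra.linearMap 𝒪 K).compLeft (Fin 2)

omit [IsDomain 𝒪] [IsFractionRing 𝒪 K] in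
@[simp] theorem s30l3_incl_apply (v : Fin 2 → 𝒪) (i : Fin 2) :
    s30l3_incl 𝒪 K v i = algebraMap 𝒪 K (v i) := rfl

/-- the lattice spanned by the columns of all `ρ' g`. -/
def s30l3_latt : Submodule 𝒪 (Fin 2 → K) :=
  Submodule.span 𝒪 {v | ∃ (g : G) (i : Fin 2), v = (ρ' g).mulVec (Pi.single i 1)}

omit [IsDomain 𝒪] [IsFractionRing 𝒪 K] in
theorem s30l3_latt_stable (g : G) (v : Fin 2 → K) (hv : v ∈ s30l3_latt (𝒪 := 𝒪) ρ') :
    (ρ' g).mulVec v ∈ s30l3_latt (𝒪 := 𝒪) ρ' := by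
  have h1 : (s30l3_latt (𝒪 := 𝒪) ρ').map ((Matrix.mulVecLin (ρ' g)).restrictScalars 𝒪) ≤
      s30l3_latt (𝒪 := 𝒪) ρ' := by
    rw [s30l3_latt, Submodule.map_span_le]
    rintro _ ⟨h, i, rfl⟩
    apply Submodule.subset_span
    refine ⟨g * h, i, ?_⟩
    rw [map_mul, ← Matrix.mulVec_mulVec]
    rfl
  exact h1 (Submodule.mem_map_of_mem hv)

omit [IsDomain 𝒪] [IsFractionRing 𝒪 K] in
theorem s30l3_single_mem (i : Fin 2) :
    (Pi.single i 1 : Fin 2 → K) ∈ s30l3_latt (𝒪 := 𝒪) ρ' := by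
  apply Submodule.subset_span
  refine ⟨1, i, ?_⟩
  rw [map_one, Matrix.one_mulVec]

omit [IsDomain 𝒪] [IsFractionRing 𝒪 K] in
theorem s30l3_latt_lower (v : Fin 2 → 𝒪) :
    (fun i => algebraMap 𝒪 K (v i)) ∈ s30l3_latt (𝒪 := 𝒪) ρ' := by
  have h1 : (fun i => algebraMap 𝒪 K (v i)) = ∑ j, v j • (Pi.single j 1 : Fin 2 → K) := by
    funext i
    rw [Finset.sum_apply]
    simp only [Pi.smul_apply, Pi.single_apply, Algebra.smul_def, mul_ite, mul_one, mul_zero,
      Finset.sum_ite_eq, Finset.mem_univ, if_true]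
  rw [h1]
  exact Submodule.sum_mem _ fun j _ => Submodule.smul_mem _ _ (s30l3_single_mem ρ' j)

omit [IsDomain 𝒪] [IsFractionRing 𝒪 K] in
theorem s30l3_latt_upper (m : 𝒪)
    (hint : ∀ (g : G) (i j : Fin 2), ∃ r : 𝒪, algebraMap 𝒪 K r = algebraMap 𝒪 K m * ρ' g i j)
    (v : Fin 2 → K) (hv : v ∈ s30l3_latt (𝒪 := 𝒪) ρ') (i : Fin 2) :
    ∃ r : 𝒪, algebraMap 𝒪 K r = algebraMap 𝒪 K m * v i := by
  induction hv using Submodule.span_induction with
  | mem x hx =>
    obtain ⟨g, j, rfl⟩ := hx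
    obtain ⟨r, hr⟩ := hint g i j
    refine ⟨r, ?_⟩
    rw [hr, Matrix.mulVec_single_one]
    rfl
  | zero => exact ⟨0, by simp⟩
  | add x y _ _ hx hy =>
    obtain ⟨r, hr⟩ := hx
    obtain ⟨s, hs⟩ := hy
    exact ⟨r + s, by rw [map_add, hr, hs, Pi.add_apply, mul_add]⟩
  | smul a x _ hx =>
    obtain ⟨r, hr⟩ := hx
    exact ⟨a * r, by rw [map_mul, hr, Pi.smul_apply, Algebra.smul_def]; ring⟩

/-- the lattice is finitely generated. -/
theorem s30l3_latt_fg [IsNoetherianRing 𝒪] (m : 𝒪) (hm : m ≠ 0)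
    (hint : ∀ (g : G) (i j : Fin 2), ∃ r : 𝒪, algebraMap 𝒪 K r = algebraMap 𝒪 K m * ρ' g i j) :
    (s30l3_latt (𝒪 := 𝒪) ρ').FG := by
  set F : (Fin 2 → K) →ₗ[𝒪] (Fin 2 → K) := m • LinearMap.id with hF
  have hFinj : Function.Injective F := by
    intro x y hxy
    have h1 : m • x = m • y := hxy
    exact (smul_right_injective (Fin 2 → K) hm) h1
  apply Submodule.fg_of_fg_map_injective F hFinj
  have hle : (s30l3_latt (𝒪 := 𝒪) ρ').map F ≤ LinearMap.range (s30l3_incl 𝒪 K) := by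
    rintro _ ⟨v, hv, rfl⟩
    choose r hr using fun i => s30l3_latt_upper ρ' m hint v hv i
    refine ⟨r, ?_⟩
    funext i
    rw [s30l3_incl_apply, hr i, hF]
    simp [Algebra.smul_def]
  rw [← Submodule.map_comap_eq_of_le hle]
  exact Submodule.FG.map _ (IsNoetherian.noetherian _)

end Lattice

/-- **[LATT]** the lattice contract. -/
theorem s30l3_lattContract : s30_LattContract := by
  intro 𝒪 _ _ _ ρ' m hm hint
  classical
  set Λ' : Submodule 𝒪 (Fin 2 → FractionRing 𝒪) := s30l3_latt (𝒪 := 𝒪) ρ' with hΛ'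
  have hfin : Module.Finite 𝒪 Λ' := Module.Finite.iff_fg.mpr (s30l3_latt_fg ρ' m hm hint)
  have hfree : Module.Free 𝒪 Λ' := Module.free_of_finite_type_torsion_free'
  have hrank : Module.finrank 𝒪 Λ' = 2 := by
    apply le_antisymm
    · -- `≤ 2`: a basis is `K`-linearly independent in `K²`
      set b := Module.Free.chooseBasis 𝒪 Λ' with hb
      have h1 : LinearIndependent 𝒪 (fun i => Λ'.subtype (b i)) :=
        b.linearIndependent.map' Λ'.subtype (Submodule.ker_subtype Λ')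
      have h2 : LinearIndependent (FractionRing 𝒪) (fun i => Λ'.subtype (b i)) :=
        (LinearIndependent.iff_fractionRing 𝒪 (FractionRing 𝒪)).mp h1
      have h3 := h2.fintype_card_le_finrank
      rw [Module.finrank_fintype_fun_eq_card, Fintype.card_fin] at h3
      rw [Module.finrank_eq_card_chooseBasisIndex]
      exact h3
    · -- `≥ 2`: the standard basis vectors lie in the lattice
      set e : Fin 2 → Λ' := fun i => ⟨Pi.single i 1, s30l3_single_mem ρ' i⟩ with he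
      have h1 : LinearIndependent 𝒪 e := by
        apply LinearIndependent.of_comp Λ'.subtype
        have h2 : LinearIndependent (FractionRing 𝒪)
            (fun i : Fin 2 => (Pi.single i 1 : Fin 2 → FractionRing 𝒪)) := by
          have h4 := (Pi.basisFun (FractionRing 𝒪) (Fin 2)).linearIndependent
          have h5 : ⇑(Pi.basisFun (FractionRing 𝒪) (Fin 2)) =
              fun i : Fin 2 => (Pi.single i 1 : Fin 2 → FractionRing 𝒪) := by
            funext i
            exact Pi.basisFun_apply (FractionRing 𝒪) (Fin 2) i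
          rwa [h5] at h4
        exact (LinearIndependent.iff_fractionRing 𝒪 (FractionRing 𝒪)).mpr h2
      have h3 := h1.fintype_card_le_finrank
      rwa [Fintype.card_fin] at h3
  exact ⟨Λ', hfin, hfree, hrank, fun g v hv => s30l3_latt_stable ρ' g v hv,
    fun v => s30l3_latt_lower ρ' v, fun v hv i => s30l3_latt_upper ρ' m hint v hv i,
    fun g f hf => s30t2_charpoly_lattice Λ' hrank (ρ' g) f hf⟩

end Fermat.Agent.Lib.S30
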