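/-
Plan L (S30), package [LATT] (design C of [TWO]): **the stable lattice of a matrix representation
with bounded denominators**.

Let `𝒪` be a principal ideal domain with fraction field `K`, `ρ' : G →* M₂(K)` a monoid
homomorphism and `m ≠ 0` in `𝒪` such that all entries of `m • ρ' g` are integral.  Then the
`𝒪`-span `Λ'` of the columns of all `ρ' g` is a `G`-stable lattice with `𝒪² ⊆ Λ' ⊆ m⁻¹ 𝒪²`;
it is finitely generated (Noetherian sandwich), torsion-free, hence free, and of rank two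
(`s30l2_lattice`).  Together with `s30t2_charpoly_lattice` (LattChar.lean) this proves the
contract `s30_LattContract` of TwoCIface.lean (`s30l2_lattContract`).
-/
import Fermat.Agent.Lib.S30.LattChar
import Fermat.Agent.Lib.S30.TwoCIface

set_option autoImplicit false

noncomputable section

namespace Fermat.Agent.Lib.S30

open Module

section Latt

variable {𝒪 : Type*} [CommRing 𝒪] {K : Type*} [Field K] [Algebra 𝒪 K] {G : Type*} [Group G]

/-- The embedding `𝒪² → K²`. -/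
def s30l2_iota (𝒪 : Type*) [CommRing 𝒪] (K : Type*) [Field K] [Algebra 𝒪 K] :
    (Fin 2 → 𝒪) →ₗ[𝒪] (Fin 2 → K) :=
  (Algebra.linearMap 𝒪 K).compLeft (Fin 2)

theorem s30l2_iota_apply (w : Fin 2 → 𝒪) (i : Fin 2) :
    s30l2_iota 𝒪 K w i = algebraMap 𝒪 K (w i) := rfl

/-- The action of a matrix on `K²`, as an `𝒪`-linear map. -/
def s30l2_lin (𝒪 : Type*) [CommRing 𝒪] {K : Type*} [Field K] [Algebra 𝒪 K]
    (M : Matrix (Fin 2) (Fin 2) K) : (Fin 2 → K) →ₗ[𝒪] (Fin 2 → K) :=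
  (Matrix.mulVecLin M).restrictScalars 𝒪

theorem s30l2_lin_apply (M : Matrix (Fin 2) (Fin 2) K) (v : Fin 2 → K) :
    s30l2_lin 𝒪 M v = M.mulVec v := rfl

/-- The lattice spanned by the columns of all the matrices `ρ' g`. -/
def s30l2_Lat (𝒪 : Type*) [CommRing 𝒪] {K : Type*} [Field K] [Algebra 𝒪 K] {G : Type*} [Group G]
    (ρ' : G →* Matrix (Fin 2) (Fin 2) K) : Submodule 𝒪 (Fin 2 → K) :=
  Submodule.span 𝒪 {v | ∃ (g : G) (j : Fin 2), v = (ρ' g).mulVec (Pi.single j 1)}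

variable (ρ' : G →* Matrix (Fin 2) (Fin 2) K)

theorem s30l2_stable (g : G) (v : Fin 2 → K) (hv : v ∈ s30l2_Lat 𝒪 ρ') :
    (ρ' g).mulVec v ∈ s30l2_Lat 𝒪 ρ' := by
  have hle : (s30l2_Lat 𝒪 ρ').map (s30l2_lin 𝒪 (ρ' g)) ≤ s30l2_Lat 𝒪 ρ' := by
    rw [s30l2_Lat, Submodule.map_span]
    apply Submodule.span_le.mpr
    rintro _ ⟨_, ⟨g', j, rfl⟩, rfl⟩
    apply Submodule.subset_span
    exact ⟨g * g', j, by rw [s30l2_lin_apply, Matrix.mulVec_mulVec, map_mul]⟩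
  exact hle (Submodule.mem_map_of_mem hv)

theorem s30l2_single_mem (j : Fin 2) : (Pi.single j 1 : Fin 2 → K) ∈ s30l2_Lat 𝒪 ρ' := by
  apply Submodule.subset_span
  exact ⟨1, j, by rw [map_one, Matrix.one_mulVec]⟩

theorem s30l2_iota_mem (w : Fin 2 → 𝒪) : s30l2_iota 𝒪 K w ∈ s30l2_Lat 𝒪 ρ' := by
  have : s30l2_iota 𝒪 K w = w 0 • (Pi.single 0 1 : Fin 2 → K) + w 1 • (Pi.single 1 1 : Fin 2 → K) := by
    ext i
    fin_cases i <;> simp [s30l2_iota_apply, Algebra.smul_def]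
  rw [this]
  exact Submodule.add_mem _ (Submodule.smul_mem _ _ (s30l2_single_mem ρ' 0))
    (Submodule.smul_mem _ _ (s30l2_single_mem ρ' 1))

theorem s30l2_bound {m : 𝒪}
    (hint : ∀ g i j, ∃ r : 𝒪, algebraMap 𝒪 K r = algebraMap 𝒪 K m * ρ' g i j)
    (v : Fin 2 → K) (hv : v ∈ s30l2_Lat 𝒪 ρ') (i : Fin 2) :
    ∃ r : 𝒪, algebraMap 𝒪 K r = algebraMap 𝒪 K m * v i := by
  induction hv using Submodule.span_induction with
  | mem x hx =>
    obtain ⟨g, j, rfl⟩ := hx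
    obtain ⟨r, hr⟩ := hint g i j
    refine ⟨r, ?_⟩
    rw [hr, Matrix.mulVec_single_one]
    rfl
  | zero => exact ⟨0, by simp⟩
  | add x y _ _ hx hy =>
    obtain ⟨r, hr⟩ := hx
    obtain ⟨s, hs⟩ := hy
    exact ⟨r + s, by rw [map_add, hr, hs, Pi.add_apply, mul_add]⟩
  | smul a x _ hx =>
    obtain ⟨r, hr⟩ := hx
    exact ⟨a * r, by rw [map_mul, hr, Pi.smul_apply, Algebra.smul_def]; ring⟩

end Latt

section Rank

variable {𝒪 : Type*} [CommRing 𝒪] [IsDomain 𝒪] [IsPrincipalIdealRing 𝒪]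
  {K : Type*} [Field K] [Algebra 𝒪 K] [IsFractionRing 𝒪 K] {G : Type*} [Group G]
  (ρ' : G →* Matrix (Fin 2) (Fin 2) K)

/-- Division by `m` on `K²`, as an `𝒪`-linear map. -/
def s30l2_scale (𝒪 : Type*) [CommRing 𝒪] {K : Type*} [Field K] [Algebra 𝒪 K] (a : K) :
    (Fin 2 → K) →ₗ[𝒪] (Fin 2 → K) :=
  (a • (LinearMap.id : (Fin 2 → K) →ₗ[K] (Fin 2 → K))).restrictScalars 𝒪

omit [IsDomain 𝒪] [IsPrincipalIdealRing 𝒪] [IsFractionRing 𝒪 K] in
theorem s30l2_scale_apply (a : K) (v : Fin 2 → K) (i : Fin 2) :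
    s30l2_scale 𝒪 a v i = a * v i := rfl

theorem s30l2_finite {m : 𝒪} (hm : m ≠ 0)
    (hint : ∀ g i j, ∃ r : 𝒪, algebraMap 𝒪 K r = algebraMap 𝒪 K m * ρ' g i j) :
    Module.Finite 𝒪 (s30l2_Lat 𝒪 ρ') := by
  have hmK : algebraMap 𝒪 K m ≠ 0 := by
    intro h0
    exact hm ((IsFractionRing.injective 𝒪 K) (by rw [h0, map_zero]))
  -- the big lattice `m⁻¹ 𝒪²`
  set M₁ : Submodule 𝒪 (Fin 2 → K) :=
    (LinearMap.range (s30l2_iota 𝒪 K)).map (s30l2_scale 𝒪 (algebraMap 𝒪 K m)⁻¹) with hM₁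
  have hfg : M₁.FG := by
    rw [hM₁, LinearMap.range_eq_map]
    exact (Module.Finite.fg_top.map _).map _
  have hle : s30l2_Lat 𝒪 ρ' ≤ M₁ := by
    intro v hv
    choose r hr using s30l2_bound ρ' hint v hv
    refine ⟨s30l2_iota 𝒪 K r, ⟨r, rfl⟩, ?_⟩
    ext i
    rw [s30l2_scale_apply, s30l2_iota_apply, hr i, ← mul_assoc, inv_mul_cancel₀ hmK, one_mul]
  have : IsNoetherian 𝒪 M₁ := isNoetherian_of_fg_of_noetherian M₁ hfg
  exact Module.Finite.equiv (Submodule.comapSubtypeEquivOfLe hle)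

theorem s30l2_free {m : 𝒪} (hm : m ≠ 0)
    (hint : ∀ g i j, ∃ r : 𝒪, algebraMap 𝒪 K r = algebraMap 𝒪 K m * ρ' g i j) :
    Module.Free 𝒪 (s30l2_Lat 𝒪 ρ') := by
  have := s30l2_finite ρ' hm hint
  infer_instance

theorem s30l2_finrank {m : 𝒪} (hm : m ≠ 0)
    (hint : ∀ g i j, ∃ r : 𝒪, algebraMap 𝒪 K r = algebraMap 𝒪 K m * ρ' g i j) :
    Module.finrank 𝒪 (s30l2_Lat 𝒪 ρ') = 2 := by
  classical
  have := s30l2_finite ρ' hm hint
  have := s30l2_free ρ' hm hint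
  apply le_antisymm
  · -- a basis of the lattice is linearly independent over `K`
    set b := Module.Free.chooseBasis 𝒪 (s30l2_Lat 𝒪 ρ') with hb
    have h1 : LinearIndependent 𝒪 (fun i => ((b i : s30l2_Lat 𝒪 ρ') : Fin 2 → K)) :=
      b.linearIndependent.map' (s30l2_Lat 𝒪 ρ').subtype (Submodule.ker_subtype _)
    have h2 : LinearIndependent K (fun i => ((b i : s30l2_Lat 𝒪 ρ') : Fin 2 → K)) :=
      (LinearIndependent.iff_fractionRing 𝒪 K).mp h1
    have h3 := h2.fintype_card_le_finrank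
    rw [Module.finrank_fin_fun] at h3
    rw [Module.finrank_eq_card_chooseBasisIndex]
    exact h3
  · -- the standard basis vectors are linearly independent
    have h1 : LinearIndependent K (fun j : Fin 2 => (Pi.single j 1 : Fin 2 → K)) := by
      have := (Pi.basisFun K (Fin 2)).linearIndependent
      convert this using 2 with j
      rw [Pi.basisFun_apply]
    have h2 : LinearIndependent 𝒪 (fun j : Fin 2 => (Pi.single j 1 : Fin 2 → K)) :=
      (LinearIndependent.iff_fractionRing 𝒪 K).mpr h1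
    have h3 : LinearIndependent 𝒪 (fun j : Fin 2 =>
        (⟨Pi.single j 1, s30l2_single_mem ρ' j⟩ : s30l2_Lat 𝒪 ρ')) := by
      apply LinearIndependent.of_comp (s30l2_Lat 𝒪 ρ').subtype
      exact h2
    have h4 := h3.fintype_card_le_finrank
    rwa [Fintype.card_fin] at h4

/-- **The stable lattice** of a matrix representation with bounded denominators. -/
theorem s30l2_lattice {m : 𝒪} (hm : m ≠ 0)
    (hint : ∀ g i j, ∃ r : 𝒪, algebraMap 𝒪 K r = algebraMap 𝒪 K m * ρ' g i j) :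
    ∃ (Λ' : Submodule 𝒪 (Fin 2 → K)) (_ : Module.Finite 𝒪 Λ') (_ : Module.Free 𝒪 Λ'),
      Module.finrank 𝒪 Λ' = 2 ∧
      (∀ g : G, ∀ v ∈ Λ', (ρ' g).mulVec v ∈ Λ') ∧
      (∀ v : Fin 2 → 𝒪, (fun i => algebraMap 𝒪 K (v i)) ∈ Λ') ∧
      (∀ v ∈ Λ', ∀ i : Fin 2, ∃ r : 𝒪, algebraMap 𝒪 K r = algebraMap 𝒪 K m * v i) ∧
      ∀ (g : G) (f : Module.End 𝒪 Λ'),
        (∀ v : Λ', ((f v : Λ') : Fin 2 → K) = (ρ' g).mulVec (v : Fin 2 → K)) →
        (LinearMap.charpoly f).map (algebraMap 𝒪 K) = (ρ' g).charpoly := by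
  have hfin := s30l2_finite ρ' hm hint
  have hfree := s30l2_free ρ' hm hint
  have hrank := s30l2_finrank ρ' hm hint
  refine ⟨s30l2_Lat 𝒪 ρ', hfin, hfree, hrank, s30l2_stable ρ', s30l2_iota_mem ρ',
    s30l2_bound ρ' hint, ?_⟩
  intro g f hf
  exact s30t2_charpoly_lattice (s30l2_Lat 𝒪 ρ') hrank (ρ' g) f hf

end Rank

open Fermat.Agent.Lib.S29 in
/-- **[LATT]** the contract of `TwoCIface.lean`. -/
theorem s30l2_lattContract : s30_LattContract := by
  intro 𝒪 _ _ _ ρ' m hm hint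
  exact s30l2_lattice ρ' hm hint

end Fermat.Agent.Lib.S30
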