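/-
Plan L (S30), package [SAT] (owner: helper9): saturated, Galois-stable sublattices.

For a submodule `E` of a module `M` over a discrete valuation ring `𝒪`:
* `s30s_Saturated E` : closed under division by nonzero scalars;
* kernels (hence eigen-submodules) in torsion-free modules are saturated; intersections and
  comaps of saturated submodules are saturated;
* `s30s_mem_smul_top_of_saturated` : `𝔪ⁿ M ∩ E = 𝔪ⁿ E`;
* `s30s_restrict ρ E hstab` : the restriction of a representation to a stable submodule, with the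
  transfer of identities, of triviality and (for saturated `E`) of adic continuity.
-/
import Mathlib
import Fermat.Agent.Lib.S30.LIface

set_option autoImplicit false

open IsLocalRing

namespace Fermat.Agent.Lib.S30

open Fermat.Agent.Lib.S29

section Saturated

variable {R : Type*} [CommRing R] {M : Type*} [AddCommGroup M] [Module R M]

/-- a submodule is saturated if it is closed under division by nonzero scalars. -/
def s30s_Saturated (E : Submodule R M) : Prop :=
  ∀ (a : R) (x : M), a ≠ 0 → a • x ∈ E → x ∈ E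

theorem s30s_saturated_top : s30s_Saturated (⊤ : Submodule R M) := fun _ _ _ _ => Submodule.mem_top

/-- kernels of linear maps into torsion-free modules are saturated. -/
theorem s30s_saturated_ker [IsDomain R] {M' : Type*} [AddCommGroup M'] [Module R M']
    [Module.IsTorsionFree R M'] (f : M →ₗ[R] M') : s30s_Saturated (LinearMap.ker f) := by
  intro a x ha hx
  rw [LinearMap.mem_ker, map_smul] at hx
  rw [LinearMap.mem_ker]
  exact (smul_eq_zero_iff_right ha).mp hx

/-- comaps of saturated submodules are saturated. -/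
theorem s30s_saturated_comap {M' : Type*} [AddCommGroup M'] [Module R M'] (f : M →ₗ[R] M')
    {E' : Submodule R M'} (hE' : s30s_Saturated E') : s30s_Saturated (E'.comap f) := by
  intro a x ha hx
  rw [Submodule.mem_comap, map_smul] at hx
  exact hE' a (f x) ha hx

/-- intersections of saturated submodules are saturated. -/
theorem s30s_saturated_iInf {ι : Sort*} {E : ι → Submodule R M} (hE : ∀ i, s30s_Saturated (E i)) :
    s30s_Saturated (⨅ i, E i) := by
  intro a x ha hx
  rw [Submodule.mem_iInf] at hx ⊢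
  exact fun i => hE i a x ha (hx i)

theorem s30s_saturated_inf {E₁ E₂ : Submodule R M} (h₁ : s30s_Saturated E₁)
    (h₂ : s30s_Saturated E₂) : s30s_Saturated (E₁ ⊓ E₂) := by
  intro a x ha hx
  exact ⟨h₁ a x ha hx.1, h₂ a x ha hx.2⟩

/-- the common eigen-submodule of a family of endomorphisms. -/
def s30s_eigen {ι : Type*} (T : ι → Module.End R M) (c : ι → R) : Submodule R M :=
  ⨅ i, LinearMap.ker (T i - c i • (1 : Module.End R M))

theorem s30s_mem_eigen {ι : Type*} (T : ι → Module.End R M) (c : ι → R) (x : M) :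
    x ∈ s30s_eigen T c ↔ ∀ i, T i x = c i • x := by
  rw [s30s_eigen, Submodule.mem_iInf]
  refine forall_congr' fun i => ?_
  rw [LinearMap.mem_ker, LinearMap.sub_apply, LinearMap.smul_apply, Module.End.one_apply,
    sub_eq_zero]

/-- eigen-submodules of torsion-free modules are saturated. -/
theorem s30s_saturated_eigen [IsDomain R] [Module.IsTorsionFree R M] {ι : Type*}
    (T : ι → Module.End R M) (c : ι → R) : s30s_Saturated (s30s_eigen T c) :=
  s30s_saturated_iInf fun _ => s30s_saturated_ker _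

/-- an eigen-submodule is stable under every endomorphism commuting with the family. -/
theorem s30s_eigen_stable {ι : Type*} (T : ι → Module.End R M) (c : ι → R) (f : Module.End R M)
    (hf : ∀ i, Commute f (T i)) {x : M} (hx : x ∈ s30s_eigen T c) : f x ∈ s30s_eigen T c := by
  rw [s30s_mem_eigen] at hx ⊢
  intro i
  have h1 : T i (f x) = f (T i x) := by
    have := congrArg (fun g : Module.End R M => g x) (hf i).eq
    simpa [Module.End.mul_apply] using this.symm
  rw [h1, hx i, map_smul]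

end Saturated

section DVR

variable {𝒪 : Type*} [CommRing 𝒪] [IsDomain 𝒪] [IsDiscreteValuationRing 𝒪]
  {M : Type*} [AddCommGroup M] [Module 𝒪 M]

/-- elements of `𝔪ⁿ M` are multiples of `ϖⁿ`. -/
theorem s30s_exists_eq_pow_smul {ϖ : 𝒪} (hϖ : Irreducible ϖ) (n : ℕ) {x : M}
    (hx : x ∈ (maximalIdeal 𝒪 ^ n) • (⊤ : Submodule 𝒪 M)) : ∃ y : M, x = ϖ ^ n • y := by
  rw [hϖ.maximalIdeal_eq, Ideal.span_singleton_pow, Submodule.ideal_span_singleton_smul,
    Submodule.mem_smul_pointwise_iff_exists] at hx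
  obtain ⟨y, -, hy⟩ := hx
  exact ⟨y, hy.symm⟩

theorem s30s_pow_smul_mem {ϖ : 𝒪} (hϖ : Irreducible ϖ) (n : ℕ) (y : M) :
    ϖ ^ n • y ∈ (maximalIdeal 𝒪 ^ n) • (⊤ : Submodule 𝒪 M) := by
  refine Submodule.smul_mem_smul (Ideal.pow_mem_pow ?_ n) Submodule.mem_top
  rw [hϖ.maximalIdeal_eq]
  exact Ideal.mem_span_singleton_self ϖ

/-- **`𝔪ⁿ M ∩ E = 𝔪ⁿ E`** for a saturated submodule `E`. -/
theorem s30s_mem_smul_top_of_saturated {E : Submodule 𝒪 M} (hE : s30s_Saturated E) (n : ℕ)
    (x : E) (hx : (x : M) ∈ (maximalIdeal 𝒪 ^ n) • (⊤ : Submodule 𝒪 M)) :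
    x ∈ (maximalIdeal 𝒪 ^ n) • (⊤ : Submodule 𝒪 E) := by
  obtain ⟨ϖ, hϖ⟩ := IsDiscreteValuationRing.exists_irreducible 𝒪
  obtain ⟨y, hy⟩ := s30s_exists_eq_pow_smul hϖ n hx
  have hyE : y ∈ E := hE (ϖ ^ n) y (pow_ne_zero n hϖ.ne_zero) (hy ▸ x.2)
  have hxy : x = ϖ ^ n • (⟨y, hyE⟩ : E) := Subtype.ext hy
  rw [hxy]
  exact s30s_pow_smul_mem hϖ n _

end DVR

section Restrict

variable {𝒪 : Type} [CommRing 𝒪] {M : Type} [AddCommGroup M] [Module 𝒪 M]
  (ρ : s29k_G →* Module.End 𝒪 M) (E : Submodule 𝒪 M)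
  (hstab : ∀ (σ : s29k_G) (x : M), x ∈ E → ρ σ x ∈ E)

/-- the restriction of a representation to a stable submodule. -/
noncomputable def s30s_restrict : s29k_G →* Module.End 𝒪 E where
  toFun σ := (ρ σ).restrict (hstab σ)
  map_one' := by
    apply LinearMap.ext
    intro x
    apply Subtype.ext
    simp
  map_mul' σ τ := by
    apply LinearMap.ext
    intro x
    apply Subtype.ext
    simp [Module.End.mul_apply]

@[simp] theorem s30s_restrict_coe_apply (σ : s29k_G) (x : E) :
    ((s30s_restrict ρ E hstab σ x : E) : M) = ρ σ (x : M) := rfl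

theorem s30s_restrict_eq_one {σ : s29k_G} (h : ρ σ = 1) : s30s_restrict ρ E hstab σ = 1 := by
  apply LinearMap.ext
  intro x
  apply Subtype.ext
  rw [s30s_restrict_coe_apply, h]
  rfl

/-- the quadratic relation restricts to an eigen-submodule. -/
theorem s30s_restrict_quad {σ : s29k_G} {T : Module.End 𝒪 M} {c b : 𝒪}
    (hq : ρ σ * ρ σ - T * ρ σ + b • (1 : Module.End 𝒪 M) = 0)
    (hT : ∀ x ∈ E, T x = c • x) :
    s30s_restrict ρ E hstab σ * s30s_restrict ρ E hstab σ - c • s30s_restrict ρ E hstab σ +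
      b • (1 : Module.End 𝒪 E) = 0 := by
  apply LinearMap.ext
  intro x
  apply Subtype.ext
  have h1 := congrArg (fun f : Module.End 𝒪 M => f (x : M)) hq
  simp only [LinearMap.add_apply, LinearMap.sub_apply, Module.End.mul_apply, LinearMap.smul_apply,
    Module.End.one_apply, LinearMap.zero_apply] at h1
  rw [hT _ (hstab σ _ x.2)] at h1
  simpa [Module.End.mul_apply] using h1

/-- the trace-like relation restricts. -/
theorem s30s_restrict_rel {g : s29k_G} {c t : 𝒪}
    (h : ρ g + c • ρ g⁻¹ = t • (1 : Module.End 𝒪 M)) :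
    s30s_restrict ρ E hstab g + c • s30s_restrict ρ E hstab g⁻¹ = t • (1 : Module.End 𝒪 E) := by
  apply LinearMap.ext
  intro x
  apply Subtype.ext
  have h1 := congrArg (fun f : Module.End 𝒪 M => f (x : M)) h
  simp only [LinearMap.add_apply, LinearMap.smul_apply, Module.End.one_apply] at h1
  simpa using h1

end Restrict

section Cont

variable {𝒪 : Type} [CommRing 𝒪] [IsDomain 𝒪] [IsDiscreteValuationRing 𝒪]
  {M : Type} [AddCommGroup M] [Module 𝒪 M]
  (ρ : s29k_G →* Module.End 𝒪 M) (E : Submodule 𝒪 M)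
  (hstab : ∀ (σ : s29k_G) (x : M), x ∈ E → ρ σ x ∈ E)

/-- adic continuity is inherited by saturated stable submodules. -/
theorem s30s_restrict_adicContinuous (hE : s30s_Saturated E)
    (hρ : GaloisActionIsAdicContinuous 𝒪 ρ) :
    GaloisActionIsAdicContinuous 𝒪 (s30s_restrict ρ E hstab) := by
  intro n
  obtain ⟨L, hL, h⟩ := hρ n
  refine ⟨L, hL, fun σ hσ v => ?_⟩
  apply s30s_mem_smul_top_of_saturated hE n
  rw [Submodule.coe_sub, s30s_restrict_coe_apply]
  exact h σ hσ (v : M)

end Cont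

section Lattice

variable {𝒪 : Type*} [CommRing 𝒪] [IsDomain 𝒪] [IsPrincipalIdealRing 𝒪]
  {M : Type*} [AddCommGroup M] [Module 𝒪 M] [Module.Free 𝒪 M] [Module.Finite 𝒪 M]

/-- submodules of finite free modules over a PID are free. -/
theorem s30s_free (E : Submodule 𝒪 M) : Module.Free 𝒪 E := inferInstance

omit [Module.Free 𝒪 M] in
/-- submodules of finite modules over a PID are finite. -/
theorem s30s_finite (E : Submodule 𝒪 M) : Module.Finite 𝒪 E := inferInstance

omit [IsDomain 𝒪] [IsPrincipalIdealRing 𝒪] [Module.Free 𝒪 M] [Module.Finite 𝒪 M] in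
theorem s30s_nontrivial_of_mem (E : Submodule 𝒪 M) {v : M} (hv : v ∈ E) (hv0 : v ≠ 0) :
    Nontrivial E :=
  ⟨⟨⟨v, hv⟩, 0, fun h => hv0 (congrArg Subtype.val h)⟩⟩

end Lattice

section BaseChange

open scoped TensorProduct

variable {R₀ : Type} [CommRing R₀] {Λ : Type} [AddCommGroup Λ] [Module R₀ Λ]
  (𝒪 : Type) [CommRing 𝒪] [Algebra R₀ 𝒪]

/-- base change of a representation. -/
noncomputable def s30s_baseChange (ρ : s29k_G →* Module.End R₀ Λ) :
    s29k_G →* Module.End 𝒪 (𝒪 ⊗[R₀] Λ) where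
  toFun σ := (ρ σ).baseChange 𝒪
  map_one' := by rw [map_one, LinearMap.baseChange_one]
  map_mul' σ τ := by rw [map_mul, LinearMap.baseChange_mul]

@[simp] theorem s30s_baseChange_apply (ρ : s29k_G →* Module.End R₀ Λ) (σ : s29k_G) :
    s30s_baseChange 𝒪 ρ σ = (ρ σ).baseChange 𝒪 := rfl

theorem s30s_baseChange_eq_one (ρ : s29k_G →* Module.End R₀ Λ) {σ : s29k_G} (h : ρ σ = 1) :
    s30s_baseChange 𝒪 ρ σ = 1 := by
  rw [s30s_baseChange_apply, h, LinearMap.baseChange_one]

theorem s30s_baseChange_commute {f g : Module.End R₀ Λ} (h : Commute f g) :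
    Commute (f.baseChange 𝒪) (g.baseChange 𝒪) := by
  unfold Commute SemiconjBy
  rw [← LinearMap.baseChange_mul, ← LinearMap.baseChange_mul, h.eq]

/-- the quadratic relation after base change. -/
theorem s30s_baseChange_quad {f T : Module.End R₀ Λ} {b : R₀}
    (hq : f * f - T * f + b • (1 : Module.End R₀ Λ) = 0) :
    f.baseChange 𝒪 * f.baseChange 𝒪 - T.baseChange 𝒪 * f.baseChange 𝒪 +
      algebraMap R₀ 𝒪 b • (1 : Module.End 𝒪 (𝒪 ⊗[R₀] Λ)) = 0 := by
  have h1 := congrArg (LinearMap.baseChange 𝒪) hq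
  rw [LinearMap.baseChange_add, LinearMap.baseChange_sub, LinearMap.baseChange_mul,
    LinearMap.baseChange_mul, LinearMap.baseChange_smul, LinearMap.baseChange_one,
    LinearMap.baseChange_zero] at h1
  rw [← h1, algebraMap_smul]

/-- adic continuity after base change, from the `cont` shape of the Tate datum. -/
theorem s30s_baseChange_adicContinuous [IsLocalRing 𝒪] (ρ : s29k_G →* Module.End R₀ Λ) (π₀ : R₀)
    (hπ : algebraMap R₀ 𝒪 π₀ ∈ maximalIdeal 𝒪)
    (hcont : ∀ k : ℕ, ∃ L : IntermediateField ℚ (AlgebraicClosure ℚ), FiniteDimensional ℚ L ∧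
      ∀ σ : s29k_G, (∀ x ∈ L, σ x = x) → ∀ v : Λ, ∃ w : Λ, ρ σ v - v = π₀ ^ k • w) :
    GaloisActionIsAdicContinuous 𝒪 (s30s_baseChange 𝒪 ρ) := by
  intro n
  obtain ⟨L, hL, h⟩ := hcont n
  refine ⟨L, hL, fun σ hσ v => ?_⟩
  rw [s30s_baseChange_apply]
  induction v using TensorProduct.induction_on with
  | zero => rw [map_zero, sub_zero]; exact Submodule.zero_mem _
  | tmul a v =>
    obtain ⟨w, hw⟩ := h σ hσ v
    rw [LinearMap.baseChange_tmul, ← TensorProduct.tmul_sub, hw, TensorProduct.tmul_smul,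
      ← algebraMap_smul 𝒪 (π₀ ^ n) (a ⊗ₜ[R₀] w), map_pow]
    exact Submodule.smul_mem_smul (Ideal.pow_mem_pow hπ n) Submodule.mem_top
  | add x y hx hy =>
    rw [map_add, add_sub_add_comm]
    exact Submodule.add_mem _ hx hy

end BaseChange

end Fermat.Agent.Lib.S30
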