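/-
Plan L (S30), package [TATE], final assembly (helper5):

  `s30u_tateDatum N p : s30_TateDatum N p`

with `Λ := T_p J₀(N) = s30a_TJ N p` (helper1's TateMod/TateGal), `T := s30a_Tz N p` (helper6's TateHecke),
the finite-free instances and the ruler `κ_∞` of TateKinf, and the field `eig` by helper3's
`s30e_eig_tate` (EigTate).
-/
import Fermat.Agent.Lib.S30.TateKinf
import Fermat.Agent.Lib.S30.EigTate

set_option autoImplicit false

open AlgebraicCurve ModularCurve CongruenceSubgroup

namespace Fermat.Agent.Lib.S30

open Fermat.Agent.Lib.S29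

noncomputable section

/-- **[TATE]**: the Tate module datum of `J₀(N)` at `p`. -/
def s30u_tateDatum (N p : ℕ) [NeZero N] [Fact p.Prime] : s30_TateDatum N p where
  Λ := s30a_TJ N p
  ρ := s30a_rho N p
  T := s30a_Tz N p
  T_comm := s30a_Tz_T_comm N p
  comm := s30a_Tz_comm N p
  cont := s30a_cont N p
  unram := s30a_unram N p
  frobQuad := s30a_Tz_frobQuad N p
  eig := s30e_eig_tate N p (s30u_kinf N p) (s30u_kinf_spec N p)

end

end Fermat.Agent.Lib.S30
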