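/-
Plan L (S30), package [TWOC] (owner: helper9): the `[TWO]` contract in its complex-conjugation
form from Wiles' construction `[WIL]` and the lattice lemma `[LATT]`.

`s30t2_twoC_of : s30_WilContract → s30_LattContract → s30_TwoContractC`.

* `s30t2_t_congr` : if `σ` acts trivially modulo an ideal `I` (through `ρ` and `d`), then
  `t (σ * h) ≡ t h` and `t (h * σ) ≡ t h` modulo `I` for every `h`;
* `s30t2_act` : the action of `G` on a stable lattice `Λ' ⊆ K²` through `ρ' : G →* M₂(K)`;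
* continuity of `s30t2_act` from the sandwich `𝒪² ⊆ Λ' ⊆ m⁻¹ 𝒪²` and the approximation property
  of `[WIL]`; the exact version for elements acting trivially; characteristic polynomials.
-/
import Mathlib
import Fermat.Agent.Lib.S30.LIface2
import Fermat.Agent.Lib.S30.TwoCIface
import Fermat.Agent.Lib.S30.Dens

set_option autoImplicit false

open Polynomial IsLocalRing

namespace Fermat.Agent.Lib.S30

open Fermat.Agent.Lib.S29

section Scalars

variable {R : Type*} [CommRing R] {M : Type*} [AddCommGroup M] [Module R M]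

/-- extraction of scalars modulo an ideal on a nontrivial free module. -/
theorem s30t2_scalar_mem [Module.Free R M] [Nontrivial M] (I : Ideal R) (s : R)
    (h : ∀ v : M, s • v ∈ I • (⊤ : Submodule R M)) : s ∈ I := by
  classical
  set b := Module.Free.chooseBasis R M with hb
  have hne : Nonempty (Module.Free.ChooseBasisIndex R M) := by
    by_contra hne
    rw [not_nonempty_iff] at hne
    have hsub : Subsingleton M := b.repr.toEquiv.subsingleton
    exact not_subsingleton M hsub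
  obtain ⟨i⟩ := hne
  have h1 := s30d_repr_mem_of_mem_smul_top b I (h (b i)) i
  rwa [map_smul, Finsupp.smul_apply, b.repr_self, Finsupp.single_eq_same, smul_eq_mul,
    mul_one] at h1

end Scalars

section Cong

variable {𝒪 : Type} [CommRing 𝒪] {Λ : Type} [AddCommGroup Λ] [Module 𝒪 Λ]
  (ρ : s29k_G →* Module.End 𝒪 Λ) (d : s29k_G →* 𝒪ˣ) (t : s29k_G → 𝒪)
  (hrel : ∀ g : s29k_G, ρ g + ((d g : 𝒪ˣ) : 𝒪) • ρ g⁻¹ = t g • (1 : Module.End 𝒪 Λ))

include hrel in
theorem s30t2_rel_apply (g : s29k_G) (v : Λ) :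
    t g • v = ρ g v + ((d g : 𝒪ˣ) : 𝒪) • ρ g⁻¹ v := by
  have := congrArg (fun f : Module.End 𝒪 Λ => f v) (hrel g)
  simp only [LinearMap.add_apply, LinearMap.smul_apply, Module.End.one_apply] at this
  exact this.symm

include hrel in
/-- if `σ` acts trivially modulo `I`, then `t (σ * h) ≡ t h` and `t (h * σ) ≡ t h` modulo `I`. -/
theorem s30t2_t_congr [Module.Free 𝒪 Λ] [Nontrivial Λ] (I : Ideal 𝒪) (σ : s29k_G)
    (h1 : ∀ v : Λ, ρ σ v - v ∈ I • (⊤ : Submodule 𝒪 Λ))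
    (h1' : ∀ v : Λ, ρ σ⁻¹ v - v ∈ I • (⊤ : Submodule 𝒪 Λ))
    (h2 : ((d σ : 𝒪ˣ) : 𝒪) - 1 ∈ I) (h : s29k_G) :
    t (σ * h) - t h ∈ I ∧ t (h * σ) - t h ∈ I := by
  constructor
  · apply s30t2_scalar_mem (M := Λ) I
    intro v
    have key : (t (σ * h) - t h) • v = (ρ σ (ρ h v) - ρ h v) +
        ((d h : 𝒪ˣ) : 𝒪) • ((((d σ : 𝒪ˣ) : 𝒪) - 1) • ρ h⁻¹ (ρ σ⁻¹ v) +
          ρ h⁻¹ (ρ σ⁻¹ v - v)) := by
      rw [sub_smul, s30t2_rel_apply ρ d t hrel (σ * h) v, s30t2_rel_apply ρ d t hrel h v,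
        map_mul, mul_inv_rev, map_mul, map_mul, Units.val_mul]
      simp only [Module.End.mul_apply, map_sub, smul_sub, smul_add, sub_smul, one_smul, mul_smul]
      rw [smul_comm ((d σ : 𝒪ˣ) : 𝒪) ((d h : 𝒪ˣ) : 𝒪)]
      abel
    rw [key]
    refine Submodule.add_mem _ (h1 _) (Submodule.smul_mem _ _ (Submodule.add_mem _ ?_ ?_))
    · exact Submodule.smul_mem_smul h2 Submodule.mem_top
    · exact s30d_map_mem_smul_top _ _ (h1' v)
  · apply s30t2_scalar_mem (M := Λ) I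
    intro v
    have key : (t (h * σ) - t h) • v = ρ h (ρ σ v - v) +
        ((d h : 𝒪ˣ) : 𝒪) • ((((d σ : 𝒪ˣ) : 𝒪) - 1) • ρ σ⁻¹ (ρ h⁻¹ v) +
          (ρ σ⁻¹ (ρ h⁻¹ v) - ρ h⁻¹ v)) := by
      rw [sub_smul, s30t2_rel_apply ρ d t hrel (h * σ) v, s30t2_rel_apply ρ d t hrel h v,
        map_mul, mul_inv_rev, map_mul, map_mul, Units.val_mul]
      simp only [Module.End.mul_apply, map_sub, smul_sub, smul_add, sub_smul, one_smul, mul_smul]
      abel
    rw [key]
    refine Submodule.add_mem _ (s30d_map_mem_smul_top _ _ (h1 v))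
      (Submodule.smul_mem _ _ (Submodule.add_mem _ ?_ (h1' _)))
    exact Submodule.smul_mem_smul h2 Submodule.mem_top

include hrel in
/-- the exact version: elements acting trivially do not change `t`. -/
theorem s30t2_t_eq [Module.Free 𝒪 Λ] [Nontrivial Λ] (g : s29k_G) (hg : ρ g = 1) (hdg : d g = 1)
    (h : s29k_G) : t (g * h) = t h ∧ t (h * g) = t h := by
  have hg' : ρ g⁻¹ = 1 := by
    have h1 : ρ g⁻¹ * ρ g = 1 := by rw [← map_mul, inv_mul_cancel, map_one]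
    rwa [hg, mul_one] at h1
  have h0 : ∀ x : Λ, x ∈ (⊥ : Ideal 𝒪) • (⊤ : Submodule 𝒪 Λ) ↔ x = 0 := by
    intro x
    rw [Submodule.bot_smul, Submodule.mem_bot]
  obtain ⟨ha, hb⟩ := s30t2_t_congr ρ d t hrel ⊥ g
    (fun v => by rw [hg, Module.End.one_apply, sub_self]; exact Submodule.zero_mem _)
    (fun v => by rw [hg', Module.End.one_apply, sub_self]; exact Submodule.zero_mem _)
    (by rw [hdg, Units.val_one, sub_self]; exact Submodule.zero_mem _) h
  exact ⟨sub_eq_zero.mp ha, sub_eq_zero.mp hb⟩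

end Cong

section Act

variable {𝒪 : Type} [CommRing 𝒪] {K : Type} [Field K] [Algebra 𝒪 K]
  (ρ' : s29k_G →* Matrix (Fin 2) (Fin 2) K) (Λ' : Submodule 𝒪 (Fin 2 → K))
  (hstab : ∀ g : s29k_G, ∀ v ∈ Λ', (ρ' g).mulVec v ∈ Λ')

/-- the action of `G` on a stable lattice through a matrix representation. -/
noncomputable def s30t2_act : s29k_G →* Module.End 𝒪 Λ' where
  toFun g := ((Matrix.mulVecLin (ρ' g)).restrictScalars 𝒪).restrict (hstab g)
  map_one' := by
    apply LinearMap.ext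
    intro v
    apply Subtype.ext
    simp
  map_mul' g h := by
    apply LinearMap.ext
    intro v
    apply Subtype.ext
    simp [Module.End.mul_apply]

@[simp] theorem s30t2_act_coe (g : s29k_G) (v : Λ') :
    ((s30t2_act ρ' Λ' hstab g v : Λ') : Fin 2 → K) = (ρ' g).mulVec (v : Fin 2 → K) := rfl

theorem s30t2_act_eq_one {g : s29k_G} (hg : ρ' g = 1) : s30t2_act ρ' Λ' hstab g = 1 := by
  apply LinearMap.ext
  intro v
  apply Subtype.ext
  rw [s30t2_act_coe, hg, Matrix.one_mulVec]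
  rfl

end Act

section Main

variable {𝒪 : Type} [CommRing 𝒪] [IsDomain 𝒪]
  (ρ' : s29k_G →* Matrix (Fin 2) (Fin 2) (FractionRing 𝒪))
  (Λ' : Submodule 𝒪 (Fin 2 → FractionRing 𝒪))
  (hstab : ∀ g : s29k_G, ∀ v ∈ Λ', (ρ' g).mulVec v ∈ Λ')

/-- the sandwich estimate: if `m • (ρ' σ - 1)` has entries in `(m * m * ϖ ^ n)`, then
`ρ' σ - 1` maps `Λ' ⊆ m⁻¹ 𝒪²` into `ϖ ^ n 𝒪² ⊆ ϖ ^ n Λ'`. -/
theorem s30t2_sandwich (m : 𝒪) (hm : m ≠ 0)
    (hlow : ∀ v : Fin 2 → 𝒪, (fun i => algebraMap 𝒪 (FractionRing 𝒪) (v i)) ∈ Λ')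
    (hup : ∀ v ∈ Λ', ∀ i : Fin 2, ∃ r : 𝒪,
      algebraMap 𝒪 (FractionRing 𝒪) r = algebraMap 𝒪 (FractionRing 𝒪) m * v i)
    (ϖ : 𝒪) (n : ℕ) (σ : s29k_G)
    (hσ : ∀ i j : Fin 2, ∃ r ∈ Ideal.span {m * m * ϖ ^ n},
      algebraMap 𝒪 (FractionRing 𝒪) r = algebraMap 𝒪 (FractionRing 𝒪) m * (ρ' σ - 1) i j)
    (v : Λ') : ∃ w : Λ', s30t2_act ρ' Λ' hstab σ v - v = ϖ ^ n • w := by
  have hm' : algebraMap 𝒪 (FractionRing 𝒪) m ≠ 0 := by
    intro h0
    exact hm ((IsFractionRing.injective 𝒪 (FractionRing 𝒪)) (by rw [h0, map_zero]))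
  choose r hrI hr using hσ
  have hex : ∀ i j, ∃ s : 𝒪, s * (m * m * ϖ ^ n) = r i j := fun i j =>
    Ideal.mem_span_singleton'.mp (hrI i j)
  choose s hs using hex
  have hentry : ∀ i j, (ρ' σ - 1) i j = algebraMap 𝒪 (FractionRing 𝒪) (m * ϖ ^ n * s i j) := by
    intro i j
    apply mul_left_cancel₀ hm'
    rw [← hr i j, ← hs i j, ← map_mul]
    congr 1
    ring
  choose q hq using hup (v : Fin 2 → FractionRing 𝒪) v.2
  refine ⟨⟨fun i => algebraMap 𝒪 (FractionRing 𝒪) (∑ j, s i j * q j), hlow _⟩, ?_⟩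
  apply Subtype.ext
  funext i
  have h1 : ((s30t2_act ρ' Λ' hstab σ v - v : Λ') : Fin 2 → FractionRing 𝒪) i =
      ((ρ' σ - 1).mulVec (v : Fin 2 → FractionRing 𝒪)) i := by
    rw [Submodule.coe_sub, s30t2_act_coe, Matrix.sub_mulVec, Matrix.one_mulVec]
  rw [h1, Matrix.mulVec, dotProduct]
  have h2 : ((ϖ ^ n • (⟨fun i => algebraMap 𝒪 (FractionRing 𝒪) (∑ j, s i j * q j), hlow _⟩ : Λ') :
      Λ') : Fin 2 → FractionRing 𝒪) i =
      algebraMap 𝒪 (FractionRing 𝒪) (ϖ ^ n) *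
        algebraMap 𝒪 (FractionRing 𝒪) (∑ j, s i j * q j) := by
    rw [Submodule.coe_smul, Pi.smul_apply, Algebra.smul_def]
  rw [h2, map_sum, Finset.mul_sum]
  refine Finset.sum_congr rfl fun j _ => ?_
  rw [hentry i j, map_mul (algebraMap 𝒪 (FractionRing 𝒪)) (s i j) (q j), hq j]
  simp only [map_mul]
  ring

end Main

/-- **[TWOC]**: the `[TWO]` contract, form C, from `[WIL]` and `[LATT]`. -/
theorem s30t2_twoC_of (hW : s30_WilContract) (hL : s30_LattContract) : s30_TwoContractC := by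
  intro p _ 𝒪 _ _ _ _ _ _ hp Λ _ _ _ _ _ ρ hρ d hd t hrel c hc hdc
  obtain ⟨ρ', m, hm, htr, hdet, hint, happ⟩ := hW 𝒪 Λ ρ d t hrel c hc hdc
  obtain ⟨Λ', hfin, hfree, hrank, hstab, hlow, hup, hchar⟩ := hL 𝒪 ρ' m hm hint
  have hm' : algebraMap 𝒪 (FractionRing 𝒪) m ≠ 0 := by
    intro h0
    exact hm ((IsFractionRing.injective 𝒪 (FractionRing 𝒪)) (by rw [h0, map_zero]))
  have hcont : GaloisActionIsAdicContinuous 𝒪 (s30t2_act ρ' Λ' hstab) := by
    intro n
    obtain ⟨ϖ, hϖ⟩ := IsDiscreteValuationRing.exists_irreducible 𝒪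
    have hI0 : Ideal.span {m * m * ϖ ^ n} ≠ (⊥ : Ideal 𝒪) := by
      rw [Ne, Ideal.span_singleton_eq_bot]
      exact mul_ne_zero (mul_ne_zero hm hm) (pow_ne_zero n hϖ.ne_zero)
    obtain ⟨N, hN⟩ := IsDiscreteValuationRing.ideal_eq_span_pow_irreducible hI0 hϖ
    have hmax : maximalIdeal 𝒪 ^ N = Ideal.span {m * m * ϖ ^ n} := by
      rw [hN, hϖ.maximalIdeal_eq, Ideal.span_singleton_pow]
    obtain ⟨L, hLfd, -, hlev⟩ := s30d_exists_level ρ d hρ hd N
    refine ⟨L, hLfd, fun σ hσ v => ?_⟩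
    have hσ' : ∀ x ∈ L, σ⁻¹ x = x := by
      intro x hx
      conv_lhs => rw [← hσ x hx]
      exact σ.symm_apply_apply x
    obtain ⟨h1, h2⟩ := hlev σ hσ
    obtain ⟨h1', -⟩ := hlev σ⁻¹ hσ'
    rw [hmax] at h1 h1' h2
    have hcong := fun h => s30t2_t_congr ρ d t hrel _ σ h1 h1' h2 h
    obtain ⟨w, hw⟩ := s30t2_sandwich ρ' Λ' hstab m hm hlow hup ϖ n σ
      (happ _ σ (fun h => (hcong h).1) (fun h => (hcong h).2)) v
    rw [hw]
    refine Submodule.smul_mem_smul (Ideal.pow_mem_pow ?_ n) Submodule.mem_top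
    rw [hϖ.maximalIdeal_eq]
    exact Ideal.mem_span_singleton_self ϖ
  refine ⟨{ V := Λ', finrank_eq := hrank, ρ := s30t2_act ρ' Λ' hstab,
            isAdicContinuous := hcont }, ?_, ?_⟩
  · intro g
    have h1 := hchar g (s30t2_act ρ' Λ' hstab g) (fun v => rfl)
    rw [Matrix.charpoly_fin_two, htr, hdet] at h1
    apply Polynomial.map_injective (algebraMap 𝒪 (FractionRing 𝒪))
      (IsFractionRing.injective 𝒪 (FractionRing 𝒪))
    show Polynomial.map (algebraMap 𝒪 (FractionRing 𝒪))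
      (LinearMap.charpoly (s30t2_act ρ' Λ' hstab g)) = _
    rw [h1]
    simp only [Polynomial.map_add, Polynomial.map_sub, Polynomial.map_mul, Polynomial.map_pow,
      Polynomial.map_X, Polynomial.map_C]
  · intro g hg hdg
    show s30t2_act ρ' Λ' hstab g = 1
    apply s30t2_act_eq_one
    have hteq := fun h => s30t2_t_eq ρ d t hrel g hg hdg h
    ext i j
    obtain ⟨r, hr0, hr⟩ := happ ⊥ g
      (fun h => by rw [(hteq h).1, sub_self]; exact Submodule.zero_mem _)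
      (fun h => by rw [(hteq h).2, sub_self]; exact Submodule.zero_mem _) i j
    rw [Ideal.mem_bot] at hr0
    rw [hr0, map_zero] at hr
    have h3 := (mul_eq_zero.mp hr.symm).resolve_left hm'
    rw [Matrix.sub_apply, sub_eq_zero] at h3
    exact h3

end Fermat.Agent.Lib.S30
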