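/-
Plan L (S30), package [WIL]: **Wiles' construction of a two-dimensional representation from a
quadratic relation** (Wiles 1988, Lemma 2.2.3), in the presence of an odd involution.

Let `R` be a domain with `2 ≠ 0`, `V` a nonzero torsion-free `R`-module with an action `ρ` of a
group `G`, `ε : G →* Rˣ` a character and `t : G → R` a function with
`ρ g + ε g • ρ g⁻¹ = t g • 1` for every `g`.  Let `c ∈ G` with `c * c = 1` and `ε c = -1`.
Then `t` satisfies the identities of a two-dimensional pseudo-character, and with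
`A g = t g + t (g c)`, `D g = t g - t (g c)`, `X g h = 2 A (g h) - A g * A h` the matrices
`!![A g / 2, X g h₀ / 4; X g₀ g / X g₀ h₀, D g / 2]` form a representation over any field
containing `R`, with trace `t` and determinant `ε` (`s30w_main`).  No field extension is needed.
Mathlib only.
-/
import Mathlib

set_option autoImplicit false

noncomputable section

namespace Fermat.Agent.Lib.S30

open Polynomial Module

open Polynomial Module

section Scalars

variable {R : Type*} [CommRing R] {G : Type*} [Group G]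

/-- Twice the upper left entry of Wiles' construction. -/
def s30w_A (t : G → R) (c : G) (g : G) : R := t g + t (g * c)

/-- Twice the lower right entry of Wiles' construction. -/
def s30w_D (t : G → R) (c : G) (g : G) : R := t g - t (g * c)

/-- Four times the product `b(g) c(h)` of the off-diagonal entries. -/
def s30w_X (t : G → R) (c : G) (g h : G) : R :=
  2 * s30w_A t c (g * h) - s30w_A t c g * s30w_A t c h

/-- The analogue of `s30w_X` for the lower right corner. -/
def s30w_Y (t : G → R) (c : G) (g h : G) : R :=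
  2 * s30w_D t c (g * h) - s30w_D t c g * s30w_D t c h

variable {V : Type*} [AddCommGroup V] [Module R V]

theorem s30w_cancel [IsDomain R] [Module.IsTorsionFree R V] {a b : R} {f : Module.End R V}
    (hf : f ≠ 0) (h : a • f = b • f) : a = b := by
  obtain ⟨v, hv⟩ : ∃ v, f v ≠ 0 := by
    by_contra hcon
    push Not at hcon
    exact hf (LinearMap.ext hcon)
  have h1 := congrArg (fun f : Module.End R V => f v) h
  simp only [LinearMap.smul_apply] at h1
  have : (a - b) • f v = 0 := by rw [sub_smul, h1, sub_self]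
  rcases smul_eq_zero.mp this with h2 | h2
  · exact sub_eq_zero.mp h2
  · exact absurd h2 hv

theorem s30w_smul_one_inj [IsDomain R] [Module.IsTorsionFree R V] [Nontrivial V] {a b : R}
    (h : a • (1 : Module.End R V) = b • 1) : a = b :=
  s30w_cancel one_ne_zero h

variable {ρ : G →* Module.End R V} {ε : G →* Rˣ} {t : G → R}

theorem s30w_t_one [IsDomain R] [Module.IsTorsionFree R V] [Nontrivial V]
    (h : ∀ g, ρ g + (ε g : R) • ρ g⁻¹ = t g • 1) : t 1 = 2 := by
  apply s30w_smul_one_inj (V := V)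
  rw [← h 1, inv_one, map_one, map_one, Units.val_one, one_smul, two_smul]

theorem s30w_t_c [IsDomain R] [Module.IsTorsionFree R V] [Nontrivial V]
    (h : ∀ g, ρ g + (ε g : R) • ρ g⁻¹ = t g • 1)
    {c : G} (hc : c * c = 1) (hεc : ε c = -1) : t c = 0 := by
  apply s30w_smul_one_inj (V := V)
  have hci : c⁻¹ = c := inv_eq_of_mul_eq_one_left hc
  rw [← h c, hci, hεc, zero_smul, Units.val_neg, Units.val_one, neg_smul, one_smul, add_neg_cancel]

theorem s30w_t_comm [IsDomain R] [Module.IsTorsionFree R V] [Nontrivial V]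
    (h : ∀ g, ρ g + (ε g : R) • ρ g⁻¹ = t g • 1) (g g' : G) :
    t (g * g') = t (g' * g) := by
  apply s30w_smul_one_inj (V := V)
  have h1 := congrArg (fun z => ρ g⁻¹ * z * ρ g) (h (g * g'))
  simp only [mul_add, add_mul, mul_smul_comm, smul_mul_assoc, mul_one] at h1
  rw [← map_mul, ← map_mul, ← map_mul, ← map_mul, ← map_mul] at h1
  have e1 : g⁻¹ * (g * g') * g = g' * g := by group
  have e2 : g⁻¹ * (g * g')⁻¹ * g = (g' * g)⁻¹ := by group
  have e3 : g⁻¹ * g = 1 := by group
  rw [e1, e2, e3, map_one] at h1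
  have e4 : ε (g * g') = ε (g' * g) := by rw [map_mul, map_mul, mul_comm]
  rw [e4, h (g' * g)] at h1
  exact h1.symm

/-- The relation, in the form `ε g • ρ g⁻¹ = t g • 1 - ρ g`. -/
theorem s30w_inv_eq (h : ∀ g, ρ g + (ε g : R) • ρ g⁻¹ = t g • 1) (g : G) :
    (ε g : R) • ρ g⁻¹ = t g • 1 - ρ g := by
  rw [← h g]; abel

/-- The pseudo-character identity. -/
theorem s30w_t_mul [IsDomain R] [Module.IsTorsionFree R V] [Nontrivial V]
    (h : ∀ g, ρ g + (ε g : R) • ρ g⁻¹ = t g • 1) (g g' : G) :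
    t g * t g' = t (g * g') + (ε g' : R) * t (g * g'⁻¹) := by
  apply s30w_smul_one_inj (V := V)
  -- `ρ (g g') + ε g' • ρ (g g'⁻¹) = t g' • ρ g`
  have h1 : ρ (g * g') + (ε g' : R) • ρ (g * g'⁻¹) = t g' • ρ g := by
    rw [map_mul, map_mul, ← mul_smul_comm, ← mul_add, h g', mul_smul_comm, mul_one]
  -- the same for the inverses, multiplied by `ε (g g')`
  have h2 : ((ε (g * g') : Rˣ) : R) • ρ (g * g')⁻¹ +
      (ε g' : R) • (((ε (g * g'⁻¹) : Rˣ) : R) • ρ (g * g'⁻¹)⁻¹) = t g' • ((ε g : R) • ρ g⁻¹) := by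
    have e1 : (g * g')⁻¹ = g'⁻¹ * g⁻¹ := mul_inv_rev g g'
    have e2 : (g * g'⁻¹)⁻¹ = g' * g⁻¹ := by rw [mul_inv_rev, inv_inv]
    have e3 : ((ε (g * g'⁻¹) : Rˣ) : R) * (ε g' : R) = (ε g : R) := by
      rw [← Units.val_mul, ← map_mul, inv_mul_cancel_right]
    rw [e1, e2, map_mul ρ, map_mul ρ, smul_smul, mul_comm (ε g' : R), e3, map_mul ε, Units.val_mul,
      mul_comm (ε g : R), ← smul_smul]
    rw [smul_comm (ε g' : R) (ε g : R), ← smul_add (ε g : R), ← smul_mul_assoc, ← add_mul, add_comm,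
      h g', smul_mul_assoc, one_mul, smul_comm]
  calc (t g * t g') • (1 : Module.End R V)
      = t g' • (ρ g + (ε g : R) • ρ g⁻¹) := by rw [h g, smul_smul, mul_comm]
    _ = (ρ (g * g') + ((ε (g * g') : Rˣ) : R) • ρ (g * g')⁻¹) +
          (ε g' : R) • (ρ (g * g'⁻¹) + ((ε (g * g'⁻¹) : Rˣ) : R) • ρ (g * g'⁻¹)⁻¹) := by
        rw [smul_add (t g'), ← h1, ← h2, smul_add (ε g' : R)]; abel
    _ = (t (g * g') + (ε g' : R) * t (g * g'⁻¹)) • 1 := by
        rw [h (g * g'), h (g * g'⁻¹), smul_smul, ← add_smul]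

end Scalars

section Ident

variable {R : Type*} [CommRing R] {G : Type*} [Group G]

/-- The identities among the values of `t` which make Wiles' matrices a representation. -/
structure s30w_Ident (t : G → R) (e : G → R) (c : G) : Prop where
  t_one : t 1 = 2
  t_c : t c = 0
  comm : ∀ g k, t (g * k) = t (k * g)
  det : ∀ g, s30w_A t c g * s30w_D t c g - s30w_X t c g g = 4 * e g
  r1 : ∀ g k g' k',
    s30w_X t c g k * s30w_X t c g' k' = s30w_X t c g' k * s30w_X t c g k'
  m12 : ∀ g k l, 2 * s30w_X t c (g * k) l =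
    s30w_A t c g * s30w_X t c k l + s30w_D t c k * s30w_X t c g l
  m21 : ∀ l g k, 2 * s30w_X t c l (g * k) =
    s30w_X t c l g * s30w_A t c k + s30w_D t c g * s30w_X t c l k
  sym : ∀ g k, s30w_Y t c g k = s30w_X t c k g

theorem s30w_A_map {S : Type*} [CommRing S] (f : R →+* S) (t : G → R) (c g : G) :
    s30w_A (fun x => f (t x)) c g = f (s30w_A t c g) := by
  simp only [s30w_A, map_add]

theorem s30w_D_map {S : Type*} [CommRing S] (f : R →+* S) (t : G → R) (c g : G) :
    s30w_D (fun x => f (t x)) c g = f (s30w_D t c g) := by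
  simp only [s30w_D, map_sub]

theorem s30w_X_map {S : Type*} [CommRing S] (f : R →+* S) (t : G → R) (c g k : G) :
    s30w_X (fun x => f (t x)) c g k = f (s30w_X t c g k) := by
  simp only [s30w_X, s30w_A_map, map_sub, map_mul, map_ofNat]

theorem s30w_Y_map {S : Type*} [CommRing S] (f : R →+* S) (t : G → R) (c g k : G) :
    s30w_Y (fun x => f (t x)) c g k = f (s30w_Y t c g k) := by
  simp only [s30w_Y, s30w_D_map, map_sub, map_mul, map_ofNat]

theorem s30w_Ident.map {S : Type*} [CommRing S] (f : R →+* S) {t e : G → R} {c : G}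
    (H : s30w_Ident t e c) : s30w_Ident (fun x => f (t x)) (fun x => f (e x)) c where
  t_one := by simp only [H.t_one, map_ofNat]
  t_c := by simp only [H.t_c, map_zero]
  comm g k := by simp only [H.comm g k]
  det g := by
    have := congrArg f (H.det g)
    simpa only [s30w_A_map, s30w_D_map, s30w_X_map, map_mul, map_sub, map_ofNat] using this
  r1 g k g' k' := by simp only [s30w_X_map, ← map_mul, H.r1 g k g' k']
  m12 g k l := by
    have := congrArg f (H.m12 g k l)
    simpa only [s30w_A_map, s30w_D_map, s30w_X_map, map_mul, map_add, map_ofNat] using this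
  m21 l g k := by
    have := congrArg f (H.m21 l g k)
    simpa only [s30w_A_map, s30w_D_map, s30w_X_map, map_mul, map_add, map_ofNat] using this
  sym g k := by simp only [s30w_Y_map, s30w_X_map, H.sym g k]

end Ident

section Corner

variable {R : Type*} [CommRing R] {E : Type*} [Ring E] [Algebra R E]

theorem s30w_PuP {u P : E} {a b : R} (hP : P * P = 1)
    (hpol : u * P + P * u = a • P + b • 1) : P * u * P = a • 1 + b • P - u := by
  have h1 := congrArg (fun z => P * z) hpol
  simp only [mul_add, mul_smul_comm, mul_one, ← mul_assoc, hP, one_mul] at h1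
  rw [← h1]; abel

theorem s30w_corner_plus {u P : E} {a b : R} (hP : P * P = 1)
    (hpol : u * P + P * u = a • P + b • 1) :
    (1 + P) * u * (1 + P) = (a + b) • (1 + P) := by
  have h2 := s30w_PuP hP hpol
  calc (1 + P) * u * (1 + P) = u + (u * P + P * u) + P * u * P := by noncomm_ring
    _ = (a + b) • (1 + P) := by rw [hpol, h2]; module

theorem s30w_corner_minus {u P : E} {a b : R} (hP : P * P = 1)
    (hpol : u * P + P * u = a • P + b • 1) :
    (1 - P) * u * (1 - P) = (a - b) • (1 - P) := by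
  have h2 := s30w_PuP hP hpol
  calc (1 - P) * u * (1 - P) = u - (u * P + P * u) + P * u * P := by noncomm_ring
    _ = (a - b) • (1 - P) := by rw [hpol, h2]; module

end Corner

section Ops

variable {R : Type*} [CommRing R] {E : Type*} [Ring E] [Algebra R E] {G : Type*} [Group G]
  (u : G →* E) {Ep Em : E} (hsum : Ep + Em = 2) {A D : G → R}
  (hA : ∀ g, Ep * u g * Ep = A g • Ep) (hD : ∀ g, Em * u g * Em = D g • Em)

include hsum hA in
theorem s30w_O3 (g h : G) :
    Ep * u g * Em * u h * Ep = (2 * A (g * h) - A g * A h) • Ep := by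
  have hEm : Em = 2 - Ep := eq_sub_of_add_eq' hsum
  calc Ep * u g * Em * u h * Ep
      = 2 • (Ep * (u g * u h) * Ep) - (Ep * u g * Ep) * u h * Ep := by rw [hEm]; noncomm_ring
    _ = (2 * A (g * h) - A g * A h) • Ep := by
        rw [← map_mul, hA, hA, smul_mul_assoc, smul_mul_assoc, hA]; module

include hsum hD in
theorem s30w_O4 (g h : G) :
    Em * u g * Ep * u h * Em = (2 * D (g * h) - D g * D h) • Em := by
  have hEp : Ep = 2 - Em := eq_sub_of_add_eq hsum
  calc Em * u g * Ep * u h * Em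
      = 2 • (Em * (u g * u h) * Em) - (Em * u g * Em) * u h * Em := by rw [hEp]; noncomm_ring
    _ = (2 * D (g * h) - D g * D h) • Em := by
        rw [← map_mul, hD, hD, smul_mul_assoc, smul_mul_assoc, hD]; module

include hsum hA hD in
theorem s30w_R1op (g h g' h' : G) :
    ((2 * A (g * h) - A g * A h) * (2 * A (g' * h') - A g' * A h')) • Ep =
      ((2 * D (h * g') - D h * D g') * (2 * A (g * h') - A g * A h')) • Ep := by
  have e1 : Ep * u g * Em * u h * Ep * u g' * Em * u h' * Ep =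
      ((2 * A (g * h) - A g * A h) * (2 * A (g' * h') - A g' * A h')) • Ep := by
    rw [s30w_O3 u hsum hA g h]
    simp only [smul_mul_assoc]
    rw [s30w_O3 u hsum hA g' h', smul_smul]
  have e2 : Ep * u g * Em * u h * Ep * u g' * Em * u h' * Ep =
      ((2 * D (h * g') - D h * D g') * (2 * A (g * h') - A g * A h')) • Ep := by
    have : Ep * u g * Em * u h * Ep * u g' * Em * u h' * Ep =
        Ep * u g * (Em * u h * Ep * u g' * Em) * u h' * Ep := by noncomm_ring
    rw [this, s30w_O4 u hsum hD h g']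
    simp only [mul_smul_comm, smul_mul_assoc]
    rw [s30w_O3 u hsum hA g h', smul_smul]
  rw [← e1, e2]

include hsum hA hD in
theorem s30w_M12op (g h k : G) :
    (2 * (2 * A (g * h * k) - A (g * h) * A k)) • Ep =
      (A g * (2 * A (h * k) - A h * A k) + D h * (2 * A (g * k) - A g * A k)) • Ep := by
  have e1 : 2 • (Ep * u (g * h) * Em * u k * Ep) =
      (2 * (2 * A (g * h * k) - A (g * h) * A k)) • Ep := by
    rw [s30w_O3 u hsum hA (g * h) k]; module
  have e2 : 2 • (Ep * u (g * h) * Em * u k * Ep) =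
      (Ep * u g * Ep) * (u h * Em * u k * Ep) + Ep * u g * (Em * u h * Em) * u k * Ep := by
    have h2 : (2 : E) = Ep + Em := hsum.symm
    rw [map_mul]
    calc 2 • (Ep * (u g * u h) * Em * u k * Ep)
        = Ep * u g * 2 * u h * Em * u k * Ep := by noncomm_ring
      _ = _ := by rw [h2]; noncomm_ring
  rw [← e1, e2, hA, hD]
  simp only [mul_smul_comm, smul_mul_assoc]
  rw [← mul_assoc, ← mul_assoc, ← mul_assoc, s30w_O3 u hsum hA h k, s30w_O3 u hsum hA g k]
  module

include hsum hA hD in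
theorem s30w_M21op (k g h : G) :
    (2 * (2 * A (k * (g * h)) - A k * A (g * h))) • Ep =
      ((2 * A (k * g) - A k * A g) * A h + D g * (2 * A (k * h) - A k * A h)) • Ep := by
  have e1 : 2 • (Ep * u k * Em * u (g * h) * Ep) =
      (2 * (2 * A (k * (g * h)) - A k * A (g * h))) • Ep := by
    rw [s30w_O3 u hsum hA k (g * h)]; module
  have e2 : 2 • (Ep * u k * Em * u (g * h) * Ep) =
      (Ep * u k * Em * u g * Ep) * (u h * Ep) + Ep * u k * (Em * u g * Em) * u h * Ep := by
    have h2 : (2 : E) = Ep + Em := hsum.symm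
    rw [map_mul]
    calc 2 • (Ep * u k * Em * (u g * u h) * Ep)
        = Ep * u k * Em * u g * 2 * u h * Ep := by noncomm_ring
      _ = _ := by rw [h2]; noncomm_ring
  rw [← e1, e2, s30w_O3 u hsum hA k g, hD]
  simp only [mul_smul_comm, smul_mul_assoc]
  rw [← mul_assoc, hA, s30w_O3 u hsum hA k h]
  module

end Ops

section Main

variable {R : Type*} [CommRing R] {G : Type*} [Group G]
  {V : Type*} [AddCommGroup V] [Module R V]
  {ρ : G →* Module.End R V} {ε : G →* Rˣ} {t : G → R}
  (h : ∀ g, ρ g + (ε g : R) • ρ g⁻¹ = t g • 1) {c : G} (hc : c * c = 1) (hεc : ε c = -1)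

include hc in
theorem s30w_P_sq : ρ c * ρ c = 1 := by rw [← map_mul, hc, map_one]

include h hc hεc in
theorem s30w_pol (g : G) : ρ g * ρ c + ρ c * ρ g = t g • ρ c + t (g * c) • 1 := by
  have hci : c⁻¹ = c := inv_eq_of_mul_eq_one_left hc
  have h1 := h (g * c)
  rw [mul_inv_rev, hci, map_mul ρ, map_mul ρ, map_mul ε, hεc, Units.val_mul, Units.val_neg,
    Units.val_one, mul_neg, mul_one, neg_smul, ← mul_smul_comm, s30w_inv_eq h g, mul_sub,
    mul_smul_comm, mul_one] at h1
  rw [← h1]; abel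

include h hc hεc in
theorem s30w_hA (g : G) : (1 + ρ c) * ρ g * (1 + ρ c) = s30w_A t c g • (1 + ρ c) :=
  s30w_corner_plus (s30w_P_sq hc) (s30w_pol h hc hεc g)

include h hc hεc in
theorem s30w_hD (g : G) : (1 - ρ c) * ρ g * (1 - ρ c) = s30w_D t c g • (1 - ρ c) :=
  s30w_corner_minus (s30w_P_sq hc) (s30w_pol h hc hεc g)

theorem s30w_hsum : (1 + ρ c) + (1 - ρ c) = 2 := by
  rw [add_add_sub_cancel, one_add_one_eq_two]

variable [IsDomain R] [Module.IsTorsionFree R V] [Nontrivial V]

include h hc hεc in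
/-- The symmetry `y(g,k) = x(k,g)`. -/
theorem s30w_S (g k : G) : s30w_Y t c g k = s30w_X t c k g := by
  have hci : c⁻¹ = c := inv_eq_of_mul_eq_one_left hc
  have e1 : t g * t (k * c) = t (g * (k * c)) - (ε k : R) * t (g * (c * k⁻¹)) := by
    have := s30w_t_mul h g (k * c)
    rw [mul_inv_rev, hci, map_mul, hεc, Units.val_mul, Units.val_neg, Units.val_one] at this
    rw [this]; ring
  have e2 : t (g * c) * t k = t (g * (c * k)) + (ε k : R) * t (g * (c * k⁻¹)) := by
    have := s30w_t_mul h (g * c) k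
    rw [mul_assoc, mul_assoc] at this
    exact this
  have e3 : t (g * k) = t (k * g) := s30w_t_comm h g k
  have e4 : t (g * (c * k)) = t (k * (g * c)) := by
    have := s30w_t_comm h (g * c) k
    rw [mul_assoc] at this
    exact this
  simp only [s30w_Y, s30w_X, s30w_A, s30w_D, mul_assoc]
  linear_combination 2 * e3 + 2 * e1 + 2 * e2 + 2 * e4

include h hc hεc in
/-- The determinant identity. -/
theorem s30w_det (g : G) :
    s30w_A t c g * s30w_D t c g - s30w_X t c g g = 4 * (ε g : R) := by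
  have d1 : t g * t g = t (g * g) + (ε g : R) * 2 := by
    have := s30w_t_mul h g g
    rw [mul_inv_cancel, s30w_t_one h] at this
    exact this
  have d2 : t (g * c) * t g = t (g * (g * c)) := by
    have := s30w_t_mul h (g * c) g
    have e5 : t (g * c * g) = t (g * (g * c)) := s30w_t_comm h (g * c) g
    have e6 : t (g * c * g⁻¹) = 0 := by
      rw [s30w_t_comm h (g * c) g⁻¹, inv_mul_cancel_left, s30w_t_c h hc hεc]
    rw [e5, e6, mul_zero, add_zero] at this
    exact this
  simp only [s30w_X, s30w_A, s30w_D, mul_assoc]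
  linear_combination 2 * d1 + 2 * d2

include h hc hεc in
/-- In the degenerate cases all `x(g,k)` vanish. -/
theorem s30w_X_eq_zero_of_degenerate (h2 : (2 : R) ≠ 0)
    (hdeg : (1 + ρ c = 0) ∨ (1 - ρ c = 0)) (g k : G) : s30w_X t c g k = 0 := by
  rcases hdeg with hp | hm
  · -- `E₊ = 0`, `E₋ = 2`
    have hEm : (1 - ρ c : Module.End R V) = 2 := by
      have := s30w_hsum (ρ := ρ) (c := c)
      rw [hp, zero_add] at this
      exact this
    have h4 := s30w_O4 ρ (s30w_hsum (ρ := ρ) (c := c)) (s30w_hD h hc hεc) k g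
    rw [hp, mul_zero, zero_mul, zero_mul] at h4
    rw [← s30w_S h hc hεc k g]
    have h5 : (s30w_Y t c k g * 2) • (1 : Module.End R V) = (0 : R) • 1 := by
      rw [zero_smul, mul_smul, two_smul, one_add_one_eq_two, ← hEm]
      exact h4.symm
    have := s30w_smul_one_inj h5
    exact (mul_eq_zero.mp this).resolve_right h2
  · have hEp : (1 + ρ c : Module.End R V) = 2 := by
      have := s30w_hsum (ρ := ρ) (c := c)
      rw [hm, add_zero] at this
      exact this
    have h3 := s30w_O3 ρ (s30w_hsum (ρ := ρ) (c := c)) (s30w_hA h hc hεc) g k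
    rw [hm, mul_zero, zero_mul, zero_mul] at h3
    have h5 : (s30w_X t c g k * 2) • (1 : Module.End R V) = (0 : R) • 1 := by
      rw [zero_smul, mul_smul, two_smul, one_add_one_eq_two, ← hEp]
      exact h3.symm
    have := s30w_smul_one_inj h5
    exact (mul_eq_zero.mp this).resolve_right h2

include h hc hεc in
/-- **Wiles' identities** for the function `t`. -/
theorem s30w_ident (h2 : (2 : R) ≠ 0) : s30w_Ident t (fun g => ((ε g : Rˣ) : R)) c := by
  have hsum := s30w_hsum (ρ := ρ) (c := c)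
  have hA := s30w_hA h hc hεc
  have hD := s30w_hD h hc hεc
  refine ⟨s30w_t_one h, s30w_t_c h hc hεc, s30w_t_comm h, s30w_det h hc hεc, ?_, ?_, ?_,
    s30w_S h hc hεc⟩
  · intro g k g' k'
    by_cases hp : (1 + ρ c : Module.End R V) = 0
    · rw [s30w_X_eq_zero_of_degenerate h hc hεc h2 (Or.inl hp) g k,
        s30w_X_eq_zero_of_degenerate h hc hεc h2 (Or.inl hp) g' k, zero_mul, zero_mul]
    · have := s30w_cancel hp (s30w_R1op ρ hsum hA hD g k g' k')
      rw [← s30w_S h hc hεc k g']
      exact this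
  · intro g k l
    by_cases hp : (1 + ρ c : Module.End R V) = 0
    · rw [s30w_X_eq_zero_of_degenerate h hc hεc h2 (Or.inl hp) (g * k) l,
        s30w_X_eq_zero_of_degenerate h hc hεc h2 (Or.inl hp) k l,
        s30w_X_eq_zero_of_degenerate h hc hεc h2 (Or.inl hp) g l, mul_zero, mul_zero, mul_zero,
        add_zero]
    · exact s30w_cancel hp (s30w_M12op ρ hsum hA hD g k l)
  · intro l g k
    by_cases hp : (1 + ρ c : Module.End R V) = 0
    · rw [s30w_X_eq_zero_of_degenerate h hc hεc h2 (Or.inl hp) l (g * k),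
        s30w_X_eq_zero_of_degenerate h hc hεc h2 (Or.inl hp) l g,
        s30w_X_eq_zero_of_degenerate h hc hεc h2 (Or.inl hp) l k, mul_zero, mul_zero, zero_mul,
        add_zero]
    · exact s30w_cancel hp (s30w_M21op ρ hsum hA hD l g k)

end Main

section Mat

variable {K : Type*} [Field K] {G : Type*} [Group G]

/-- Wiles' matrix. -/
def s30w_mat (t : G → K) (c g₀ h₀ g : G) : Matrix (Fin 2) (Fin 2) K :=
  !![s30w_A t c g / 2, s30w_X t c g h₀ / 4;
     s30w_X t c g₀ g / s30w_X t c g₀ h₀, s30w_D t c g / 2]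

variable {t e : G → K} {c : G}

theorem s30w_mat_trace (h2 : (2 : K) ≠ 0) (g₀ h₀ g : G) :
    (s30w_mat t c g₀ h₀ g).trace = t g := by
  rw [Matrix.trace_fin_two]
  simp only [s30w_mat, Matrix.of_apply, Matrix.cons_val', Matrix.cons_val_zero,
    Matrix.cons_val_one, Matrix.cons_val_fin_one, s30w_A, s30w_D]
  field_simp
  ring

theorem s30w_four_ne_zero (h2 : (2 : K) ≠ 0) : (4 : K) ≠ 0 := by
  have : (4 : K) = 2 * 2 := by norm_num
  rw [this]; exact mul_ne_zero h2 h2

theorem s30w_key1 (h2 : (2 : K) ≠ 0) (H : s30w_Ident t e c) {g₀ h₀ : G}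
    (hx : s30w_X t c g₀ h₀ ≠ 0 ∨ ∀ g k, s30w_X t c g k = 0) (g k : G) :
    s30w_X t c g h₀ / 4 * (s30w_X t c g₀ k / s30w_X t c g₀ h₀) = s30w_X t c g k / 4 := by
  have h4 := s30w_four_ne_zero h2
  rcases hx with hx | hx
  · have := H.r1 g h₀ g₀ k
    field_simp
    linear_combination this
  · rw [hx g h₀, hx g k, zero_div, zero_mul]

theorem s30w_mat_det (h2 : (2 : K) ≠ 0) (H : s30w_Ident t e c) {g₀ h₀ : G}
    (hx : s30w_X t c g₀ h₀ ≠ 0 ∨ ∀ g k, s30w_X t c g k = 0) (g : G) :
    (s30w_mat t c g₀ h₀ g).det = e g := by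
  rw [Matrix.det_fin_two]
  simp only [s30w_mat, Matrix.of_apply, Matrix.cons_val', Matrix.cons_val_zero,
    Matrix.cons_val_one, Matrix.cons_val_fin_one]
  rw [s30w_key1 h2 H hx g g]
  have := H.det g
  have h4 := s30w_four_ne_zero h2
  field_simp
  linear_combination 4 * this

theorem s30w_mat_one (h2 : (2 : K) ≠ 0) (H : s30w_Ident t e c) (g₀ h₀ : G) :
    s30w_mat t c g₀ h₀ 1 = 1 := by
  have hA : s30w_A t c 1 = 2 := by rw [s30w_A, one_mul, H.t_one, H.t_c, add_zero]
  have hD : s30w_D t c 1 = 2 := by rw [s30w_D, one_mul, H.t_one, H.t_c, sub_zero]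
  have hX1 : s30w_X t c 1 h₀ = 0 := by rw [s30w_X, one_mul, hA]; ring
  have hX2 : s30w_X t c g₀ 1 = 0 := by rw [s30w_X, mul_one, hA]; ring
  rw [s30w_mat, hA, hD, hX1, hX2, zero_div, zero_div, div_self h2]
  exact Matrix.one_fin_two.symm

theorem s30w_mat_mul (h2 : (2 : K) ≠ 0) (H : s30w_Ident t e c) {g₀ h₀ : G}
    (hx : s30w_X t c g₀ h₀ ≠ 0 ∨ ∀ g k, s30w_X t c g k = 0) (g k : G) :
    s30w_mat t c g₀ h₀ (g * k) = s30w_mat t c g₀ h₀ g * s30w_mat t c g₀ h₀ k := by
  have h4 := s30w_four_ne_zero h2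
  have k1 := s30w_key1 h2 H hx g k
  have k2 := s30w_key1 h2 H hx k g
  have m12 := H.m12 g k h₀
  have m21 := H.m21 g₀ g k
  have sy := H.sym g k
  have dX : s30w_X t c g k = 2 * s30w_A t c (g * k) - s30w_A t c g * s30w_A t c k := rfl
  have dY : s30w_Y t c g k = 2 * s30w_D t c (g * k) - s30w_D t c g * s30w_D t c k := rfl
  rw [s30w_mat, s30w_mat, s30w_mat, Matrix.mul_fin_two]
  congr 1
  ext i j
  fin_cases i <;> fin_cases j
  · simp only [Fin.zero_eta, Fin.isValue, Matrix.cons_val', Matrix.cons_val_zero,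
      Matrix.cons_val_fin_one]
    rw [k1]
    field_simp
    linear_combination (-4) * dX
  · simp only [Fin.zero_eta, Fin.isValue, Fin.mk_one, Matrix.cons_val',
      Matrix.cons_val_zero, Matrix.cons_val_one, Matrix.cons_val_fin_one]
    field_simp
    linear_combination m12
  · simp only [Fin.zero_eta, Fin.isValue, Fin.mk_one, Matrix.cons_val',
      Matrix.cons_val_zero, Matrix.cons_val_one, Matrix.cons_val_fin_one]
    rcases hx with hx | hx
    · field_simp
      linear_combination m21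
    · rw [hx, hx, hx, zero_div, div_zero, zero_mul, mul_zero, add_zero]
  · simp only [Fin.mk_one, Fin.isValue, Matrix.cons_val', Matrix.cons_val_one,
      Matrix.cons_val_fin_one]
    rw [mul_comm (s30w_X t c g₀ g / s30w_X t c g₀ h₀), k2, ← sy, dY]
    field_simp
    ring

end Mat

section Congr

variable {R : Type*} [CommRing R] {G : Type*} [Group G] {t e : G → R} {c : G}

theorem s30w_A_sub_mem (I : Ideal R) {σ : G} (hσ : ∀ g, t (σ * g) - t g ∈ I) (g : G) :
    s30w_A t c (σ * g) - s30w_A t c g ∈ I := by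
  have h1 := hσ g
  have h2 := hσ (g * c)
  rw [← mul_assoc] at h2
  have : s30w_A t c (σ * g) - s30w_A t c g =
      (t (σ * g) - t g) + (t (σ * g * c) - t (g * c)) := by
    simp only [s30w_A]; ring
  rw [this]
  exact I.add_mem h1 h2

theorem s30w_D_sub_mem (I : Ideal R) {σ : G} (hσ : ∀ g, t (σ * g) - t g ∈ I) (g : G) :
    s30w_D t c (σ * g) - s30w_D t c g ∈ I := by
  have h1 := hσ g
  have h2 := hσ (g * c)
  rw [← mul_assoc] at h2
  have : s30w_D t c (σ * g) - s30w_D t c g =
      (t (σ * g) - t g) - (t (σ * g * c) - t (g * c)) := by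
    simp only [s30w_D]; ring
  rw [this]
  exact I.sub_mem h1 h2

theorem s30w_A_sub_two_mem (H : s30w_Ident t e c) (I : Ideal R) {σ : G}
    (hσ : ∀ g, t (σ * g) - t g ∈ I) : s30w_A t c σ - 2 ∈ I := by
  have := s30w_A_sub_mem (c := c) I hσ 1
  rw [mul_one] at this
  have hA : s30w_A t c 1 = 2 := by rw [s30w_A, one_mul, H.t_one, H.t_c, add_zero]
  rwa [hA] at this

theorem s30w_D_sub_two_mem (H : s30w_Ident t e c) (I : Ideal R) {σ : G}
    (hσ : ∀ g, t (σ * g) - t g ∈ I) : s30w_D t c σ - 2 ∈ I := by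
  have := s30w_D_sub_mem (c := c) I hσ 1
  rw [mul_one] at this
  have hD : s30w_D t c 1 = 2 := by rw [s30w_D, one_mul, H.t_one, H.t_c, sub_zero]
  rwa [hD] at this

theorem s30w_X_left_mem (H : s30w_Ident t e c) (I : Ideal R) {σ : G}
    (hσ : ∀ g, t (σ * g) - t g ∈ I) (k : G) : s30w_X t c σ k ∈ I := by
  have h1 := s30w_A_sub_mem (c := c) I hσ k
  have h2 := s30w_A_sub_two_mem H I hσ
  have : s30w_X t c σ k = 2 * (s30w_A t c (σ * k) - s30w_A t c k) -
      (s30w_A t c σ - 2) * s30w_A t c k := by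
    simp only [s30w_X]; ring
  rw [this]
  exact I.sub_mem (I.mul_mem_left _ h1) (I.mul_mem_right _ h2)

theorem s30w_A_sub_mem' (H : s30w_Ident t e c) (I : Ideal R) {σ : G}
    (hσ : ∀ g, t (σ * g) - t g ∈ I) (k : G) :
    s30w_A t c (k * σ) - s30w_A t c k ∈ I := by
  have h1 := hσ k
  have h2 := hσ (c * k)
  have e1 : t (k * σ) = t (σ * k) := H.comm k σ
  have e2 : t (k * σ * c) = t (σ * (c * k)) := by
    rw [mul_assoc, H.comm k (σ * c), mul_assoc]
  have e3 : t (k * c) = t (c * k) := H.comm k c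
  have : s30w_A t c (k * σ) - s30w_A t c k =
      (t (σ * k) - t k) + (t (σ * (c * k)) - t (c * k)) := by
    simp only [s30w_A]; rw [e1, e2, e3]; ring
  rw [this]
  exact I.add_mem h1 h2

theorem s30w_X_right_mem (H : s30w_Ident t e c) (I : Ideal R) {σ : G}
    (hσ : ∀ g, t (σ * g) - t g ∈ I) (k : G) : s30w_X t c k σ ∈ I := by
  have h1 := s30w_A_sub_mem' H I hσ k
  have h2 := s30w_A_sub_two_mem H I hσ
  have : s30w_X t c k σ = 2 * (s30w_A t c (k * σ) - s30w_A t c k) -
      s30w_A t c k * (s30w_A t c σ - 2) := by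
    simp only [s30w_X]; ring
  rw [this]
  exact I.sub_mem (I.mul_mem_left _ h1) (I.mul_mem_left _ h2)

end Congr

section Final

variable {R : Type*} [CommRing R] {G : Type*} [Group G]
  {K : Type*} [Field K] [Algebra R K]

/-- The entries of `m • (ρ' σ - 1)` lie in `I` as soon as `t (σ g) ≡ t g` modulo `I`. -/
theorem s30w_mat_sub_one_mem (hι : Function.Injective (algebraMap R K)) (h2 : (2 : R) ≠ 0)
    {t e : G → R} {c : G} (H : s30w_Ident t e c) {g₀ h₀ : G} {x : R} (hx0 : x ≠ 0)
    (hx : (s30w_X t c g₀ h₀ ≠ 0 ∧ x = s30w_X t c g₀ h₀) ∨ ∀ g k, s30w_X t c g k = 0)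
    (I : Ideal R) {σ : G} (hσ : ∀ g, t (σ * g) - t g ∈ I) (i j : Fin 2) :
    ∃ r ∈ I, algebraMap R K r = algebraMap R K (4 * x) *
      (s30w_mat (fun y => algebraMap R K (t y)) c g₀ h₀ σ - 1) i j := by
  have h2K : (2 : K) ≠ 0 := by
    have := hι.ne h2
    rwa [map_ofNat, map_zero] at this
  have h4K := s30w_four_ne_zero h2K
  have hxK : algebraMap R K x ≠ 0 := by
    have := hι.ne hx0
    rwa [map_zero] at this
  fin_cases i <;> fin_cases j
  · refine ⟨2 * x * (s30w_A t c σ - 2), I.mul_mem_left _ (s30w_A_sub_two_mem H I hσ), ?_⟩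
    simp only [s30w_mat, s30w_A_map, Fin.zero_eta, Fin.isValue, Matrix.sub_apply, Matrix.of_apply,
      Matrix.cons_val', Matrix.cons_val_zero, Matrix.cons_val_fin_one, Matrix.one_apply_eq,
      map_mul, map_sub, map_ofNat]
    field_simp
    ring
  · refine ⟨x * s30w_X t c σ h₀, I.mul_mem_left _ (s30w_X_left_mem H I hσ h₀), ?_⟩
    simp only [s30w_mat, s30w_X_map, Fin.zero_eta, Fin.isValue, Fin.mk_one, Matrix.sub_apply,
      Matrix.of_apply, Matrix.cons_val', Matrix.cons_val_zero, Matrix.cons_val_one,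
      Matrix.cons_val_fin_one, ne_eq, zero_ne_one, not_false_eq_true, Matrix.one_apply_ne,
      sub_zero, map_mul, map_ofNat]
    field_simp
  · rcases hx with ⟨hx1, hx2⟩ | hx
    · refine ⟨4 * s30w_X t c g₀ σ, I.mul_mem_left _ (s30w_X_right_mem H I hσ g₀), ?_⟩
      subst hx2
      simp only [s30w_mat, s30w_X_map, Fin.zero_eta, Fin.isValue, Fin.mk_one, Matrix.sub_apply,
        Matrix.of_apply, Matrix.cons_val', Matrix.cons_val_zero, Matrix.cons_val_one,
        Matrix.cons_val_fin_one, ne_eq, one_ne_zero, not_false_eq_true, Matrix.one_apply_ne,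
        sub_zero, map_mul, map_ofNat]
      field_simp
    · refine ⟨0, I.zero_mem, ?_⟩
      simp only [s30w_mat, s30w_X_map, hx, map_zero, Fin.zero_eta, Fin.isValue, Fin.mk_one,
        Matrix.sub_apply, Matrix.of_apply, Matrix.cons_val', Matrix.cons_val_zero,
        Matrix.cons_val_one, Matrix.cons_val_fin_one, ne_eq, one_ne_zero, not_false_eq_true,
        Matrix.one_apply_ne, sub_zero, div_zero, mul_zero]
  · refine ⟨2 * x * (s30w_D t c σ - 2), I.mul_mem_left _ (s30w_D_sub_two_mem H I hσ), ?_⟩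
    simp only [s30w_mat, s30w_D_map, Fin.mk_one, Fin.isValue, Matrix.sub_apply, Matrix.of_apply,
      Matrix.cons_val', Matrix.cons_val_one, Matrix.cons_val_fin_one, Matrix.one_apply_eq,
      map_mul, map_sub, map_ofNat]
    field_simp
    ring

end Final

section MainThm

/-- **Wiles' construction** (Wiles 1988, Lemma 2.2.3): a representation `ρ` on a nonzero
torsion-free module over a domain `R` with `2 ≠ 0`, all of whose elements satisfy
`ρ g + ε g • ρ g⁻¹ = t g`, together with an involution `c` with `ε c = -1`, yields a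
two-dimensional representation over any field containing `R`, with trace `t` and determinant `ε`,
with bounded denominators, and whose entries depend continuously on `t`. -/
theorem s30w_main {R : Type*} [CommRing R] [IsDomain R] (h2 : (2 : R) ≠ 0)
    {G : Type*} [Group G] {V : Type*} [AddCommGroup V] [Module R V] [Module.IsTorsionFree R V]
    [Nontrivial V] (ρ : G →* Module.End R V) (ε : G →* Rˣ) (t : G → R)
    (h : ∀ g, ρ g + ((ε g : Rˣ) : R) • ρ g⁻¹ = t g • 1)
    (c : G) (hc : c * c = 1) (hεc : ε c = -1)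
    {K : Type*} [Field K] [Algebra R K] (hι : Function.Injective (algebraMap R K)) :
    ∃ (ρ' : G →* Matrix (Fin 2) (Fin 2) K) (m : R), m ≠ 0 ∧
      (∀ g, (ρ' g).trace = algebraMap R K (t g)) ∧
      (∀ g, (ρ' g).det = algebraMap R K ((ε g : Rˣ) : R)) ∧
      (∀ g i j, ∃ r : R, algebraMap R K r = algebraMap R K m * ρ' g i j) ∧
      (∀ (I : Ideal R) (σ : G), (∀ g, t (σ * g) - t g ∈ I) →
        ∀ i j, ∃ r ∈ I, algebraMap R K r = algebraMap R K m * (ρ' σ - 1) i j) := by
  have H := s30w_ident h hc hεc h2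
  have HK := H.map (algebraMap R K)
  have h2K : (2 : K) ≠ 0 := by
    have := hι.ne h2
    rwa [map_ofNat, map_zero] at this
  have h4 : (4 : R) ≠ 0 := by
    have : (4 : R) = 2 * 2 := by norm_num
    rw [this]; exact mul_ne_zero h2 h2
  -- the choice of `g₀`, `h₀`, `x`
  obtain ⟨g₀, h₀, x, hx0, hx⟩ : ∃ (g₀ h₀ : G) (x : R), x ≠ 0 ∧
      ((s30w_X t c g₀ h₀ ≠ 0 ∧ x = s30w_X t c g₀ h₀) ∨ ∀ g k, s30w_X t c g k = 0) := by
    by_cases hex : ∃ g₀ h₀, s30w_X t c g₀ h₀ ≠ 0
    · obtain ⟨g₀, h₀, h0⟩ := hex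
      exact ⟨g₀, h₀, _, h0, Or.inl ⟨h0, rfl⟩⟩
    · push Not at hex
      exact ⟨1, 1, 1, one_ne_zero, Or.inr hex⟩
  have hxK : s30w_X (fun y => algebraMap R K (t y)) c g₀ h₀ ≠ 0 ∨
      ∀ g k, s30w_X (fun y => algebraMap R K (t y)) c g k = 0 := by
    rcases hx with ⟨hx1, -⟩ | hx
    · left
      rw [s30w_X_map]
      have := hι.ne hx1
      rwa [map_zero] at this
    · right
      intro g k
      rw [s30w_X_map, hx, map_zero]
  let ρ' : G →* Matrix (Fin 2) (Fin 2) K :=
    { toFun := s30w_mat (fun y => algebraMap R K (t y)) c g₀ h₀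
      map_one' := s30w_mat_one h2K HK g₀ h₀
      map_mul' := s30w_mat_mul h2K HK hxK }
  have hρ' : ∀ g, ρ' g = s30w_mat (fun y => algebraMap R K (t y)) c g₀ h₀ g := fun _ => rfl
  have hcongr : ∀ (I : Ideal R) (σ : G), (∀ g, t (σ * g) - t g ∈ I) →
      ∀ i j, ∃ r ∈ I, algebraMap R K r = algebraMap R K (4 * x) * (ρ' σ - 1) i j := by
    intro I σ hσ i j
    rw [hρ']
    exact s30w_mat_sub_one_mem hι h2 H hx0 hx I hσ i j
  refine ⟨ρ', 4 * x, mul_ne_zero h4 hx0, ?_, ?_, ?_, hcongr⟩
  · intro g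
    rw [hρ']
    exact s30w_mat_trace h2K g₀ h₀ g
  · intro g
    rw [hρ']
    exact s30w_mat_det h2K HK hxK g
  · intro g i j
    obtain ⟨r, -, hr⟩ := hcongr ⊤ g (fun _ => Submodule.mem_top) i j
    refine ⟨r + 4 * x * (1 : Matrix (Fin 2) (Fin 2) R) i j, ?_⟩
    have : algebraMap R K ((1 : Matrix (Fin 2) (Fin 2) R) i j) =
        (1 : Matrix (Fin 2) (Fin 2) K) i j := by
      by_cases hij : i = j
      · subst hij; simp
      · simp [Matrix.one_apply_ne hij]
    rw [map_add, hr, Matrix.sub_apply, mul_sub, map_mul _ (4 * x), this]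
    ring

end MainThm

end Fermat.Agent.Lib.S30
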