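/-
Plan L (S30), package [WIL]: the contract `s30_WilContract` of `TwoCIface.lean`, from Wiles'
construction `s30w_main` of `WilesTwo.lean` (with `R := 𝒪`, `V := Λ`, `K := FractionRing 𝒪`).
-/
import Fermat.Agent.Lib.S30.WilesTwo
import Fermat.Agent.Lib.S30.TwoCIface

set_option autoImplicit false

namespace Fermat.Agent.Lib.S30

open Fermat.Agent.Lib.S29

/-- **[WIL]** the contract of `TwoCIface.lean`. -/
theorem s30w_wilContract : s30_WilContract := by
  intro 𝒪 _ _ _ _ Λ _ _ _ _ _ ρ d t h c hc hdc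
  have h2 : (2 : 𝒪) ≠ 0 := two_ne_zero
  obtain ⟨ρ', m, hm, htr, hdet, hint, hcongr⟩ :=
    s30w_main h2 ρ d t h c hc hdc (K := FractionRing 𝒪) (IsFractionRing.injective 𝒪 _)
  exact ⟨ρ', m, hm, htr, hdet, hint, fun I σ h1 _ => hcongr I σ h1⟩

end Fermat.Agent.Lib.S30
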