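/-
Plan L (S30), package [TWO] form C, FINAL (helper9):
`s30t2_twoC : s30_TwoContractC` from Wiles' construction (`s30w_wilContract`, helper4), the lattice
lemma (`s30l3_lattContract`, LattB.lean) and `s30t2_twoC_of` (TwoC.lean).
-/
import Fermat.Agent.Lib.S30.TwoC
import Fermat.Agent.Lib.S30.WilesTwoC
import Fermat.Agent.Lib.S30.LattB

set_option autoImplicit false

namespace Fermat.Agent.Lib.S30

/-- **[TWO], form C.** -/
theorem s30t2_twoC : s30_TwoContractC :=
  s30t2_twoC_of s30w_wilContract s30l3_lattContract

end Fermat.Agent.Lib.S30
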