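/-
Plan L (S30), package [TWO] (owner helper8), INTERFACE with [EXT-B] (helper4).

`s30_ExtBContract`: for a complete discrete valuation ring `𝒪` of characteristic zero with finite
residue field, fraction field `K`, and a finite extension `L` of `K`, there is a complete discrete
valuation ring `𝒪''` (finite over `𝒪`, finite residue field, characteristic zero, local structure
map) with fraction field `L`, compatibly with `𝒪 → K → L`.  (Mathematically `𝒪''` is the integral
closure of `𝒪` in `L`.)  [TWO] consumes exactly this statement.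
-/
import Mathlib
import Fermat.Agent.Lib.S30.LIface

set_option autoImplicit false

namespace Fermat.Agent.Lib.S30

/-- **[EXT-B]**: the ring of integers of a finite extension of the fraction field of a complete
DVR, with all the instances demanded by S30. -/
def s30_ExtBContract : Prop :=
  ∀ (𝒪 : Type) [CommRing 𝒪] [IsDomain 𝒪] [IsDiscreteValuationRing 𝒪]
    [IsAdicComplete (IsLocalRing.maximalIdeal 𝒪) 𝒪] [Finite (IsLocalRing.ResidueField 𝒪)]
    [CharZero 𝒪]
    (K : Type) [Field K] [Algebra 𝒪 K] [IsFractionRing 𝒪 K]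
    (L : Type) [Field L] [Algebra K L] [Algebra 𝒪 L] [IsScalarTower 𝒪 K L] [FiniteDimensional K L],
    ∃ (𝒪'' : Type) (_ : CommRing 𝒪'') (_ : IsDomain 𝒪'') (_ : IsDiscreteValuationRing 𝒪'')
      (_ : IsAdicComplete (IsLocalRing.maximalIdeal 𝒪'') 𝒪'')
      (_ : Finite (IsLocalRing.ResidueField 𝒪'')) (_ : CharZero 𝒪'')
      (_ : Algebra 𝒪 𝒪'') (_ : Module.Finite 𝒪 𝒪'') (_ : IsLocalHom (algebraMap 𝒪 𝒪''))
      (_ : Algebra 𝒪'' L) (_ : IsScalarTower 𝒪 𝒪'' L) (_ : IsFractionRing 𝒪'' L),
      Function.Injective (algebraMap 𝒪 𝒪'')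

end Fermat.Agent.Lib.S30
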